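import Mathlib

set_option autoImplicit false

namespace Fermat.Agent.S53Lib

open IsLocalRing

/-- The `𝒪`-algebra structure on the dual numbers over the residue field which is used in
`GaloisRep.TangentFinite`. -/
@[reducible] noncomputable def dualAlg (𝒪 : Type) [CommRing 𝒪] [IsLocalRing 𝒪] :
    Algebra 𝒪 (DualNumber (ResidueField 𝒪)) :=
  ((algebraMap (ResidueField 𝒪) (DualNumber (ResidueField 𝒪))).comp
      (algebraMap 𝒪 (ResidueField 𝒪))).toAlgebra

end Fermat.Agent.S53Lib
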