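import Mathlib
import Fermat.Agent.S53.Defs

set_option autoImplicit false

namespace Fermat.Agent.S53Lib

open IsLocalRing

section chainF

variable {𝒪 : Type} [CommRing 𝒪] [IsLocalRing 𝒪]
  {S : Type} [CommRing S] [Algebra 𝒪 S] {𝔪 : Ideal S} [𝔪.IsMaximal]

/-- the kernel of `𝒪 → S ⧸ 𝔪` is the maximal ideal. -/
lemma chainF_ker_eq
    (hres : Function.Surjective (fun o : 𝒪 => Ideal.Quotient.mk 𝔪 (algebraMap 𝒪 S o))) :
    RingHom.ker ((Ideal.Quotient.mk 𝔪).comp (algebraMap 𝒪 S)) = maximalIdeal 𝒪 := by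
  let _ := Ideal.Quotient.field 𝔪
  have : (RingHom.ker ((Ideal.Quotient.mk 𝔪).comp (algebraMap 𝒪 S))).IsMaximal :=
    RingHom.ker_isMaximal_of_surjective _ hres
  exact IsLocalRing.eq_maximalIdeal this

lemma chainF_algebraMap_mem_iff
    (hres : Function.Surjective (fun o : 𝒪 => Ideal.Quotient.mk 𝔪 (algebraMap 𝒪 S o))) (o : 𝒪) :
    algebraMap 𝒪 S o ∈ 𝔪 ↔ o ∈ maximalIdeal 𝒪 := by
  rw [← chainF_ker_eq hres, RingHom.mem_ker, RingHom.comp_apply, Ideal.Quotient.eq_zero_iff_mem]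

/-- existence of the residue map `S → k`. -/
lemma chainF_exists_res
    (hres : Function.Surjective (fun o : 𝒪 => Ideal.Quotient.mk 𝔪 (algebraMap 𝒪 S o))) :
    ∃ res : S →+* ResidueField 𝒪, (∀ o, res (algebraMap 𝒪 S o) = residue 𝒪 o) ∧
      ∀ s, res s = 0 ↔ s ∈ 𝔪 := by
  letI := Ideal.Quotient.field 𝔪
  let f : 𝒪 →+* S ⧸ 𝔪 := (Ideal.Quotient.mk 𝔪).comp (algebraMap 𝒪 S)
  haveI : IsLocalHom f := by
    constructor
    intro o ho
    by_contra h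
    have h1 : o ∈ maximalIdeal 𝒪 := (mem_maximalIdeal o).mpr h
    rw [← chainF_ker_eq hres, RingHom.mem_ker] at h1
    rw [show f o = 0 from h1] at ho
    exact not_isUnit_zero ho
  let g : ResidueField 𝒪 →+* S ⧸ 𝔪 := ResidueField.lift f
  have hg : Function.Bijective g := by
    refine ⟨g.injective, fun y => ?_⟩
    obtain ⟨o, ho⟩ := hres y
    exact ⟨residue 𝒪 o, by rw [← ho]; exact ResidueField.lift_residue_apply f o⟩
  let e := RingEquiv.ofBijective g hg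
  refine ⟨e.symm.toRingHom.comp (Ideal.Quotient.mk 𝔪), fun o => ?_, fun s => ?_⟩
  · simp only [RingHom.comp_apply, RingEquiv.toRingHom_eq_coe, RingHom.coe_coe]
    rw [RingEquiv.symm_apply_eq]
    exact (ResidueField.lift_residue_apply f o).symm
  · simp only [RingHom.comp_apply, RingEquiv.toRingHom_eq_coe, RingHom.coe_coe]
    rw [map_eq_zero_iff _ (RingEquiv.injective _), Ideal.Quotient.eq_zero_iff_mem]

lemma chainF_exists_lift {B : Type} [CommRing B] [Algebra 𝒪 B]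
    (hkill : ∀ a ∈ maximalIdeal 𝒪, algebraMap 𝒪 B a = 0) :
    ∃ ψ : ResidueField 𝒪 →+* B, ∀ o, ψ (residue 𝒪 o) = algebraMap 𝒪 B o :=
  ⟨Ideal.Quotient.lift (maximalIdeal 𝒪) (algebraMap 𝒪 B) hkill, fun _ => rfl⟩

/-- existence of a "tangent functional". -/
lemma chainF_exists_functional
    (hres : Function.Surjective (fun o : 𝒪 => Ideal.Quotient.mk 𝔪 (algebraMap 𝒪 S o)))
    (I' : Ideal S) (h1 : I' ≤ 𝔪)
    (h3 : (maximalIdeal 𝒪).map (algebraMap 𝒪 S) ≤ I') (x : S) (hx : x ∈ 𝔪) (hx' : x ∉ I') :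
    ∃ lam : S →+ ResidueField 𝒪, (∀ o s, lam (algebraMap 𝒪 S o * s) = residue 𝒪 o * lam s) ∧
      lam 1 = 0 ∧ (∀ y ∈ I', lam y = 0) ∧ lam x ≠ 0 := by
  have hkill : ∀ a ∈ maximalIdeal 𝒪, algebraMap 𝒪 (S ⧸ I') a = 0 := by
    intro a ha
    rw [IsScalarTower.algebraMap_apply 𝒪 S (S ⧸ I'), Ideal.Quotient.algebraMap_eq,
      Ideal.Quotient.eq_zero_iff_mem]
    exact h3 (Ideal.mem_map_of_mem _ ha)
  obtain ⟨ψ, hψ⟩ := chainF_exists_lift hkill
  letI : Algebra (ResidueField 𝒪) (S ⧸ I') := ψ.toAlgebra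
  have hnot : Ideal.Quotient.mk I' x ∉ Submodule.span (ResidueField 𝒪) {(1 : S ⧸ I')} := by
    intro hmem
    obtain ⟨c, hc⟩ := Submodule.mem_span_singleton.mp hmem
    obtain ⟨o, rfl⟩ := residue_surjective c
    rw [Algebra.smul_def, mul_one, RingHom.algebraMap_toAlgebra, hψ,
      IsScalarTower.algebraMap_apply 𝒪 S (S ⧸ I'), Ideal.Quotient.algebraMap_eq,
      Ideal.Quotient.eq] at hc
    have ho : algebraMap 𝒪 S o ∈ 𝔪 := by
      have := 𝔪.add_mem (h1 hc) hx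
      simpa using this
    rw [chainF_algebraMap_mem_iff hres] at ho
    have h4 : algebraMap 𝒪 S o ∈ I' := h3 (Ideal.mem_map_of_mem _ ho)
    apply hx'
    have := I'.sub_mem h4 hc
    simpa using this
  obtain ⟨f, hf1, hf2⟩ := Submodule.exists_dual_map_eq_bot_of_notMem hnot inferInstance
  refine ⟨f.toAddMonoidHom.comp (Ideal.Quotient.mk I').toAddMonoidHom, fun o s => ?_, ?_,
    fun y hy => ?_, hf1⟩
  · simp only [AddMonoidHom.comp_apply, RingHom.toAddMonoidHom_eq_coe, AddMonoidHom.coe_coe,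
      LinearMap.toAddMonoidHom_coe, map_mul]
    have : Ideal.Quotient.mk I' (algebraMap 𝒪 S o) * Ideal.Quotient.mk I' s =
        residue 𝒪 o • Ideal.Quotient.mk I' s := by
      rw [Algebra.smul_def, RingHom.algebraMap_toAlgebra, hψ,
        IsScalarTower.algebraMap_apply 𝒪 S (S ⧸ I'), Ideal.Quotient.algebraMap_eq]
    rw [this, map_smul, smul_eq_mul]
  · simp only [AddMonoidHom.comp_apply, RingHom.toAddMonoidHom_eq_coe, AddMonoidHom.coe_coe,
      LinearMap.toAddMonoidHom_coe, map_one]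
    have : f 1 ∈ (Submodule.span (ResidueField 𝒪) {(1 : S ⧸ I')}).map f :=
      Submodule.mem_map_of_mem (Submodule.mem_span_singleton_self _)
    rw [hf2] at this
    simpa using this
  · simp only [AddMonoidHom.comp_apply, RingHom.toAddMonoidHom_eq_coe, AddMonoidHom.coe_coe,
      LinearMap.toAddMonoidHom_coe]
    rw [Ideal.Quotient.eq_zero_iff_mem.mpr hy, map_zero]

/-- existence of a tangent vector separating `x` from `I'`. -/
lemma chainF_exists_hom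
    (hres : Function.Surjective (fun o : 𝒪 => Ideal.Quotient.mk 𝔪 (algebraMap 𝒪 S o)))
    (I' : Ideal S) (h1 : I' ≤ 𝔪) (h2 : 𝔪 ^ 2 ≤ I')
    (h3 : (maximalIdeal 𝒪).map (algebraMap 𝒪 S) ≤ I') (x : S) (hx : x ∈ 𝔪) (hx' : x ∉ I') :
    letI := dualAlg 𝒪
    ∃ φ : S →ₐ[𝒪] DualNumber (ResidueField 𝒪),
      I' ≤ RingHom.ker φ ∧ RingHom.ker φ ≤ 𝔪 ∧ φ x ≠ 0 := by
  letI := dualAlg 𝒪
  obtain ⟨res, hr1, hr2⟩ := chainF_exists_res hres
  obtain ⟨lam, hl1, hl2, hl3, hl4⟩ := chainF_exists_functional hres I' h1 h3 x hx hx'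
  have hdec : ∀ s : S, ∃ o : 𝒪, ∃ m ∈ 𝔪, s = algebraMap 𝒪 S o + m := by
    intro s
    obtain ⟨o, ho⟩ := hres (Ideal.Quotient.mk 𝔪 s)
    refine ⟨o, s - algebraMap 𝒪 S o, ?_, by ring⟩
    rw [← Ideal.Quotient.eq]
    exact ho.symm
  have hlo : ∀ o, lam (algebraMap 𝒪 S o) = 0 := by
    intro o
    have := hl1 o 1
    rwa [mul_one, hl2, mul_zero] at this
  have hleib : ∀ s t, lam (s * t) = res s * lam t + res t * lam s := by
    intro s t
    obtain ⟨o, m, hm, rfl⟩ := hdec s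
    obtain ⟨o', m', hm', rfl⟩ := hdec t
    have e1 : (algebraMap 𝒪 S o + m) * (algebraMap 𝒪 S o' + m') =
        algebraMap 𝒪 S (o * o') + algebraMap 𝒪 S o * m' + algebraMap 𝒪 S o' * m + m * m' := by
      rw [map_mul]; ring
    have e2 : lam (m * m') = 0 := hl3 _ (h2 (by rw [pow_two]; exact Ideal.mul_mem_mul hm hm'))
    rw [e1, map_add, map_add, map_add, e2, hlo, hl1, hl1, map_add, map_add, map_add, map_add,
      hlo, hlo, hr1, hr1, (hr2 m).mpr hm, (hr2 m').mpr hm']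
    ring
  let φ : S →ₐ[𝒪] DualNumber (ResidueField 𝒪) :=
    { toFun := fun s => TrivSqZeroExt.inl (res s) + TrivSqZeroExt.inr (lam s)
      map_one' := by
        simp [hl2]
      map_mul' := by
        intro s t
        ext
        · simp
        · simp [hleib, mul_comm]
      map_zero' := by simp
      map_add' := by
        intro s t
        ext
        · simp
        · simp
      commutes' := by
        intro o
        rw [hr1, hlo]
        simp only [TrivSqZeroExt.inr_zero, add_zero]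
        rfl }
  have hφ : ∀ s, φ s = TrivSqZeroExt.inl (res s) + TrivSqZeroExt.inr (lam s) := fun _ => rfl
  refine ⟨φ, fun y hy => ?_, fun y hy => ?_, fun h => ?_⟩
  · rw [RingHom.mem_ker, hφ, (hr2 y).mpr (h1 hy), hl3 y hy]
    simp
  · rw [RingHom.mem_ker, hφ] at hy
    have := congrArg TrivSqZeroExt.fst hy
    simp only [TrivSqZeroExt.fst_add, TrivSqZeroExt.fst_inl, TrivSqZeroExt.fst_inr, add_zero,
      TrivSqZeroExt.fst_zero] at this
    exact (hr2 y).mp this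
  · rw [hφ] at h
    have := congrArg TrivSqZeroExt.snd h
    simp only [TrivSqZeroExt.snd_add, TrivSqZeroExt.snd_inl, TrivSqZeroExt.snd_inr, zero_add,
      TrivSqZeroExt.snd_zero] at this
    exact hl4 this

omit [𝔪.IsMaximal] in
lemma chainF_le_sup_pow (N : Ideal S) (h : 𝔪 ≤ N ⊔ 𝔪 ^ 2) (j : ℕ) : 𝔪 ≤ N ⊔ 𝔪 ^ (j + 1) := by
  induction j with
  | zero => rw [zero_add, pow_one]; exact le_sup_right
  | succ i ih =>
    have h1 : 𝔪 ^ (i + 1) ≤ N ⊔ 𝔪 ^ (i + 1 + 1) := by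
      calc 𝔪 ^ (i + 1) = 𝔪 ^ i * 𝔪 := pow_succ _ _
        _ ≤ 𝔪 ^ i * (N ⊔ 𝔪 ^ 2) := Ideal.mul_mono_right h
        _ = 𝔪 ^ i * N ⊔ 𝔪 ^ i * 𝔪 ^ 2 := Ideal.mul_sup _ _ _
        _ ≤ N ⊔ 𝔪 ^ (i + 1 + 1) := by
          refine sup_le_sup Ideal.mul_le_right ?_
          rw [← pow_add]
    exact ih.trans (sup_le le_sup_left h1)

omit [IsLocalRing 𝒪] [𝔪.IsMaximal] in
lemma chainF_approx {ι : Type} [Fintype ι] (a : ι → S)
    (hres : Function.Surjective (fun o : 𝒪 => Ideal.Quotient.mk 𝔪 (algebraMap 𝒪 S o)))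
    (J : Ideal S) (hJ : 𝔪 ≤ Ideal.span (Set.range a) ⊔ J) (j : ℕ) :
    ∀ s : S, ∃ p : MvPolynomial ι 𝒪,
      s - MvPolynomial.aeval a p ∈ J ⊔ (Ideal.span (Set.range a)) ^ j := by
  induction j with
  | zero => intro s; exact ⟨0, by simp⟩
  | succ j ih =>
    intro s
    obtain ⟨o, ho⟩ := hres (Ideal.Quotient.mk 𝔪 s)
    have hm : s - algebraMap 𝒪 S o ∈ 𝔪 := by
      rw [← Ideal.Quotient.eq]; exact ho.symm
    obtain ⟨u, hu, y, hy, huy⟩ := Submodule.mem_sup.mp (hJ hm)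
    obtain ⟨c, hc⟩ := Ideal.mem_span_range_iff_exists_fun.mp hu
    choose p hp using fun l => ih (c l)
    refine ⟨MvPolynomial.C o + ∑ l, p l * MvPolynomial.X l, ?_⟩
    have e : s - MvPolynomial.aeval a (MvPolynomial.C o + ∑ l, p l * MvPolynomial.X l) =
        y + ∑ l, (c l - MvPolynomial.aeval a (p l)) * a l := by
      have hs : s = algebraMap 𝒪 S o + (u + y) := by rw [huy]; ring
      rw [map_add, map_sum, MvPolynomial.aeval_C]
      simp only [map_mul, MvPolynomial.aeval_X, sub_mul, Finset.sum_sub_distrib]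
      rw [hc]
      conv_lhs => rw [hs]
      ring
    rw [e]
    refine Ideal.add_mem _ (Ideal.mem_sup_left hy) (Ideal.sum_mem _ fun l _ => ?_)
    obtain ⟨y', hy', z, hz, hyz⟩ := Submodule.mem_sup.mp (hp l)
    rw [← hyz, add_mul]
    refine Ideal.add_mem _ (Ideal.mem_sup_left (J.mul_mem_right _ hy')) (Ideal.mem_sup_right ?_)
    rw [pow_succ]
    exact Ideal.mul_mem_mul hz (Ideal.subset_span ⟨l, rfl⟩)

omit [IsLocalRing 𝒪] [𝔪.IsMaximal] in
lemma chainF_card_le [IsNoetherianRing 𝒪] [Finite (S ⧸ 𝔪)] {ι : Type} [Finite ι] (a : ι → S)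
    (ha : ∀ i, a i ∈ 𝔪)
    (hres : Function.Surjective (fun o : 𝒪 => Ideal.Quotient.mk 𝔪 (algebraMap 𝒪 S o)))
    (n : ℕ) :
    ∃ c : ℕ, ∀ J : Ideal S, 𝔪 ≤ Ideal.span (Set.range a) ⊔ J → 𝔪 ^ n ≤ J →
      Nat.card (S ⧸ J) ≤ c := by
  cases nonempty_fintype ι
  let ev : MvPolynomial ι 𝒪 →ₐ[𝒪] S := MvPolynomial.aeval a
  let 𝔫 : Ideal (MvPolynomial ι 𝒪) := 𝔪.comap ev
  haveI : Finite (MvPolynomial ι 𝒪 ⧸ 𝔫) :=
    Finite.of_injective (Ideal.quotientMap 𝔪 (ev : MvPolynomial ι 𝒪 →+* S) le_rfl)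
      (Ideal.quotientMap_injective)
  haveI : Finite (MvPolynomial ι 𝒪 ⧸ 𝔫 ^ n) :=
    Ideal.finite_quotient_pow (IsNoetherian.noetherian 𝔫) n
  refine ⟨Nat.card (MvPolynomial ι 𝒪 ⧸ 𝔫 ^ n), fun J hJ hnJ => ?_⟩
  have hle : 𝔫 ^ n ≤ J.comap (ev : MvPolynomial ι 𝒪 →+* S) :=
    (Ideal.le_comap_pow _ n).trans (Ideal.comap_mono hnJ)
  refine Nat.card_le_card_of_surjective
    (Ideal.quotientMap J (ev : MvPolynomial ι 𝒪 →+* S) hle) ?_
  intro q
  obtain ⟨s, rfl⟩ := Ideal.Quotient.mk_surjective q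
  obtain ⟨p, hp⟩ := chainF_approx a hres J hJ n s
  refine ⟨Ideal.Quotient.mk _ p, ?_⟩
  rw [Ideal.quotientMap_mk]
  symm
  rw [Ideal.Quotient.eq]
  have h2 : (Ideal.span (Set.range a)) ^ n ≤ J := by
    refine le_trans (Ideal.pow_right_mono ?_ n) hnJ
    rw [Ideal.span_le]
    rintro _ ⟨i, rfl⟩
    exact ha i
  exact (sup_le le_rfl h2) hp

end chainF

theorem exists_chain
    (𝒪 : Type) [CommRing 𝒪] [IsLocalRing 𝒪] [IsNoetherianRing 𝒪] [Finite (ResidueField 𝒪)]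
    (S : Type) [CommRing S] [Algebra 𝒪 S] (𝔪 : Ideal S) [𝔪.IsMaximal]
    (hres : Function.Surjective (fun o : 𝒪 => Ideal.Quotient.mk 𝔪 (algebraMap 𝒪 S o)))
    (Good : Ideal S → Prop)
    (g1 : ∀ I J, Good I → Good J → Good (I ⊓ J))
    (g2 : ∀ I J, Good I → I ≤ J → J ≤ 𝔪 → Good J)
    (g3 : ∀ I, Good I → Finite (S ⧸ I) ∧ I ≤ 𝔪 ∧ ∃ n, 𝔪 ^ n ≤ I)
    (g4 : Good 𝔪)
    (g5 : letI := dualAlg 𝒪
      Set.Finite {φ : S →ₐ[𝒪] DualNumber (ResidueField 𝒪) | Good (RingHom.ker φ)}) :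
    ∃ (I : ℕ → Ideal S) (ι : Type) (_ : Finite ι) (a : ι → S),
      (∀ n, 1 ≤ n → Good (I n)) ∧ (∀ n, 𝔪 ^ n ≤ I n) ∧
      (∀ n J, Good J → 𝔪 ^ n ≤ J → I n ≤ J) ∧
      (∀ n, I n = I (n + 1) ⊔ 𝔪 ^ n) ∧ I 1 = 𝔪 ∧ (∀ i, a i ∈ 𝔪) ∧
      (∀ n, 𝔪 ≤ Ideal.span (Set.range a) ⊔ I n) := by
  letI := dualAlg 𝒪
  classical
  -- the ideal `I₂`
  have hfin : ∀ t : Finset (S →ₐ[𝒪] DualNumber (ResidueField 𝒪)),
      (∀ φ ∈ t, Good (RingHom.ker φ)) → Good (𝔪 ⊓ t.inf (fun φ => RingHom.ker φ)) := by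
    intro t
    induction t using Finset.induction_on with
    | empty => intro _; simpa using g4
    | insert φ t _ ih =>
      intro h
      rw [Finset.inf_insert, inf_left_comm]
      exact g1 _ _ (h φ (Finset.mem_insert_self _ _))
        (ih fun ψ hψ => h ψ (Finset.mem_insert_of_mem hψ))
  set I₂ : Ideal S := 𝔪 ⊓ g5.toFinset.inf (fun φ => RingHom.ker φ) with hI₂
  have hI₂good : Good I₂ := hfin _ (fun φ hφ => by simpa using hφ)
  set 𝔭 : Ideal S := (maximalIdeal 𝒪).map (algebraMap 𝒪 S) with h𝔭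
  have h𝔭𝔪 : 𝔭 ≤ 𝔪 := by
    rw [h𝔭, Ideal.map_le_iff_le_comap]
    intro o ho
    exact (chainF_algebraMap_mem_iff hres o).mpr ho
  -- Claim B
  have claimB : ∀ I, Good I → I₂ ≤ I ⊔ 𝔪 ^ 2 ⊔ 𝔭 := by
    intro I hI x hx
    by_contra hx'
    have hle : I ⊔ 𝔪 ^ 2 ⊔ 𝔭 ≤ 𝔪 :=
      sup_le (sup_le (g3 I hI).2.1 (Ideal.pow_le_self two_ne_zero)) h𝔭𝔪
    obtain ⟨φ, h1, h2, h3⟩ := chainF_exists_hom hres (I ⊔ 𝔪 ^ 2 ⊔ 𝔭) hle
      (le_sup_of_le_left le_sup_right) le_sup_right x hx.1 hx'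
    have hgood : Good (RingHom.ker φ) := g2 I _ hI ((le_sup_of_le_left le_sup_left).trans h1) h2
    have hmem : φ ∈ g5.toFinset := by simpa using hgood
    have : x ∈ RingHom.ker φ :=
      (Finset.inf_le (f := fun φ : S →ₐ[𝒪] DualNumber (ResidueField 𝒪) => RingHom.ker φ) hmem) hx.2
    exact h3 this
  -- generators
  haveI : Finite (S ⧸ I₂) := (g3 _ hI₂good).1
  obtain ⟨sO, hsO⟩ := (IsNoetherian.noetherian (maximalIdeal 𝒪) : (maximalIdeal 𝒪).FG)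
  let a₁ : (S ⧸ I₂) → S := fun q => if q.out ∈ 𝔪 then q.out else 0
  let a₂ : ((sO : Set 𝒪) : Type) → S := fun o => algebraMap 𝒪 S o.1
  let a : (S ⧸ I₂) ⊕ ((sO : Set 𝒪) : Type) → S := Sum.elim a₁ a₂
  have ha : ∀ i, a i ∈ 𝔪 := by
    rintro (q | o)
    · show (if q.out ∈ 𝔪 then q.out else 0) ∈ 𝔪
      split_ifs with h
      · exact h
      · exact 𝔪.zero_mem
    · show algebraMap 𝒪 S o ∈ 𝔪
      refine (chainF_algebraMap_mem_iff hres _).mpr ?_
      rw [← hsO]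
      exact Ideal.subset_span o.2
  have ha1 : 𝔪 ≤ Ideal.span (Set.range a) ⊔ I₂ := by
    intro m hm
    have h1 : (Ideal.Quotient.mk I₂ m).out - m ∈ I₂ := by
      rw [← Ideal.Quotient.eq]
      exact Quotient.out_eq _
    have h2 : (Ideal.Quotient.mk I₂ m).out ∈ 𝔪 := by
      have := 𝔪.add_mem (h1.1) hm
      simpa using this
    have h3 : a (Sum.inl (Ideal.Quotient.mk I₂ m)) = (Ideal.Quotient.mk I₂ m).out := by
      show (if _ then _ else _) = _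
      rw [if_pos h2]
    have h4 : m = a (Sum.inl (Ideal.Quotient.mk I₂ m)) - ((Ideal.Quotient.mk I₂ m).out - m) := by
      rw [h3]; ring
    rw [h4]
    exact Ideal.sub_mem _ (Ideal.mem_sup_left (Ideal.subset_span ⟨_, rfl⟩)) (Ideal.mem_sup_right h1)
  have ha2 : 𝔭 ≤ Ideal.span (Set.range a) := by
    rw [h𝔭, ← hsO, Ideal.map_span, Ideal.span_le]
    rintro _ ⟨o, ho, rfl⟩
    exact Ideal.subset_span ⟨Sum.inr ⟨o, ho⟩, rfl⟩
  have hgen : ∀ I, Good I → 𝔪 ≤ Ideal.span (Set.range a) ⊔ I := by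
    intro I hI
    obtain ⟨-, -, n, hn⟩ := g3 I hI
    have h1 : 𝔪 ≤ (Ideal.span (Set.range a) ⊔ I) ⊔ 𝔪 ^ 2 := by
      refine ha1.trans (sup_le (le_sup_of_le_left le_sup_left) ((claimB I hI).trans ?_))
      refine sup_le (sup_le (le_sup_of_le_left le_sup_right) le_sup_right) ?_
      exact ha2.trans (le_sup_of_le_left le_sup_left)
    refine (chainF_le_sup_pow _ h1 n).trans (sup_le le_rfl ?_)
    exact (Ideal.pow_le_pow_right (Nat.le_succ n)).trans (hn.trans le_sup_right)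
  -- minimal good ideals
  haveI : Finite (S ⧸ 𝔪) := (g3 _ g4).1
  have hmin : ∀ n : ℕ, ∃ I : Ideal S, Good I ∧ 𝔪 ^ (n + 1) ≤ I ∧
      ∀ J, Good J → 𝔪 ^ (n + 1) ≤ J → I ≤ J := by
    intro n
    obtain ⟨c, hc⟩ := chainF_card_le a ha hres (n + 1)
    let T : Set ℕ := {N | ∃ J, Good J ∧ 𝔪 ^ (n + 1) ≤ J ∧ Nat.card (S ⧸ J) = N}
    have hTne : T.Nonempty := ⟨_, 𝔪, g4, Ideal.pow_le_self (Nat.succ_ne_zero n), rfl⟩
    have hTbdd : BddAbove T := ⟨c, by rintro _ ⟨J, hJ, hJn, rfl⟩; exact hc J (hgen J hJ) hJn⟩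
    obtain ⟨I, hI, hIn, hIcard⟩ := Nat.sSup_mem hTne hTbdd
    refine ⟨I, hI, hIn, fun J hJ hJn => ?_⟩
    have hIJ : Good (I ⊓ J) := g1 _ _ hI hJ
    haveI : Finite (S ⧸ (I ⊓ J)) := (g3 _ hIJ).1
    have hcard : Nat.card (S ⧸ (I ⊓ J)) ≤ Nat.card (S ⧸ I) := by
      rw [hIcard]
      exact le_csSup hTbdd ⟨I ⊓ J, hIJ, le_inf hIn hJn, rfl⟩
    have hbij := (Ideal.Quotient.factor_surjective (inf_le_left : I ⊓ J ≤ I)).bijective_of_nat_card_le
      hcard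
    intro x hx
    have h0 : Ideal.Quotient.factor (inf_le_left : I ⊓ J ≤ I) (Ideal.Quotient.mk _ x) =
        Ideal.Quotient.factor (inf_le_left : I ⊓ J ≤ I) 0 := by
      rw [Ideal.Quotient.factor_mk, map_zero, Ideal.Quotient.eq_zero_iff_mem]
      exact hx
    have h1 := hbij.1 h0
    rw [Ideal.Quotient.eq_zero_iff_mem] at h1
    exact h1.2
  choose I' hI'1 hI'2 hI'3 using hmin
  let I : ℕ → Ideal S := fun n => match n with
    | 0 => ⊤
    | (n + 1) => I' n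
  have hIle : ∀ n, I (n + 1) ≤ 𝔪 := fun n => (g3 _ (hI'1 n)).2.1
  refine ⟨I, _, inferInstance, a, ?_, ?_, ?_, ?_, ?_, ha, ?_⟩
  · rintro (_ | n) hn
    · omega
    · exact hI'1 n
  · rintro (_ | n)
    · exact le_top
    · exact hI'2 n
  · rintro (_ | n) J hJ hJn
    · rw [pow_zero, Ideal.one_eq_top] at hJn
      exact hJn
    · exact hI'3 n J hJ hJn
  · rintro (_ | n)
    · simp [I]
    · apply le_antisymm
      · refine hI'3 n _ (g2 _ _ (hI'1 (n + 1)) le_sup_left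
          (sup_le (hIle (n + 1)) (Ideal.pow_le_self (Nat.succ_ne_zero n)))) le_sup_right
      · refine sup_le (hI'3 (n + 1) _ (hI'1 n) ?_) (hI'2 n)
        exact (Ideal.pow_le_pow_right (Nat.le_succ _)).trans (hI'2 n)
  · apply le_antisymm (hIle 0)
    have := hI'2 0
    simpa using this
  · rintro (_ | n)
    · simp [I]
    · exact hgen _ (hI'1 n)

end Fermat.Agent.S53Lib
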