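import Mathlib

set_option autoImplicit false

namespace Fermat.Agent.S53Lib

theorem exists_extension
    (𝒪 : Type) [CommRing 𝒪]
    (S : Type) [CommRing S] [Algebra 𝒪 S] (R : Type) [CommRing R] [Algebra 𝒪 R]
    (θ : S →ₐ[𝒪] R) (M : Ideal R) (I : ℕ → Ideal S)
    (hcomap : ∀ n, (M ^ n).comap θ = I n)
    (hdense : ∀ n (x : R), ∃ s : S, x - θ s ∈ M ^ n)
    (A : Type) [CommRing A] [Algebra 𝒪 A] (𝔞 : Ideal A) [IsAdicComplete 𝔞 A]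
    (φ₀ : S →ₐ[𝒪] A) (hφ₀ : ∀ n, I n ≤ (𝔞 ^ n).comap φ₀) :
    ∃ φ : R →ₐ[𝒪] A, φ.comp θ = φ₀ ∧ ∀ n, M ^ n ≤ (𝔞 ^ n).comap φ := by
  classical
  -- the surjections `S → R ⧸ M ^ n`
  let p : (n : ℕ) → S →+* R ⧸ M ^ n := fun n => (Ideal.Quotient.mk (M ^ n)).comp (θ : S →+* R)
  have hp : ∀ n, Function.Surjective (p n) := by
    intro n x
    obtain ⟨x, rfl⟩ := Ideal.Quotient.mk_surjective x
    obtain ⟨s, hs⟩ := hdense n x
    exact ⟨s, (Ideal.Quotient.eq.mpr hs).symm⟩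
  let g : (n : ℕ) → S →+* A ⧸ 𝔞 ^ n := fun n => (Ideal.Quotient.mk (𝔞 ^ n)).comp (φ₀ : S →+* A)
  have hker : ∀ n, RingHom.ker (p n) ≤ RingHom.ker (g n) := by
    intro n s hs
    have h1 : θ s ∈ M ^ n := Ideal.Quotient.eq_zero_iff_mem.mp hs
    have h2 : s ∈ I n := by rw [← hcomap n]; exact h1
    exact Ideal.Quotient.eq_zero_iff_mem.mpr (hφ₀ n h2)
  let h : (n : ℕ) → R ⧸ M ^ n →+* A ⧸ 𝔞 ^ n := fun n =>
    (p n).liftOfSurjective (hp n) ⟨g n, hker n⟩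
  have hh : ∀ n s, h n (p n s) = g n s := fun n s =>
    (p n).liftOfRightInverse_comp_apply _ _ ⟨g n, hker n⟩ s
  let f : (n : ℕ) → R →+* A ⧸ 𝔞 ^ n := fun n => (h n).comp (Ideal.Quotient.mk (M ^ n))
  have hf_eq : ∀ n (x : R) (s : S), x - θ s ∈ M ^ n →
      f n x = Ideal.Quotient.mk (𝔞 ^ n) (φ₀ s) := by
    intro n x s hs
    have h1 : Ideal.Quotient.mk (M ^ n) x = p n s := Ideal.Quotient.eq.mpr hs
    show h n (Ideal.Quotient.mk (M ^ n) x) = _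
    rw [h1, hh]
    rfl
  have hf : ∀ {m n : ℕ} (hle : m ≤ n), (Ideal.Quotient.factorPow 𝔞 hle).comp (f n) = f m := by
    intro m n hle
    ext x
    obtain ⟨s, hs⟩ := hdense n x
    have hs' : x - θ s ∈ M ^ m := Ideal.pow_le_pow_right hle hs
    show Ideal.Quotient.factorPow 𝔞 hle (f n x) = f m x
    rw [hf_eq n x s hs, hf_eq m x s hs']
    rfl
  let φ : R →+* A := IsAdicComplete.liftRingHom 𝔞 f hf
  have hφ : ∀ n x, Ideal.Quotient.mk (𝔞 ^ n) (φ x) = f n x :=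
    fun n x => IsAdicComplete.mk_liftRingHom 𝔞 f hf n x
  have hφθ : ∀ s, φ (θ s) = φ₀ s := by
    intro s
    rw [← sub_eq_zero]
    apply IsHausdorff.haus (inferInstance : IsHausdorff 𝔞 A)
    intro n
    rw [SModEq.zero, smul_eq_mul, Ideal.mul_top, ← Ideal.Quotient.eq, hφ,
      hf_eq n (θ s) s (by simp)]
  refine ⟨{ toRingHom := φ, commutes' := fun o => ?_ }, ?_, ?_⟩
  · show φ (algebraMap 𝒪 R o) = algebraMap 𝒪 A o
    rw [← θ.commutes o, hφθ, φ₀.commutes o]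
  · ext s
    exact hφθ s
  · intro n x hx
    show φ x ∈ 𝔞 ^ n
    rw [← Ideal.Quotient.eq_zero_iff_mem, hφ, hf_eq n x 0 (by simpa using hx)]
    simp

theorem extension_unique
    (𝒪 : Type) [CommRing 𝒪]
    (S : Type) [CommRing S] [Algebra 𝒪 S] (R : Type) [CommRing R] [Algebra 𝒪 R]
    (θ : S →ₐ[𝒪] R) (M : Ideal R)
    (hdense : ∀ n (x : R), ∃ s : S, x - θ s ∈ M ^ n)
    (A : Type) [CommRing A] [Algebra 𝒪 A] (𝔞 : Ideal A) [IsHausdorff 𝔞 A]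
    (φ φ' : R →ₐ[𝒪] A) (h : M ≤ 𝔞.comap φ) (h' : M ≤ 𝔞.comap φ')
    (heq : φ.comp θ = φ'.comp θ) : φ = φ' := by
  have hpow : ∀ (ψ : R →ₐ[𝒪] A), M ≤ 𝔞.comap ψ → ∀ n, ∀ x ∈ M ^ n, ψ x ∈ 𝔞 ^ n := by
    intro ψ hψ n x hx
    have h1 : (M ^ n).map (ψ : R →+* A) ≤ 𝔞 ^ n := by
      rw [Ideal.map_pow]
      exact Ideal.pow_right_mono (Ideal.map_le_iff_le_comap.mpr hψ) n
    exact h1 (Ideal.mem_map_of_mem _ hx)
  ext x
  rw [← sub_eq_zero]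
  apply IsHausdorff.haus (inferInstance : IsHausdorff 𝔞 A)
  intro n
  rw [SModEq.zero, smul_eq_mul, Ideal.mul_top]
  obtain ⟨s, hs⟩ := hdense n x
  have e : φ (θ s) = φ' (θ s) := DFunLike.congr_fun heq s
  have : φ x - φ' x = φ (x - θ s) - φ' (x - θ s) := by
    rw [map_sub, map_sub, e]; ring
  rw [this]
  exact Ideal.sub_mem _ (hpow φ h n _ hs) (hpow φ' h' n _ hs)

end Fermat.Agent.S53Lib
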