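import Fermat.Agent.S53.Mat

set_option autoImplicit false
set_option linter.unusedSectionVars false
set_option linter.unusedSimpArgs false
set_option linter.unusedVariables false
set_option linter.style.haveILetI false

noncomputable section

namespace Fermat.Agent.S53Lib

open IsLocalRing
open scoped TensorProduct

variable {k : Type} [Field k]

/-- irreducibility of a matrix representation -/
def IrrMat {K : Type} [Field K] (R : GQ →* M2 K) : Prop :=
  ∀ W : Submodule K (Fin 2 → K), (∀ σ : GQ, ∀ x ∈ W, (R σ).mulVec x ∈ W) → W = ⊥ ∨ W = ⊤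

theorem isIrreducible_of_isEquiv {K : Type} [Field K] {ρ₁ ρ₂ : ResidualGaloisRep K}
    (h : ρ₁.IsEquiv ρ₂) (h1 : ρ₁.IsIrreducible) : ρ₂.IsIrreducible := by
  obtain ⟨e⟩ := h
  intro W hW
  have := h1 (W.comap e.toLinearEquiv.toLinearMap) (by
    intro σ x hx
    simp only [Submodule.mem_comap, LinearEquiv.coe_coe] at hx ⊢
    rw [e.map_apply]
    exact hW σ _ hx)
  rcases this with h | h
  · left
    rw [eq_bot_iff]
    intro y hy
    have : e.toLinearEquiv.symm y ∈ W.comap e.toLinearEquiv.toLinearMap := by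
      simpa using hy
    rw [h, Submodule.mem_bot] at this
    have h2 := congrArg e.toLinearEquiv this
    simpa using h2
  · right
    rw [eq_top_iff]
    intro y _
    have : e.toLinearEquiv.symm y ∈ W.comap e.toLinearEquiv.toLinearMap := by
      rw [h]; trivial
    simpa using this

theorem resEquiv_baseChange (k' : Type) [Field k'] [Algebra k k']
    {ρ₁ ρ₂ : ResidualGaloisRep k} (h : ρ₁.IsEquiv ρ₂) :
    (ρ₁.baseChange k').IsEquiv (ρ₂.baseChange k') := by
  obtain ⟨e⟩ := h
  exact ⟨{ toLinearEquiv := e.toLinearEquiv.baseChange k k' ρ₁.V ρ₂.V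
           map_apply := fun σ x => by
            show e.toLinearEquiv.baseChange k k' ρ₁.V ρ₂.V ((ρ₁.ρ σ).baseChange k' x) =
              (ρ₂.ρ σ).baseChange k' (e.toLinearEquiv.baseChange k k' ρ₁.V ρ₂.V x)
            induction x using TensorProduct.induction_on with
            | zero => simp only [map_zero]
            | tmul b v =>
              rw [LinearMap.baseChange_tmul, LinearEquiv.baseChange_tmul,
                LinearEquiv.baseChange_tmul, LinearMap.baseChange_tmul, e.map_apply]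
            | add x y hx hy => simp only [map_add, hx, hy] }⟩

theorem ofMatRes_baseChange (k' : Type) [Field k'] [Algebra k k'] (r : GQ →* M2 k)
    (h : GaloisFactorsThroughFiniteLevel r)
    (h' : GaloisFactorsThroughFiniteLevel (mapMat (algebraMap k k') r)) :
    ((ofMatRes r h).baseChange k').IsEquiv (ofMatRes (mapMat (algebraMap k k') r) h') :=
  ⟨{ toLinearEquiv := TensorProduct.piScalarRight k k' k' (Fin 2),
     map_apply := fun σ x => piScalarRight_baseChange_toLin' (r σ) x }⟩

theorem irrMat_of_absIrr (ρbar : ResidualGaloisRep k) (habs : ρbar.IsAbsolutelyIrreducible)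
    (r : GQ →* M2 k) (h : GaloisFactorsThroughFiniteLevel r) (he : ρbar.IsEquiv (ofMatRes r h)) :
    IrrMat (mapMat (algebraMap k (AlgebraicClosure k)) r) := by
  have h1 : (ofMatRes (mapMat (algebraMap k (AlgebraicClosure k)) r)
      (factors_mapMat h _)).IsIrreducible :=
    isIrreducible_of_isEquiv
      (resEquiv_trans (resEquiv_baseChange (AlgebraicClosure k) he)
        (ofMatRes_baseChange (AlgebraicClosure k) r h (factors_mapMat h _))) habs
  exact fun W hW => h1 W hW

/-- Schur's lemma over an algebraically closed field -/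
theorem schur_algClosed {K : Type} [Field K] [IsAlgClosed K] (R : GQ →* M2 K) (hR : IrrMat R)
    (M : M2 K) (hM : ∀ σ, M * R σ = R σ * M) : ∃ μ : K, M = Matrix.scalar (Fin 2) μ := by
  obtain ⟨μ, hμ⟩ := Module.End.exists_eigenvalue (Matrix.toLin' M)
  obtain ⟨v, hv⟩ := hμ.exists_hasEigenvector
  refine ⟨μ, ?_⟩
  let N : M2 K := M - Matrix.scalar (Fin 2) μ
  have hN : ∀ σ, N * R σ = R σ * N := by
    intro σ
    simp only [N, sub_mul, mul_sub, hM σ]
    congr 1
    exact (Matrix.scalar_commute μ (fun _ => Commute.all _ _) (R σ)).eq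
  have hW := hR (LinearMap.ker (Matrix.toLin' N)) (by
    intro σ x hx
    rw [LinearMap.mem_ker, Matrix.toLin'_apply] at hx ⊢
    rw [Matrix.mulVec_mulVec, hN σ, ← Matrix.mulVec_mulVec, hx, Matrix.mulVec_zero])
  have hvN : v ∈ LinearMap.ker (Matrix.toLin' N) := by
    rw [LinearMap.mem_ker, Matrix.toLin'_apply]
    have h1 : M.mulVec v = μ • v := by
      have := hv.apply_eq_smul
      simpa [Matrix.toLin'_apply] using this
    simp only [N, Matrix.sub_mulVec, h1]
    have h2 : (Matrix.scalar (Fin 2) μ).mulVec v = μ • v := by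
      ext i
      simp [Matrix.scalar_apply, Matrix.mulVec, dotProduct, Matrix.diagonal_apply,
        Fin.sum_univ_two]
    rw [h2, sub_self]
  rcases hW with h | h
  · exfalso
    rw [h, Submodule.mem_bot] at hvN
    exact hv.2 hvN
  · have h3 : Matrix.toLin' N = 0 := LinearMap.ker_eq_top.mp h
    have h4 : N = 0 := by
      have := congrArg LinearMap.toMatrix' h3
      simpa using this
    exact sub_eq_zero.mp h4

/-- Schur's lemma over the ground field -/
theorem schur_of_irrMat (r : GQ →* M2 k)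
    (hR : IrrMat (mapMat (algebraMap k (AlgebraicClosure k)) r))
    (M : M2 k) (hM : ∀ σ, M * r σ = r σ * M) : M 0 1 = 0 ∧ M 1 0 = 0 ∧ M 0 0 = M 1 1 := by
  obtain ⟨μ, hμ⟩ := schur_algClosed _ hR (M.map (algebraMap k (AlgebraicClosure k))) (by
    intro σ
    rw [mapMat_apply', ← Matrix.map_mul, ← Matrix.map_mul, hM σ])
  have hinj := (algebraMap k (AlgebraicClosure k)).injective
  have e := fun i j => congrFun (congrFun hμ i) j
  refine ⟨hinj ?_, hinj ?_, hinj ?_⟩
  · have := e 0 1; simpa using this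
  · have := e 1 0; simpa using this
  · have h0 := e 0 0
    have h1 := e 1 1
    simp only [Matrix.map_apply, Matrix.scalar_apply, Matrix.diagonal_apply_eq] at h0 h1
    rw [h0, h1]

/-- some lower left entry is non zero -/
theorem exists_lowerLeft_ne_zero (r : GQ →* M2 k)
    (hR : IrrMat (mapMat (algebraMap k (AlgebraicClosure k)) r)) : ∃ g : GQ, r g 1 0 ≠ 0 := by
  by_contra hcon
  push Not at hcon
  have hW := hR (LinearMap.ker (LinearMap.proj (R := AlgebraicClosure k)
      (φ := fun _ : Fin 2 => AlgebraicClosure k) 1)) (by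
    intro σ x hx
    rw [LinearMap.mem_ker, LinearMap.proj_apply] at hx ⊢
    simp [Matrix.mulVec, dotProduct, Fin.sum_univ_two, hx, hcon σ])
  rcases hW with h | h
  · have : (![1, 0] : Fin 2 → AlgebraicClosure k) ∈ LinearMap.ker (LinearMap.proj
      (R := AlgebraicClosure k) (φ := fun _ : Fin 2 => AlgebraicClosure k) 1) := by
      simp [LinearMap.mem_ker]
    rw [h, Submodule.mem_bot] at this
    have := congrFun this 0
    simp at this
  · have : (![0, 1] : Fin 2 → AlgebraicClosure k) ∈ LinearMap.ker (LinearMap.proj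
      (R := AlgebraicClosure k) (φ := fun _ : Fin 2 => AlgebraicClosure k) 1) := by
      rw [h]; trivial
    simp [LinearMap.mem_ker] at this

/-- The normal form of an absolutely irreducible residual representation. -/
theorem exists_normalForm (ρbar : ResidualGaloisRep k) (habs : ρbar.IsAbsolutelyIrreducible) :
    ∃ (rbar : GQ →* M2 k) (hb : GaloisFactorsThroughFiniteLevel rbar) (g₀ g₁ : GQ)
      (i₀ j₀ : Fin 2), ρbar.IsEquiv (ofMatRes rbar hb) ∧ rbar g₀ 0 0 = 0 ∧ rbar g₀ 1 0 = 1 ∧
      (rbar g₀ * rbar g₁ - rbar g₁ * rbar g₀) i₀ j₀ ≠ 0 ∧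
      (∀ M : M2 k, (∀ σ, M * rbar σ = rbar σ * M) → M 0 1 = 0 ∧ M 1 0 = 0 ∧ M 0 0 = M 1 1) := by
  obtain ⟨r₀, h₀, he₀⟩ := exists_ofMatRes_isEquiv ρbar
  obtain ⟨g₀, hg₀⟩ := exists_lowerLeft_ne_zero r₀ (irrMat_of_absIrr ρbar habs r₀ h₀ he₀)
  -- `Q = [e₁ | r₀ g₀ e₁]`, `P = Q⁻¹`
  set a := r₀ g₀ 0 0 with ha
  set c := r₀ g₀ 1 0 with hc
  let Q : M2 k := !![1, a; 0, c]
  let P : M2 k := !![1, -a / c; 0, 1 / c]
  have hPQ : P * Q = 1 := by
    ext i j
    fin_cases i <;> fin_cases j <;> simp [P, Q, Matrix.mul_apply, Fin.sum_univ_two] <;> field_simp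
    ring
  have hQP : Q * P = 1 := by
    ext i j
    fin_cases i <;> fin_cases j <;> simp [P, Q, Matrix.mul_apply, Fin.sum_univ_two] <;> field_simp
    ring
  let rbar := conjMat P Q hPQ hQP r₀
  have hb : GaloisFactorsThroughFiniteLevel rbar := factors_conjMat h₀ P Q hPQ hQP
  have he : ρbar.IsEquiv (ofMatRes rbar hb) := by
    refine resEquiv_trans he₀ ((ofMatRes_isEquiv_iff _ _ _ _).mpr ⟨P, Q, hPQ, hQP, fun σ => ?_⟩)
    show P * r₀ σ = P * r₀ σ * Q * P
    rw [mul_assoc, mul_assoc, hQP, mul_one]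
  have hirr := irrMat_of_absIrr ρbar habs rbar hb he
  have hschur := schur_of_irrMat rbar hirr
  -- first column of `rbar g₀`
  have hcol : rbar g₀ * !![1, 0; 0, 0] = !![0, 0; 1, 0] := by
    have h1 : Q * !![(1:k), 0; 0, 0] = !![1, 0; 0, 0] := by
      ext i j
      fin_cases i <;> fin_cases j <;> simp [Q, Matrix.mul_apply, Fin.sum_univ_two]
    have h2 : r₀ g₀ * !![(1:k), 0; 0, 0] = Q * !![0, 0; 1, 0] := by
      ext i j
      fin_cases i <;> fin_cases j <;> simp [Q, Matrix.mul_apply, Fin.sum_univ_two, ha, hc]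
    show P * r₀ g₀ * Q * _ = _
    rw [mul_assoc, h1, mul_assoc, h2, ← mul_assoc, hPQ, one_mul]
  have h00 : rbar g₀ 0 0 = 0 := by
    have := congrFun (congrFun hcol 0) 0
    simpa [Matrix.mul_apply, Fin.sum_univ_two] using this
  have h10 : rbar g₀ 1 0 = 1 := by
    have := congrFun (congrFun hcol 1) 0
    simpa [Matrix.mul_apply, Fin.sum_univ_two] using this
  have hex : ∃ (g₁ : GQ) (i₀ j₀ : Fin 2), (rbar g₀ * rbar g₁ - rbar g₁ * rbar g₀) i₀ j₀ ≠ 0 := by
    by_contra hcon
    push Not at hcon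
    have := (hschur (rbar g₀) (fun σ => by
      rw [← sub_eq_zero]; ext i j; exact hcon σ i j)).2.1
    rw [h10] at this
    exact one_ne_zero this
  obtain ⟨g₁, i₀, j₀, hne⟩ := hex
  exact ⟨rbar, hb, g₀, g₁, i₀, j₀, he, h00, h10, hne, hschur⟩

end Fermat.Agent.S53Lib
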