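import Mathlib
import Fermat.Prelude.Thm_IsAdicComplete_of_module_finite

set_option autoImplicit false

namespace Fermat.Agent.S53Lib

/-- Successive approximation in a precomplete ring along a chain of ideals. -/
theorem limG_exists_limit {P : Type*} [CommRing P] (𝔞 : Ideal P) [IsPrecomplete 𝔞 P]
    (J : ℕ → Ideal P) (hpow : ∀ n, 𝔞 ^ n ≤ J n) (hstep : ∀ n, J n ≤ J (n + 1) ⊔ 𝔞 ^ n)
    (n₀ : ℕ) (y : ℕ → P) (hy : ∀ m, n₀ ≤ m → y (m + 1) - y m ∈ J m) :
    ∃ z : P, (∀ m, n₀ ≤ m → z - y m ∈ J m) ∧ z - y n₀ ∈ 𝔞 ^ n₀ := by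
  classical
  have hstep' : ∀ (k : ℕ) (z : {z : P // z - y (n₀ + k) ∈ J (n₀ + k)}),
      ∃ z' : {z : P // z - y (n₀ + (k + 1)) ∈ J (n₀ + (k + 1))},
        (z' : P) - z ∈ 𝔞 ^ (n₀ + k) := by
    rintro k ⟨z, hz⟩
    have h1 : y (n₀ + k + 1) - z ∈ J (n₀ + k) := by
      have := (J (n₀ + k)).sub_mem (hy (n₀ + k) (Nat.le_add_right _ _)) hz
      simpa using this
    obtain ⟨κ, hκ, μ, hμ, hsum⟩ := Submodule.mem_sup.mp (hstep _ h1)
    refine ⟨⟨z + μ, ?_⟩, by simpa using hμ⟩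
    have : z + μ - y (n₀ + (k + 1)) = -κ := by
      have h2 : y (n₀ + (k + 1)) = y (n₀ + k + 1) := rfl
      rw [h2]; linear_combination hsum
    rw [this]
    exact (J _).neg_mem hκ
  choose step hstepmem using hstep'
  let w : (k : ℕ) → {z : P // z - y (n₀ + k) ∈ J (n₀ + k)} := fun k =>
    Nat.rec (motive := fun k => {z : P // z - y (n₀ + k) ∈ J (n₀ + k)})
      ⟨y n₀, by simp⟩ (fun k z => step k z) k
  obtain ⟨v, hv0, hvsucc, hvmem⟩ : ∃ v : ℕ → P, v 0 = y n₀ ∧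
      (∀ k, v (k + 1) - v k ∈ 𝔞 ^ (n₀ + k)) ∧ ∀ k, v k - y (n₀ + k) ∈ J (n₀ + k) :=
    ⟨fun k => (w k).1, rfl, fun k => hstepmem k (w k), fun k => (w k).2⟩
  let f : ℕ → P := fun m => v (m - n₀)
  have hf : AdicCompletion.IsAdicCauchy 𝔞 P f := by
    rw [AdicCompletion.isAdicCauchy_iff]
    intro n
    rw [SModEq.sub_mem, smul_eq_mul, Ideal.mul_top]
    by_cases hn : n₀ ≤ n
    · obtain ⟨k, rfl⟩ := Nat.exists_eq_add_of_le hn
      have h1 : n₀ + k + 1 - n₀ = k + 1 := by omega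
      have h2 : n₀ + k - n₀ = k := by omega
      simp only [f, h1, h2]
      have := (𝔞 ^ (n₀ + k)).neg_mem (hvsucc k)
      simpa using this
    · have h1 : n + 1 - n₀ = 0 := by omega
      have h2 : n - n₀ = 0 := by omega
      simp only [f, h1, h2, sub_self]
      exact Submodule.zero_mem _
  obtain ⟨L, hL⟩ := IsPrecomplete.prec' (I := 𝔞) f (fun {m n} hmn => hf hmn)
  have hL' : ∀ n, L - f n ∈ 𝔞 ^ n := by
    intro n
    have := hL n
    rw [SModEq.sub_mem, smul_eq_mul, Ideal.mul_top] at this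
    have := (𝔞 ^ n).neg_mem this
    simpa using this
  refine ⟨L, fun m hm => ?_, ?_⟩
  · obtain ⟨k, rfl⟩ := Nat.exists_eq_add_of_le hm
    have h2 : n₀ + k - n₀ = k := by omega
    have h3 : f (n₀ + k) = v k := by simp only [f, h2]
    have h4 := (J (n₀ + k)).add_mem (hpow _ (hL' (n₀ + k))) (hvmem k)
    rw [h3] at h4
    simpa using h4
  · have h3 : f n₀ = y n₀ := by simp only [f, Nat.sub_self]; exact hv0
    have := hL' n₀
    rwa [h3] at this

/-- Nilpotent Nakayama for ring homomorphisms. -/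
theorem limG_surjective_of_nilpotent {P A : Type*} [CommRing P] [CommRing A] (f : P →+* A)
    (𝔞 : Ideal P) (n : ℕ) (h1 : ∀ x : A, ∃ p : P, x - f p ∈ 𝔞.map f)
    (h2 : 𝔞 ^ n ≤ RingHom.ker f) : Function.Surjective f := by
  have key : ∀ j : ℕ, ∀ y ∈ (𝔞 ^ j).map f, ∃ p ∈ 𝔞 ^ j, y - f p ∈ (𝔞 ^ (j + 1)).map f := by
    intro j y hy
    refine Submodule.span_induction (p := fun y _ => ∃ p ∈ 𝔞 ^ j, y - f p ∈ (𝔞 ^ (j + 1)).map f)
      ?_ ?_ ?_ ?_ hy
    · rintro _ ⟨u, hu, rfl⟩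
      exact ⟨u, hu, by simp⟩
    · exact ⟨0, Submodule.zero_mem _, by simp⟩
    · rintro x y _ _ ⟨p, hp, hxp⟩ ⟨q, hq, hyq⟩
      refine ⟨p + q, Submodule.add_mem _ hp hq, ?_⟩
      have := Submodule.add_mem _ hxp hyq
      rw [map_add]
      convert this using 1
      ring
    · rintro c y _ ⟨p, hp, hyp⟩
      obtain ⟨p₁, hp₁⟩ := h1 c
      refine ⟨p₁ * p, Ideal.mul_mem_left _ _ hp, ?_⟩
      have e : c • y - f (p₁ * p) = c * (y - f p) + (c - f p₁) * f p := by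
        rw [map_mul, smul_eq_mul]; ring
      rw [e]
      refine Submodule.add_mem _ (Ideal.mul_mem_left _ _ hyp) ?_
      have : (c - f p₁) * f p ∈ 𝔞.map f * (𝔞 ^ j).map f :=
        Ideal.mul_mem_mul hp₁ (Ideal.mem_map_of_mem f hp)
      rwa [← Ideal.map_mul, ← pow_succ'] at this
  have main : ∀ j : ℕ, ∀ x : A, ∃ p : P, x - f p ∈ (𝔞 ^ j).map f := by
    intro j
    induction j with
    | zero => intro x; exact ⟨0, by simp [Ideal.one_eq_top, Ideal.map_top]⟩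
    | succ j ih =>
      intro x
      obtain ⟨p, hp⟩ := ih x
      obtain ⟨q, -, hq⟩ := key j _ hp
      refine ⟨p + q, ?_⟩
      rw [map_add]
      convert hq using 1
      ring
  intro x
  obtain ⟨p, hp⟩ := main n x
  have hbot : (𝔞 ^ n).map f = ⊥ := by
    rw [Ideal.map_eq_bot_iff_le_ker]; exact h2
  rw [hbot, Ideal.mem_bot, sub_eq_zero] at hp
  exact ⟨p, hp.symm⟩

/-- The abstract limit construction: `P` is a noetherian ring, complete for the ideal generated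
by the `u i`, mapping compatibly onto all the `S ⧸ I n`. -/
theorem limG_abstract
    (𝒪 : Type) [CommRing 𝒪]
    (S : Type) [CommRing S] [Algebra 𝒪 S] (𝔪 : Ideal S)
    (I : ℕ → Ideal S)
    (hpow : ∀ n, 𝔪 ^ n ≤ I n)
    (hstep : ∀ n, I n = I (n + 1) ⊔ 𝔪 ^ n)
    (hI1 : I 1 = 𝔪)
    (ι : Type) (a : ι → S) (ha : ∀ i, a i ∈ 𝔪)
    (hgen : ∀ n, 𝔪 ≤ Ideal.span (Set.range a) ⊔ I n)
    (P : Type) [CommRing P] [Algebra 𝒪 P] [IsNoetherianRing P]
    (u : ι → P) [IsAdicComplete (Ideal.span (Set.range u)) P]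
    (π : ∀ n, P →ₐ[𝒪] S ⧸ I n)
    (hπu : ∀ n i, π n (u i) = Ideal.Quotient.mk (I n) (a i))
    (hπs : ∀ n, Function.Surjective (π n))
    (hπc : ∀ n p s, π (n + 1) p = Ideal.Quotient.mk (I (n + 1)) s →
      π n p = Ideal.Quotient.mk (I n) s) :
    ∃ (R : Type) (_ : CommRing R) (_ : Algebra 𝒪 R) (θ : S →ₐ[𝒪] R),
      IsNoetherianRing R ∧ IsAdicComplete (𝔪.map θ) R ∧
      (∀ n, ((𝔪.map θ) ^ n).comap θ = I n) ∧
      (∀ n (x : R), ∃ s : S, x - θ s ∈ (𝔪.map θ) ^ n) := by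
  classical
  set 𝔞 : Ideal P := Ideal.span (Set.range u) with h𝔞
  have hmap : ∀ n, 𝔞.map (π n) = 𝔪.map (Ideal.Quotient.mk (I n)) := by
    intro n
    have e1 : 𝔞.map (π n) = (Ideal.span (Set.range a)).map (Ideal.Quotient.mk (I n)) := by
      rw [h𝔞, Ideal.map_span, Ideal.map_span, ← Set.range_comp, ← Set.range_comp]
      congr 2
      funext i
      exact hπu n i
    rw [e1]
    apply le_antisymm
    · exact Ideal.map_mono (Ideal.span_le.mpr (by rintro _ ⟨i, rfl⟩; exact ha i))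
    · refine (Ideal.map_mono (hgen n)).trans ?_
      rw [Ideal.map_sup, Ideal.map_quotient_self, sup_bot_eq]
  have hmappow : ∀ n j, (𝔞 ^ j).map (π n) = (𝔪 ^ j).map (Ideal.Quotient.mk (I n)) := by
    intro n j
    rw [Ideal.map_pow, Ideal.map_pow, hmap]
  let J : ℕ → Ideal P := fun n => RingHom.ker (π n)
  have hJmem : ∀ n p, p ∈ J n ↔ π n p = 0 := fun n p => RingHom.mem_ker
  have hJpow : ∀ n, 𝔞 ^ n ≤ J n := by
    intro n
    rw [← Ideal.map_eq_bot_iff_le_ker, hmappow, Ideal.map_eq_bot_iff_le_ker, Ideal.mk_ker]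
    exact hpow n
  have hJanti : ∀ n, J (n + 1) ≤ J n := by
    intro n p hp
    rw [hJmem] at hp ⊢
    have := hπc n p 0 (by rw [hp, map_zero])
    rw [this, map_zero]
  have hJanti' : ∀ m n, m ≤ n → J n ≤ J m := by
    intro m n hmn
    induction hmn with
    | refl => exact le_rfl
    | step _ ih => exact (hJanti _).trans ih
  have hJstep : ∀ n, J n ≤ J (n + 1) ⊔ 𝔞 ^ n := by
    intro n p hp
    rw [hJmem] at hp
    obtain ⟨s, hs⟩ := Ideal.Quotient.mk_surjective (π (n + 1) p)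
    have h1 := hπc n p s hs.symm
    rw [hp] at h1
    have h2 : s ∈ I n := Ideal.Quotient.eq_zero_iff_mem.mp h1.symm
    rw [hstep n] at h2
    obtain ⟨s₁, hs₁, s₂, hs₂, rfl⟩ := Submodule.mem_sup.mp h2
    have h3 : π (n + 1) p = Ideal.Quotient.mk (I (n + 1)) s₂ := by
      rw [← hs, map_add, Ideal.Quotient.eq_zero_iff_mem.mpr hs₁, zero_add]
    have h4 : π (n + 1) p ∈ (𝔞 ^ n).map (π (n + 1)) := by
      rw [hmappow, h3]
      exact Ideal.mem_map_of_mem _ hs₂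
    obtain ⟨z, hz, hzp⟩ := (Ideal.mem_map_iff_of_surjective (π (n + 1)) (hπs _)).mp h4
    refine Submodule.mem_sup.mpr ⟨p - z, ?_, z, hz, by ring⟩
    rw [hJmem, map_sub, hzp, sub_self]
  let Jinf : Ideal P := ⨅ n, J n
  have hJinfle : ∀ n, Jinf ≤ J n := fun n => iInf_le _ n
  let ψ : ∀ n, (P ⧸ Jinf) →ₐ[𝒪] S ⧸ I n := fun n =>
    Ideal.Quotient.liftₐ Jinf (π n) (fun p hp => (hJmem n p).mp (hJinfle n hp))
  have hψmk : ∀ n p, ψ n (Ideal.Quotient.mk Jinf p) = π n p := fun n p => rfl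
  have hψinj : ∀ x y : P ⧸ Jinf, (∀ n, ψ n x = ψ n y) → x = y := by
    intro x y h
    obtain ⟨p, rfl⟩ := Ideal.Quotient.mk_surjective x
    obtain ⟨q, rfl⟩ := Ideal.Quotient.mk_surjective y
    rw [Ideal.Quotient.eq]
    refine (Ideal.mem_iInf).mpr fun n => ?_
    rw [hJmem, map_sub, sub_eq_zero]
    exact h n
  have hex : ∀ s : S, ∃ p : P, ∀ n, π n p = Ideal.Quotient.mk (I n) s := by
    intro s
    choose y hy using fun n => hπs n (Ideal.Quotient.mk (I n) s)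
    obtain ⟨z, hz, -⟩ := limG_exists_limit 𝔞 J hJpow hJstep 0 y (by
      intro m _
      rw [hJmem, map_sub, hy m, hπc m _ s (hy (m + 1)), sub_self])
    refine ⟨z, fun n => ?_⟩
    have := hz n (Nat.zero_le _)
    rw [hJmem, map_sub, sub_eq_zero, hy n] at this
    exact this
  choose pS hpS using hex
  have hθ : ∀ n s, ψ n (Ideal.Quotient.mk Jinf (pS s)) = Ideal.Quotient.mk (I n) s :=
    fun n s => (hψmk n _).trans (hpS s n)
  let θ : S →ₐ[𝒪] (P ⧸ Jinf) :=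
    { toFun := fun s => Ideal.Quotient.mk Jinf (pS s)
      map_one' := hψinj _ _ fun n => by rw [hθ, map_one, map_one]
      map_mul' := fun s t => hψinj _ _ fun n => by rw [hθ, map_mul, map_mul, hθ, hθ]
      map_zero' := hψinj _ _ fun n => by rw [hθ, map_zero, map_zero]
      map_add' := fun s t => hψinj _ _ fun n => by rw [hθ, map_add, map_add, hθ, hθ]
      commutes' := fun o => hψinj _ _ fun n => by
        rw [hθ, AlgHom.commutes]; rfl }
  have hψθ : ∀ n s, ψ n (θ s) = Ideal.Quotient.mk (I n) s := hθ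
  have hJsup : ∀ n, J n ≤ Jinf ⊔ 𝔞 ^ n := by
    intro n x hx
    obtain ⟨z, hz, hzx⟩ := limG_exists_limit 𝔞 J hJpow hJstep n
      (fun m => if m ≤ n then x else 0) (by
        intro m hm
        have h1 : ¬ (m + 1 ≤ n) := by omega
        by_cases h2 : m ≤ n
        · have : m = n := le_antisymm h2 hm
          subst this
          simp only [h1, if_false, le_refl, if_true, zero_sub]
          exact (J m).neg_mem hx
        · simp only [h1, h2, if_false, sub_self]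
          exact Submodule.zero_mem _)
    simp only [le_refl, if_true] at hzx
    have hzJ : z ∈ Jinf := by
      refine (Ideal.mem_iInf).mpr fun m => ?_
      have h1 := hz (max m n + 1) (by omega)
      have h2 : ¬ (max m n + 1 ≤ n) := by omega
      simp only [h2, if_false, sub_zero] at h1
      exact hJanti' m _ (by omega) h1
    refine Submodule.mem_sup.mpr ⟨z, hzJ, x - z, ?_, by ring⟩
    have := (𝔞 ^ n).neg_mem hzx
    simpa using this
  set 𝔄 : Ideal (P ⧸ Jinf) := 𝔞.map (Ideal.Quotient.mk Jinf) with h𝔄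
  have hker : ∀ n (x : P ⧸ Jinf), ψ n x = 0 ↔ x ∈ 𝔄 ^ n := by
    intro n x
    rw [h𝔄, ← Ideal.map_pow]
    constructor
    · intro hx
      obtain ⟨p, rfl⟩ := Ideal.Quotient.mk_surjective x
      rw [hψmk, ← hJmem] at hx
      obtain ⟨j, hj, t, ht, rfl⟩ := Submodule.mem_sup.mp (hJsup n hx)
      rw [map_add, Ideal.Quotient.eq_zero_iff_mem.mpr hj, zero_add]
      exact Ideal.mem_map_of_mem _ ht
    · intro hx
      obtain ⟨t, ht, rfl⟩ :=
        (Ideal.mem_map_iff_of_surjective _ Ideal.Quotient.mk_surjective).mp hx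
      rw [hψmk, ← hJmem]
      exact hJpow n ht
  have hm𝔄 : 𝔪.map θ = 𝔄 := by
    apply le_antisymm
    · rw [Ideal.map_le_iff_le_comap]
      intro s hs
      rw [Ideal.mem_comap, ← pow_one 𝔄, ← hker, hψθ, Ideal.Quotient.eq_zero_iff_mem, hI1]
      exact hs
    · rw [h𝔄, h𝔞, Ideal.map_span, Ideal.span_le]
      rintro _ ⟨_, ⟨i, rfl⟩, rfl⟩
      have : Ideal.Quotient.mk Jinf (u i) = θ (a i) :=
        hψinj _ _ fun n => by rw [hψmk, hψθ, hπu]
      rw [this]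
      exact Ideal.mem_map_of_mem _ (ha i)
  refine ⟨P ⧸ Jinf, inferInstance, inferInstance, θ, inferInstance, ?_, ?_, ?_⟩
  · rw [hm𝔄]
    have h1 : IsAdicComplete 𝔞 (P ⧸ Jinf) := IsAdicComplete.of_module_finite 𝔞 (P ⧸ Jinf)
    exact (IsAdicComplete.map_algebraMap_iff (I := 𝔞) (S := P ⧸ Jinf) (M := P ⧸ Jinf)).mpr h1
  · intro n
    rw [hm𝔄]
    ext s
    rw [Ideal.mem_comap, ← hker, hψθ, Ideal.Quotient.eq_zero_iff_mem]
  · intro n x
    rw [hm𝔄]
    obtain ⟨s, hs⟩ := Ideal.Quotient.mk_surjective (ψ n x)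
    refine ⟨s, ?_⟩
    rw [← hker, map_sub, hψθ, hs, sub_self]

theorem exists_complete_limit
    (𝒪 : Type) [CommRing 𝒪] [IsNoetherianRing 𝒪]
    (S : Type) [CommRing S] [Algebra 𝒪 S] (𝔪 : Ideal S)
    (hres : Function.Surjective (fun o : 𝒪 => Ideal.Quotient.mk 𝔪 (algebraMap 𝒪 S o)))
    (I : ℕ → Ideal S)
    (hpow : ∀ n, 𝔪 ^ n ≤ I n)
    (hstep : ∀ n, I n = I (n + 1) ⊔ 𝔪 ^ n)
    (hI1 : I 1 = 𝔪)
    (ι : Type) [Finite ι] (a : ι → S) (ha : ∀ i, a i ∈ 𝔪)
    (hgen : ∀ n, 𝔪 ≤ Ideal.span (Set.range a) ⊔ I n) :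
    ∃ (R : Type) (_ : CommRing R) (_ : Algebra 𝒪 R) (θ : S →ₐ[𝒪] R),
      IsNoetherianRing R ∧ IsAdicComplete (𝔪.map θ) R ∧
      (∀ n, ((𝔪.map θ) ^ n).comap θ = I n) ∧
      (∀ n (x : R), ∃ s : S, x - θ s ∈ (𝔪.map θ) ^ n) := by
  classical
  let ev : MvPolynomial ι 𝒪 →ₐ[𝒪] S := MvPolynomial.aeval a
  have hev1 : (MvPolynomial.idealOfVars ι 𝒪).map ev ≤ 𝔪 := by
    rw [Ideal.map_span, Ideal.span_le]
    rintro _ ⟨_, ⟨i, rfl⟩, rfl⟩
    simpa [ev] using ha i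
  have hev : ∀ n, ∀ p ∈ (MvPolynomial.idealOfVars ι 𝒪) ^ n, ev p ∈ 𝔪 ^ n := by
    intro n p hp
    have h1 : ev p ∈ ((MvPolynomial.idealOfVars ι 𝒪) ^ n).map ev := Ideal.mem_map_of_mem _ hp
    rw [Ideal.map_pow] at h1
    exact Ideal.pow_right_mono hev1 n h1
  let q : ∀ n, (MvPolynomial ι 𝒪 ⧸ (MvPolynomial.idealOfVars ι 𝒪) ^ n) →ₐ[𝒪] S ⧸ I n := fun n =>
    Ideal.Quotient.liftₐ _ ((Ideal.Quotient.mkₐ 𝒪 (I n)).comp ev) (fun p hp => by
      simp only [AlgHom.comp_apply, Ideal.Quotient.mkₐ_eq_mk]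
      exact Ideal.Quotient.eq_zero_iff_mem.mpr (hpow n (hev n p hp)))
  let π : ∀ n, MvPowerSeries ι 𝒪 →ₐ[𝒪] S ⧸ I n := fun n =>
    (q n).comp ((MvPowerSeries.truncTotalAlgHom ι 𝒪 n).restrictScalars 𝒪)
  have hπ : ∀ n f, π n f = Ideal.Quotient.mk (I n) (ev (MvPowerSeries.truncTotal n f)) :=
    fun n f => rfl
  have hπX : ∀ n i, π n (MvPowerSeries.X i) = Ideal.Quotient.mk (I n) (a i) := by
    intro n i
    have h1 : (MvPowerSeries.truncTotalAlgHom ι 𝒪 n) (MvPowerSeries.X i) =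
        Ideal.Quotient.mk _ (MvPolynomial.X i) := by
      have := (MvPowerSeries.truncTotalAlgHom ι 𝒪 n).commutes (MvPolynomial.X i)
      rw [← MvPolynomial.coe_X]
      exact this
    have h2 : π n (MvPowerSeries.X i) =
        q n ((MvPowerSeries.truncTotalAlgHom ι 𝒪 n) (MvPowerSeries.X i)) := rfl
    rw [h2, h1]
    show Ideal.Quotient.mk (I n) (ev (MvPolynomial.X i)) = _
    simp [ev]
  have hIanti : ∀ n, I (n + 1) ≤ I n := fun n => by rw [hstep n]; exact le_sup_left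
  have hπc : ∀ n p s, π (n + 1) p = Ideal.Quotient.mk (I (n + 1)) s →
      π n p = Ideal.Quotient.mk (I n) s := by
    intro n p s h
    rw [hπ, Ideal.Quotient.eq] at h ⊢
    have h1 := hIanti n h
    have h2 : ev (MvPowerSeries.truncTotal n p) - ev (MvPowerSeries.truncTotal (n + 1) p) ∈ I n := by
      rw [← map_sub]
      exact hpow n (hev n _ (MvPowerSeries.truncTotal_sub_truncTotal_mem_pow_idealOfVars
        le_rfl (Nat.le_succ n) p))
    have := (I n).add_mem h2 h1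
    simpa using this
  set 𝔞 : Ideal (MvPowerSeries ι 𝒪) := Ideal.span (Set.range MvPowerSeries.X) with h𝔞
  have hmap : ∀ n, 𝔞.map (π n) = (Ideal.span (Set.range a)).map (Ideal.Quotient.mk (I n)) := by
    intro n
    rw [h𝔞, Ideal.map_span, Ideal.map_span, ← Set.range_comp, ← Set.range_comp]
    congr 2
    funext i
    exact hπX n i
  have hπs : ∀ n, Function.Surjective (π n) := by
    intro n
    refine limG_surjective_of_nilpotent (π n : MvPowerSeries ι 𝒪 →+* S ⧸ I n) 𝔞 n ?_ ?_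
    · intro x
      obtain ⟨s, rfl⟩ := Ideal.Quotient.mk_surjective x
      obtain ⟨o, ho⟩ := hres (Ideal.Quotient.mk 𝔪 s)
      refine ⟨algebraMap 𝒪 _ o, ?_⟩
      have h1 : s - algebraMap 𝒪 S o ∈ 𝔪 := by
        rw [← Ideal.Quotient.eq]; exact ho.symm
      have h2 := Ideal.mem_map_of_mem (Ideal.Quotient.mk (I n)) (hgen n h1)
      rw [Ideal.map_sup, Ideal.map_quotient_self, sup_bot_eq, ← hmap n] at h2
      have h3 : (π n : MvPowerSeries ι 𝒪 →+* S ⧸ I n) (algebraMap 𝒪 _ o) =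
          Ideal.Quotient.mk (I n) (algebraMap 𝒪 S o) := (π n).commutes o
      rw [h3, ← map_sub]
      exact h2
    · rw [← Ideal.map_eq_bot_iff_le_ker, Ideal.map_pow]
      have h1 : 𝔞.map (π n : MvPowerSeries ι 𝒪 →+* S ⧸ I n) ≤
          𝔪.map (Ideal.Quotient.mk (I n)) := by
        have := hmap n
        refine le_trans (le_of_eq this) ?_
        exact Ideal.map_mono (Ideal.span_le.mpr (by rintro _ ⟨i, rfl⟩; exact ha i))
      refine le_bot_iff.mp ((Ideal.pow_right_mono h1 n).trans ?_)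
      rw [← Ideal.map_pow, le_bot_iff, Ideal.map_eq_bot_iff_le_ker, Ideal.mk_ker]
      exact hpow n
  exact limG_abstract 𝒪 S 𝔪 I hpow hstep hI1 ι a ha hgen (MvPowerSeries ι 𝒪) MvPowerSeries.X π
    hπX hπs hπc

end Fermat.Agent.S53Lib
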