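import Fermat.Agent.S53.Tangent
import Fermat.Agent.S53.Irr
import Fermat.Agent.S53.Chain
import Fermat.Agent.S53.LimitRing
import Fermat.Agent.S53.Extend

set_option autoImplicit false
set_option linter.unusedSectionVars false
set_option linter.unusedSimpArgs false
set_option linter.unusedVariables false
set_option linter.style.haveILetI false

noncomputable section

namespace Fermat.Agent.S53Lib

open IsLocalRing GaloisRep

variable {𝒪 : Type} [CommRing 𝒪] [IsLocalRing 𝒪]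
variable {𝒟 : ∀ ⦃A : Type⦄ [CommRing A] [IsLocalRing A] [Algebra 𝒪 A], GaloisRepAdic A → Prop}

theorem ofMat_isEquiv_of_eq {A : Type} [CommRing A] [IsLocalRing A] {r r' : GQ →* M2 A}
    (h : r = r') (hc : MatCont r) (hc' : MatCont r') : (ofMat r hc).IsEquiv (ofMat r' hc') := by
  subst h; exact isEquiv_refl _

/-- invariance of the condition under equivalence, over complete rings -/
theorem D_of_isEquiv_complete (h𝒟 : IsDeformationCondition 𝒪 𝒟) {A : Type} [CommRing A]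
    [IsLocalRing A] [IsNoetherianRing A] [IsAdicComplete (maximalIdeal A) A] [Algebra 𝒪 A]
    (hloc : IsLocalHom (algebraMap 𝒪 A))
    (hsurj : Function.Surjective (IsLocalRing.residue A ∘ algebraMap 𝒪 A))
    {ρ ρ' : GaloisRepAdic A} (he : ρ.IsEquiv ρ') (hD : 𝒟 ρ) : 𝒟 ρ' :=
  (h𝒟.iff_forall_surjective hloc hsurj ρ').mpr fun B _ _ _ hB q hq hqs =>
    h𝒟.of_isEquiv hB (isEquiv_baseChangeAlong _ hq he)
      ((h𝒟.iff_forall_surjective hloc hsurj ρ).mp hD hB q hq hqs)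

theorem isArtinianTestAlgebra_quot_pow {A : Type} [CommRing A]
    [IsLocalRing A] [IsNoetherianRing A] [Algebra 𝒪 A]
    (hloc : IsLocalHom (algebraMap 𝒪 A))
    (hsurj : Function.Surjective (IsLocalRing.residue A ∘ algebraMap 𝒪 A)) (n : ℕ)
    [IsLocalRing (A ⧸ maximalIdeal A ^ (n + 1))] :
    IsArtinianTestAlgebra 𝒪 (A ⧸ maximalIdeal A ^ (n + 1)) := by
  have hmk : IsLocalHom (Ideal.Quotient.mk (maximalIdeal A ^ (n + 1))) :=
    IsLocalHom.of_surjective _ Ideal.Quotient.mk_surjective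
  have hmem : ∀ a : A, a ∈ maximalIdeal A →
      Ideal.Quotient.mk (maximalIdeal A ^ (n + 1)) a ∈
        maximalIdeal (A ⧸ maximalIdeal A ^ (n + 1)) := by
    intro a ha
    rw [mem_maximalIdeal, mem_nonunits_iff] at ha ⊢
    exact fun h => ha (hmk.map_nonunit a h)
  refine ⟨⟨fun o ho => ?_⟩, ?_, ?_⟩
  · have h1 : IsUnit (Ideal.Quotient.mk (maximalIdeal A ^ (n + 1)) (algebraMap 𝒪 A o)) := ho
    exact hloc.map_nonunit o (hmk.map_nonunit _ h1)
  · intro x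
    obtain ⟨x, rfl⟩ := residue_surjective x
    obtain ⟨a, rfl⟩ := Ideal.Quotient.mk_surjective x
    obtain ⟨o, ho⟩ := hsurj (residue A a)
    refine ⟨o, ?_⟩
    have h1 : algebraMap 𝒪 A o - a ∈ maximalIdeal A := by
      rw [← residue_eq_zero_iff, map_sub, sub_eq_zero]; exact ho
    have h2 := hmem _ h1
    rw [← residue_eq_zero_iff, map_sub, map_sub, sub_eq_zero] at h2
    exact h2
  · rw [isArtinianRing_iff_isNilpotent_maximalIdeal]
    refine ⟨n + 1, ?_⟩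
    have h1 : maximalIdeal (A ⧸ maximalIdeal A ^ (n + 1)) ≤
        (maximalIdeal A).map (Ideal.Quotient.mk (maximalIdeal A ^ (n + 1))) := by
      intro x hx
      obtain ⟨a, rfl⟩ := Ideal.Quotient.mk_surjective x
      apply Ideal.mem_map_of_mem
      rw [mem_maximalIdeal, mem_nonunits_iff] at hx ⊢
      exact fun h => hx (h.map _)
    have h2 := Ideal.pow_right_mono h1 (n + 1)
    rw [← Ideal.map_pow, Ideal.map_quotient_self] at h2
    exact le_bot_iff.mp h2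

section final

variable [IsDomain 𝒪] [IsDiscreteValuationRing 𝒪]
  [IsAdicComplete (IsLocalRing.maximalIdeal 𝒪) 𝒪] [Finite (ResidueField 𝒪)]
variable {rbar : GQ →* M2 (ResidueField 𝒪)} {g₀ g₁ : GQ} {i₀ j₀ : Fin 2} {y : 𝒪}

theorem final_of_limit
    (ρbar : ResidualGaloisRep (ResidueField 𝒪))
    (habs : ρbar.IsAbsolutelyIrreducible)
    (h𝒟 : IsDeformationCondition 𝒪 𝒟)
    (hnb : IsNormal g₀ g₁ i₀ j₀ (algebraMap 𝒪 (ResidueField 𝒪) y) rbar)
    (hb : GaloisFactorsThroughFiniteLevel rbar) (hρ : ρbar.IsEquiv (ofMatRes rbar hb))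
    (hne : (rbar g₀ * rbar g₁ - rbar g₁ * rbar g₀) i₀ j₀ ≠ 0)
    (I : ℕ → Ideal (US 𝒪 g₀ g₁ i₀ j₀ y))
    (hGood : ∀ n, 1 ≤ n → Good 𝒟 (univRep 𝒪 g₀ g₁ i₀ j₀ y) (mUS hnb) (I n))
    (hmin : ∀ n J, Good 𝒟 (univRep 𝒪 g₀ g₁ i₀ j₀ y) (mUS hnb) J → mUS hnb ^ n ≤ J → I n ≤ J)
    (hI1 : I 1 = mUS hnb)
    (R : Type) [CommRing R] [Algebra 𝒪 R] (θ : US 𝒪 g₀ g₁ i₀ j₀ y →ₐ[𝒪] R)
    [IsNoetherianRing R] (hComp : IsAdicComplete ((mUS hnb).map θ) R)
    (hcomap : ∀ n, (((mUS hnb).map θ) ^ n).comap θ = I n)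
    (hdense : ∀ n (x : R), ∃ s : US 𝒪 g₀ g₁ i₀ j₀ y, x - θ s ∈ ((mUS hnb).map θ) ^ n) :
    Nonempty (DeformationRingData 𝒪 ρbar 𝒟) := by
  classical
  set τ := univRep 𝒪 g₀ g₁ i₀ j₀ y with hτ
  set 𝔪 := mUS hnb with h𝔪
  set M := 𝔪.map θ with hM
  have h𝔪max : 𝔪.IsMaximal := mUS_isMaximal hnb
  have hcomap1 : M.comap θ = 𝔪 := by
    have := hcomap 1
    rwa [pow_one, hI1] at this
  -- (H1)
  have hMmax : M.IsMaximal := by
    rw [Ideal.isMaximal_iff]
    refine ⟨fun h1 => ?_, fun J x hMJ hx hxJ => ?_⟩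
    · have : (1 : US 𝒪 g₀ g₁ i₀ j₀ y) ∈ M.comap θ := by
        show θ 1 ∈ M
        rw [map_one]; exact h1
      rw [hcomap1] at this
      exact h𝔪max.ne_top ((Ideal.eq_top_iff_one _).mpr this)
    · obtain ⟨s, hs⟩ := hdense 1 x
      rw [pow_one] at hs
      have hs𝔪 : s ∉ 𝔪 := by
        intro h
        apply hx
        have : θ s ∈ M := Ideal.mem_map_of_mem θ h
        have h2 := Ideal.add_mem _ hs this
        simpa using h2
      obtain ⟨t, m, hm, htm⟩ := h𝔪max.exists_inv hs𝔪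
      have h3 : (1 : R) = θ t * x - θ t * (x - θ s) + θ m := by
        have := congrArg θ htm
        rw [map_add, map_mul, map_one] at this
        rw [← this]; ring
      rw [h3]
      refine J.add_mem (J.sub_mem (J.mul_mem_left _ hxJ) (J.mul_mem_left _ (hMJ hs))) ?_
      exact hMJ (Ideal.mem_map_of_mem θ hm)
  -- (H2)
  haveI hlocR : IsLocalRing R := isLocalRing_of_isAdicComplete_maximal M
  have hmax : maximalIdeal R = M := (IsLocalRing.eq_maximalIdeal hMmax).symm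
  haveI hCompR : IsAdicComplete (maximalIdeal R) R := by rw [hmax]; exact hComp
  have hθ𝔪 : ∀ s ∈ 𝔪, θ s ∈ maximalIdeal R := fun s hs => by
    rw [hmax]; exact Ideal.mem_map_of_mem θ hs
  -- (H3)
  haveI hloc𝒪 : IsLocalHom (algebraMap 𝒪 R) := by
    constructor
    intro o ho
    by_contra hcon
    have h1 : algebraMap 𝒪 (US 𝒪 g₀ g₁ i₀ j₀ y) o ∈ 𝔪 :=
      mUS_hm𝒪 hnb o ((mem_maximalIdeal o).mpr hcon)
    have h2 := hθ𝔪 _ h1
    rw [θ.commutes o] at h2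
    exact (mem_maximalIdeal _).mp h2 ho
  -- (H4)
  have hsurjR : Function.Surjective (IsLocalRing.residue R ∘ algebraMap 𝒪 R) := by
    intro x
    obtain ⟨x, rfl⟩ := residue_surjective x
    obtain ⟨s, hs⟩ := hdense 1 x
    rw [pow_one, ← hmax] at hs
    obtain ⟨o, ho⟩ := mUS_hres hnb (Ideal.Quotient.mk 𝔪 s)
    have h1 : algebraMap 𝒪 (US 𝒪 g₀ g₁ i₀ j₀ y) o - s ∈ 𝔪 := Ideal.Quotient.eq.mp ho
    have h2 := hθ𝔪 _ h1
    rw [map_sub, θ.commutes o] at h2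
    refine ⟨o, ?_⟩
    have h3 : algebraMap 𝒪 R o - x ∈ maximalIdeal R := by
      have := Ideal.sub_mem _ h2 hs
      have e : algebraMap 𝒪 R o - θ s - (x - θ s) = algebraMap 𝒪 R o - x := by ring
      rwa [e] at this
    rw [← residue_eq_zero_iff, map_sub, sub_eq_zero] at h3
    exact h3
  -- (H5)
  have hc : MatCont (mapMat (θ : US 𝒪 g₀ g₁ i₀ j₀ y →+* R) τ) := by
    intro n
    obtain ⟨hloc, hA, hm, hcn, hD⟩ := hGood (n + 1) (Nat.succ_le_succ (Nat.zero_le n))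
    haveI := hA.isArtinian
    obtain ⟨L, hL, h1⟩ := (matCont_iff_of_artinian _).mp hcn
    refine ⟨L, hL, fun σ hσ i j => ?_⟩
    have h2 := congrFun (congrFun (h1 σ hσ) i) j
    have h3 : (τ σ - 1) i j ∈ I (n + 1) := by
      have h4 : (1 : M2 (US 𝒪 g₀ g₁ i₀ j₀ y ⧸ I (n + 1))) i j
          = Ideal.Quotient.mk (I (n + 1)) ((1 : M2 (US 𝒪 g₀ g₁ i₀ j₀ y)) i j) := by
        rw [Matrix.one_apply, Matrix.one_apply]; split_ifs <;> simp
      have h5 : Ideal.Quotient.mk (I (n + 1)) (τ σ i j)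
          = Ideal.Quotient.mk (I (n + 1)) ((1 : M2 (US 𝒪 g₀ g₁ i₀ j₀ y)) i j) := by
        rw [← h4]; exact h2
      rw [Matrix.sub_apply]
      exact Ideal.Quotient.eq.mp h5
    rw [← hcomap (n + 1)] at h3
    have h6 : θ ((τ σ - 1) i j) ∈ M ^ (n + 1) := h3
    have h7 : (mapMat (θ : US 𝒪 g₀ g₁ i₀ j₀ y →+* R) τ σ - 1) i j = θ ((τ σ - 1) i j) := by
      simp only [Matrix.sub_apply, mapMat_apply, map_sub, Matrix.one_apply]
      split_ifs <;> simp
    rw [h7, hmax]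
    exact Ideal.pow_le_pow_right (Nat.le_succ n) h6
  -- (H6)
  have hType : 𝒟 (ofMat (mapMat (θ : US 𝒪 g₀ g₁ i₀ j₀ y →+* R) τ) hc) := by
    refine (h𝒟.iff_forall_surjective hloc𝒪 hsurjR _).mpr fun B _ _ _ hB q hq hqs => ?_
    haveI := hB.isArtinian
    obtain ⟨n, hn⟩ := (isArtinianRing_iff_isNilpotent_maximalIdeal B).mp inferInstance
    have hker : ∀ s ∈ I (n + 1), (q.comp θ) s = 0 := by
      intro s hs
      rw [← hcomap (n + 1)] at hs
      have h1 : θ s ∈ M ^ n := Ideal.pow_le_pow_right (Nat.le_succ n) hs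
      rw [← hmax] at h1
      have hmap : (maximalIdeal R ^ n).map (q : R →+* B) ≤ maximalIdeal B ^ n := by
        rw [Ideal.map_pow]
        exact Ideal.pow_right_mono (Ideal.map_le_iff_le_comap.mpr fun a ha =>
          Ideal.mem_comap.mpr (haveI := hq; map_nonunit (q : R →+* B) a ha)) n
      have h2 := hmap (Ideal.mem_map_of_mem _ h1)
      rw [hn] at h2
      exact h2
    obtain ⟨hloc, hp⟩ := hGood (n + 1) (Nat.succ_le_succ (Nat.zero_le n))
    have h3 := DPoint.comp h𝒟 hp (Ideal.Quotient.liftₐ (I (n + 1)) (q.comp θ) hker) hB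
    have h4 : (Ideal.Quotient.liftₐ (I (n + 1)) (q.comp θ) hker).comp
        (Ideal.Quotient.mkₐ 𝒪 (I (n + 1))) = q.comp θ := AlgHom.ext fun s => rfl
    rw [h4] at h3
    obtain ⟨-, -, hcB, hDB⟩ := h3
    exact h𝒟.of_isEquiv hB (isEquiv_symm (ofMat_baseChangeAlong _ hc (q : R →+* B) hq hcB)) hDB
  -- (H7)
  have hψR : ∀ o, ResidueField.map (algebraMap 𝒪 R) (residue 𝒪 o)
      = residue R (algebraMap 𝒪 R o) := fun o => ResidueField.map_residue _ o
  have hResid : (ofMat (mapMat (θ : US 𝒪 g₀ g₁ i₀ j₀ y →+* R) τ) hc).residual.IsEquiv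
      (ρbar.baseChangeAlong (ResidueField.map (algebraMap 𝒪 R))) :=
    residual_isEquiv_of_lifts ρbar rbar hb hρ _ _ hc (fun σ i j =>
      congrFun (congrFun (DFunLike.congr_fun
        (lifts_of_le_comap hnb _ hψR θ (fun s hs => hθ𝔪 s hs)) σ) i) j)
  -- (H8)
  refine ⟨{ R := R, residue_surjective := hsurjR, absIrr := habs,
            ρ := ofMat (mapMat (θ : US 𝒪 g₀ g₁ i₀ j₀ y →+* R) τ) hc,
            isOfType := hType, residual_isEquiv := hResid, universal := ?_ }⟩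
  intro A _ _ _ _ _ hlocA hsurjA ρA hDA hresA
  haveI := henselianLocalRing_of_complete A
  obtain ⟨h00, h10, hy⟩ := hnb
  have hψA : ∀ o, ResidueField.map (algebraMap 𝒪 A) (residue 𝒪 o)
      = residue A (algebraMap 𝒪 A o) := fun o => ResidueField.map_residue _ o
  obtain ⟨r₀, hc₀, he₀, hl₀⟩ := exists_lifts_of_residual_isEquiv ρbar rbar hb hρ
    (ResidueField.map (algebraMap 𝒪 A)) ρA hresA
  have hl₀' : mapMat (residue A) r₀ = mapMat (ResidueField.map (algebraMap 𝒪 A)) rbar := by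
    ext σ i j; exact hl₀ σ i j
  have hy₀ : residue A (algebraMap 𝒪 A y)
      = ResidueField.map (algebraMap 𝒪 A) (rbar g₁ i₀ j₀) := by
    rw [hy, ← hψA]; rfl
  obtain ⟨P, Q, hPQ, hQP, hl, hn⟩ := exists_normalize rbar g₀ g₁ i₀ j₀
    (ResidueField.map (algebraMap 𝒪 A)) (algebraMap 𝒪 A y) h00 h10 hne hy₀ r₀ hl₀'
  set r := conjMat P Q hPQ hQP r₀ with hr
  have hcr : MatCont r := hc₀.conj P Q hPQ hQP
  have he : ρA.IsEquiv (ofMat r hcr) := by
    refine isEquiv_trans he₀ ((ofMat_isEquiv_iff _ _ _ _).mpr ⟨P, Q, hPQ, hQP, fun σ => ?_⟩)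
    rw [hr, conjMat_apply, mul_assoc, mul_assoc, hQP, mul_one]
  have hDr : 𝒟 (ofMat r hcr) := D_of_isEquiv_complete h𝒟 hlocA hsurjA he hDA
  set φ₀ : US 𝒪 g₀ g₁ i₀ j₀ y →ₐ[𝒪] A := liftUS r hn with hφ₀def
  have hφ₀ : mapMat (φ₀ : US 𝒪 g₀ g₁ i₀ j₀ y →+* A) τ = r := mapMat_liftUS r hn
  have hm₀ : 𝔪 ≤ (maximalIdeal A).comap (φ₀ : US 𝒪 g₀ g₁ i₀ j₀ y →+* A) :=
    le_comap_of_lifts ⟨h00, h10, hy⟩ _ hψA φ₀ (by rw [hφ₀]; exact hl)
  have key : ∀ n, I n ≤ (maximalIdeal A ^ n).comap φ₀ := by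
    intro n
    cases n with
    | zero => intro s _; simp
    | succ n =>
      haveI hnt : Nontrivial (A ⧸ maximalIdeal A ^ (n + 1)) :=
        Ideal.Quotient.nontrivial_iff.mpr (fun h => by
          have h1 : maximalIdeal A ^ (n + 1) ≤ maximalIdeal A := Ideal.pow_le_self (Nat.succ_ne_zero n)
          rw [h] at h1
          exact (Ideal.IsPrime.ne_top inferInstance) (top_le_iff.mp h1))
      haveI hlocq : IsLocalRing (A ⧸ maximalIdeal A ^ (n + 1)) :=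
        IsLocalRing.of_surjective' (Ideal.Quotient.mk _) Ideal.Quotient.mk_surjective
      have hAn := isArtinianTestAlgebra_quot_pow (𝒪 := 𝒪) hlocA hsurjA n
      let q : A →ₐ[𝒪] A ⧸ maximalIdeal A ^ (n + 1) := Ideal.Quotient.mkₐ 𝒪 _
      have hq : IsLocalHom (q : A →+* A ⧸ maximalIdeal A ^ (n + 1)) :=
        IsLocalHom.of_surjective _ Ideal.Quotient.mk_surjective
      have h1 := (h𝒟.iff_forall_surjective hlocA hsurjA (ofMat r hcr)).mp hDr hAn q hq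
        Ideal.Quotient.mk_surjective
      have hcq : MatCont (mapMat (q : A →+* A ⧸ maximalIdeal A ^ (n + 1)) r) := hcr.map _ hq
      have h2 : 𝒟 (ofMat _ hcq) := h𝒟.of_isEquiv hAn (ofMat_baseChangeAlong r hcr _ hq hcq) h1
      have heq : mapMat (q : A →+* A ⧸ maximalIdeal A ^ (n + 1)) r
          = mapMat ((q.comp φ₀ : US 𝒪 g₀ g₁ i₀ j₀ y →ₐ[𝒪] _) : US 𝒪 g₀ g₁ i₀ j₀ y →+* _) τ := by
        rw [← hφ₀]; rfl
      have hp : DPoint 𝒟 τ 𝔪 (A ⧸ maximalIdeal A ^ (n + 1)) (q.comp φ₀) := by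
        refine ⟨hAn, ?_, heq ▸ hcq, D_congr heq hcq _ h2⟩
        intro s hs
        have h3 : φ₀ s ∈ maximalIdeal A := hm₀ hs
        show q (φ₀ s) ∈ maximalIdeal _
        exact (mem_maximalIdeal _).mpr (map_nonunit (q : A →+* A ⧸ maximalIdeal A ^ (n + 1)) _ h3)
      have hg := hp.good_ker h𝒟 (mUS_hres ⟨h00, h10, hy⟩) (mUS_hm𝒪 ⟨h00, h10, hy⟩)
      have hle : 𝔪 ^ (n + 1) ≤ RingHom.ker (q.comp φ₀) := by
        have h4 : (𝔪 ^ (n + 1)).map (φ₀ : US 𝒪 g₀ g₁ i₀ j₀ y →+* A) ≤ maximalIdeal A ^ (n + 1) := by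
          rw [Ideal.map_pow]
          exact Ideal.pow_right_mono (Ideal.map_le_iff_le_comap.mpr hm₀) (n + 1)
        intro s hs
        rw [RingHom.mem_ker]
        exact Ideal.Quotient.eq_zero_iff_mem.mpr (h4 (Ideal.mem_map_of_mem _ hs))
      intro s hs
      have h5 := hmin (n + 1) _ hg hle hs
      rw [RingHom.mem_ker] at h5
      show φ₀ s ∈ maximalIdeal A ^ (n + 1)
      exact Ideal.Quotient.eq_zero_iff_mem.mp h5
  obtain ⟨φ, hφθ, hφM⟩ := exists_extension 𝒪 _ R θ M I hcomap hdense A (maximalIdeal A) φ₀ key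
  have hφ1 : M ≤ (maximalIdeal A).comap φ := by
    have := hφM 1
    rwa [pow_one, pow_one] at this
  have hφloc : IsLocalHom (φ : R →+* A) := by
    constructor
    intro x hx
    by_contra hcon
    have h1 : x ∈ M := by rw [← hmax]; exact (mem_maximalIdeal x).mpr hcon
    exact (mem_maximalIdeal _).mp (hφ1 h1) hx
  refine ⟨φ, ⟨hφloc, ?_⟩, ?_⟩
  · have hcφ : MatCont (mapMat (φ : R →+* A) (mapMat (θ : US 𝒪 g₀ g₁ i₀ j₀ y →+* R) τ)) :=
      hc.map _ hφloc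
    refine isEquiv_trans (ofMat_baseChangeAlong _ hc (φ : R →+* A) hφloc hcφ) ?_
    refine isEquiv_trans (ofMat_isEquiv_of_eq ?_ hcφ hcr) (isEquiv_symm he)
    rw [← hφ₀, ← hφθ]; rfl
  · rintro φ' ⟨hφ', he'⟩
    have hcφ' : MatCont (mapMat (φ' : R →+* A) (mapMat (θ : US 𝒪 g₀ g₁ i₀ j₀ y →+* R) τ)) :=
      hc.map _ hφ'
    have h1 : (ofMat _ hcφ').IsEquiv (ofMat r hcr) :=
      isEquiv_trans (isEquiv_symm (ofMat_baseChangeAlong _ hc (φ' : R →+* A) hφ' hcφ'))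
        (isEquiv_trans he' he)
    obtain ⟨P', Q', hPQ', hQP', hconj⟩ := (ofMat_isEquiv_iff _ _ _ _).mp h1
    have hφ'1 : M ≤ (maximalIdeal A).comap φ' := by
      intro x hx
      rw [← hmax] at hx
      exact (mem_maximalIdeal _).mpr (map_nonunit (φ' : R →+* A) _ hx)
    have hm' : 𝔪 ≤ (maximalIdeal A).comap
        ((φ'.comp θ : US 𝒪 g₀ g₁ i₀ j₀ y →ₐ[𝒪] A) : US 𝒪 g₀ g₁ i₀ j₀ y →+* A) := by
      intro s hs
      exact hφ'1 (Ideal.mem_map_of_mem θ hs)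
    have h2 := normal_unique rbar g₀ g₁ i₀ j₀ (ResidueField.map (algebraMap 𝒪 A))
      (algebraMap 𝒪 A y) hne _ _
      (lifts_of_le_comap ⟨h00, h10, hy⟩ _ hψA (φ'.comp θ) hm') hl
      (isNormal_mapMat_univRep (φ'.comp θ)) hn P' Q' hPQ' hconj
    have h3 : φ'.comp θ = φ.comp θ := by
      rw [hφθ]
      apply algHom_US_ext
      rw [hφ₀]
      exact h2
    exact extension_unique 𝒪 _ R θ M hdense A (maximalIdeal A) φ' φ hφ'1 hφ1 h3

end final

end Fermat.Agent.S53Lib
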