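import Fermat.Agent.S53.Mat

set_option autoImplicit false
set_option linter.unusedSectionVars false
set_option linter.unusedSimpArgs false
set_option linter.unusedVariables false
set_option linter.style.haveILetI false

noncomputable section

namespace Fermat.Agent.S53Lib

open IsLocalRing GaloisRep

theorem henselianLocalRing_of_complete (A : Type) [CommRing A] [IsLocalRing A]
    [IsAdicComplete (maximalIdeal A) A] : HenselianLocalRing A where
  is_henselian f hf a₀ h₁ h₂ :=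
    HenselianRing.is_henselian f hf a₀ h₁ (h₂.map (Ideal.Quotient.mk (maximalIdeal A)))

/-- (A2) ring homomorphisms out of an artinian local ring are local -/
theorem isLocalHom_of_artinian {A B : Type} [CommRing A] [IsLocalRing A] [IsArtinianRing A]
    [CommRing B] [Nontrivial B] (ψ : A →+* B) : IsLocalHom ψ := by
  constructor
  intro a ha
  by_contra hcon
  have h1 : a ∈ maximalIdeal A := (mem_maximalIdeal a).mpr hcon
  obtain ⟨n, hn⟩ := (isArtinianRing_iff_isNilpotent_maximalIdeal A).mp inferInstance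
  have h2 : a ^ n = 0 := by
    have := Ideal.pow_mem_pow h1 n
    rw [hn] at this
    simpa using this
  have h3 : IsUnit (ψ a ^ n) := ha.pow n
  rw [← map_pow, h2, map_zero] at h3
  exact not_isUnit_zero h3

/-- (A3) continuity over an artinian local ring -/
theorem matCont_iff_of_artinian {A : Type} [CommRing A] [IsLocalRing A] [IsArtinianRing A]
    (r : GQ →* M2 A) : MatCont r ↔ GaloisFactorsThroughFiniteLevel r := by
  constructor
  · intro h
    obtain ⟨n, hn⟩ := (isArtinianRing_iff_isNilpotent_maximalIdeal A).mp inferInstance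
    obtain ⟨L, hL, h1⟩ := h n
    refine ⟨L, hL, fun σ hσ => ?_⟩
    rw [← sub_eq_zero]
    ext i j
    have := h1 σ hσ i j
    rw [hn] at this
    simpa using this
  · rintro ⟨L, hL, h1⟩ n
    refine ⟨L, hL, fun σ hσ i j => ?_⟩
    rw [h1 σ hσ, sub_self]
    exact Ideal.zero_mem _

variable {𝒪 : Type} [CommRing 𝒪] [IsLocalRing 𝒪]

/-- (A1) artinian test algebras are finite -/
theorem finite_of_isArtinianTestAlgebra [Finite (ResidueField 𝒪)] {A : Type} [CommRing A]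
    [IsLocalRing A] [Algebra 𝒪 A] (hA : IsArtinianTestAlgebra 𝒪 A) : Finite A := by
  haveI := hA.isLocalHom
  haveI := hA.isArtinian
  have hs : Function.Surjective (ResidueField.map (algebraMap 𝒪 A)) := by
    intro x
    obtain ⟨o, ho⟩ := hA.residue_surjective x
    exact ⟨residue 𝒪 o, by rw [ResidueField.map_residue]; exact ho⟩
  haveI : Finite (A ⧸ maximalIdeal A) := Finite.of_surjective _ hs
  obtain ⟨n, hn⟩ := (isArtinianRing_iff_isNilpotent_maximalIdeal A).mp inferInstance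
  have h1 : Finite (A ⧸ maximalIdeal A ^ n) :=
    Ideal.finite_quotient_pow (IsNoetherian.noetherian (maximalIdeal A)) n
  rw [hn] at h1
  exact Finite.of_equiv _ (RingEquiv.quotientBot A).toEquiv

section quot

variable {S : Type} [CommRing S] [Algebra 𝒪 S] (𝔪 : Ideal S) [h𝔪 : 𝔪.IsMaximal]

/-- ideals with finite local artinian quotient -/
def Prim (I : Ideal S) : Prop := I ≤ 𝔪 ∧ (∃ n, 𝔪 ^ n ≤ I) ∧ Finite (S ⧸ I)

variable {𝔪}

theorem isUnit_mk_iff {I : Ideal S} (hI : I ≤ 𝔪) (hn : ∃ n, 𝔪 ^ n ≤ I) (s : S) :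
    IsUnit (Ideal.Quotient.mk I s) ↔ s ∉ 𝔪 := by
  obtain ⟨n, hn⟩ := hn
  have hnil : ∀ m ∈ 𝔪, IsNilpotent (Ideal.Quotient.mk I m) := fun m hm =>
    ⟨n, by rw [← map_pow]; exact Ideal.Quotient.eq_zero_iff_mem.mpr (hn (Ideal.pow_mem_pow hm n))⟩
  have hnt : Nontrivial (S ⧸ I) :=
    Ideal.Quotient.nontrivial_iff.mpr (fun h => h𝔪.ne_top (top_le_iff.mp (h ▸ hI)))
  constructor
  · intro hu hs
    obtain ⟨N, hN⟩ := hnil s hs
    have := hu.pow N
    rw [hN] at this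
    exact not_isUnit_zero this
  · intro hs
    obtain ⟨t, m, hm, h⟩ := h𝔪.exists_inv hs
    have h1 : Ideal.Quotient.mk I (t * s) = 1 - Ideal.Quotient.mk I m := by
      rw [← map_one (Ideal.Quotient.mk I), ← map_sub]; congr 1; linear_combination h
    have h2 : IsUnit (Ideal.Quotient.mk I (t * s)) := h1 ▸ (hnil m hm).isUnit_one_sub
    rw [map_mul] at h2
    exact isUnit_of_mul_isUnit_right h2

theorem isLocalRing_quot {I : Ideal S} (hI : I ≤ 𝔪) (hn : ∃ n, 𝔪 ^ n ≤ I) :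
    IsLocalRing (S ⧸ I) := by
  haveI hnt : Nontrivial (S ⧸ I) :=
    Ideal.Quotient.nontrivial_iff.mpr (fun h => h𝔪.ne_top (top_le_iff.mp (h ▸ hI)))
  apply IsLocalRing.of_nonunits_add
  intro a b ha hb
  obtain ⟨a, rfl⟩ := Ideal.Quotient.mk_surjective a
  obtain ⟨b, rfl⟩ := Ideal.Quotient.mk_surjective b
  rw [mem_nonunits_iff, isUnit_mk_iff hI hn, not_not] at ha hb
  rw [← map_add, mem_nonunits_iff, isUnit_mk_iff hI hn, not_not]
  exact Ideal.add_mem _ ha hb

theorem mk_mem_maximalIdeal_iff {I : Ideal S} (hI : I ≤ 𝔪) (hn : ∃ n, 𝔪 ^ n ≤ I)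
    [IsLocalRing (S ⧸ I)] (s : S) : Ideal.Quotient.mk I s ∈ maximalIdeal (S ⧸ I) ↔ s ∈ 𝔪 := by
  rw [mem_maximalIdeal, mem_nonunits_iff, isUnit_mk_iff hI hn, not_not]

theorem isArtinianTestAlgebra_quot
    (hres : Function.Surjective (fun o : 𝒪 => Ideal.Quotient.mk 𝔪 (algebraMap 𝒪 S o)))
    (hm𝒪 : ∀ o ∈ maximalIdeal 𝒪, algebraMap 𝒪 S o ∈ 𝔪)
    {I : Ideal S} (hI : Prim 𝔪 I) [IsLocalRing (S ⧸ I)] : IsArtinianTestAlgebra 𝒪 (S ⧸ I) := by
  obtain ⟨h1, h2, h3⟩ := hI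
  refine ⟨⟨fun o ho => ?_⟩, ?_, inferInstance⟩
  · by_contra hcon
    have h4 : algebraMap 𝒪 S o ∈ 𝔪 := hm𝒪 o ((mem_maximalIdeal o).mpr hcon)
    have h5 : IsUnit (Ideal.Quotient.mk I (algebraMap 𝒪 S o)) := ho
    exact (isUnit_mk_iff h1 h2 _).mp h5 h4
  · intro x
    obtain ⟨x, rfl⟩ := residue_surjective x
    obtain ⟨s, rfl⟩ := Ideal.Quotient.mk_surjective x
    obtain ⟨o, ho⟩ := hres (Ideal.Quotient.mk 𝔪 s)
    refine ⟨o, ?_⟩
    have h4 : algebraMap 𝒪 S o - s ∈ 𝔪 := Ideal.Quotient.eq.mp ho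
    have h5 : Ideal.Quotient.mk I (algebraMap 𝒪 S o - s) ∈ maximalIdeal (S ⧸ I) :=
      (mk_mem_maximalIdeal_iff h1 h2 _).mpr h4
    rw [← residue_eq_zero_iff, map_sub, map_sub, sub_eq_zero] at h5
    exact h5

theorem Prim.inf {I J : Ideal S} (hI : Prim 𝔪 I) (hJ : Prim 𝔪 J) : Prim 𝔪 (I ⊓ J) := by
  obtain ⟨h1, ⟨n, h2⟩, h3⟩ := hI
  obtain ⟨h1', ⟨n', h2'⟩, h3'⟩ := hJ
  refine ⟨inf_le_left.trans h1, ⟨max n n', le_inf ?_ ?_⟩, ?_⟩
  · exact (Ideal.pow_le_pow_right (le_max_left n n')).trans h2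
  · exact (Ideal.pow_le_pow_right (le_max_right n n')).trans h2'
  · let f : S ⧸ (I ⊓ J) → (S ⧸ I) × (S ⧸ J) := fun x =>
      (Ideal.Quotient.factor inf_le_left x, Ideal.Quotient.factor inf_le_right x)
    have hf : Function.Injective f := by
      intro x x' h
      obtain ⟨s, rfl⟩ := Ideal.Quotient.mk_surjective x
      obtain ⟨s', rfl⟩ := Ideal.Quotient.mk_surjective x'
      simp only [f, Prod.mk.injEq, Ideal.Quotient.factor_mk] at h
      rw [Ideal.Quotient.eq] at h ⊢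
      rw [Ideal.Quotient.eq] at h
      exact ⟨h.1, h.2⟩
    exact Finite.of_injective f hf

theorem Prim.mono {I J : Ideal S} (hI : Prim 𝔪 I) (hIJ : I ≤ J) (hJ : J ≤ 𝔪) : Prim 𝔪 J := by
  obtain ⟨h1, ⟨n, h2⟩, h3⟩ := hI
  exact ⟨hJ, ⟨n, h2.trans hIJ⟩,
    Finite.of_surjective _ (Ideal.Quotient.factor_surjective hIJ)⟩

end quot

end Fermat.Agent.S53Lib
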