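import Fermat.Agent.S53.Art

set_option autoImplicit false
set_option linter.unusedSectionVars false
set_option linter.unusedSimpArgs false
set_option linter.unusedVariables false
set_option linter.style.haveILetI false

noncomputable section

namespace Fermat.Agent.S53Lib

open IsLocalRing GaloisRep

variable {𝒪 : Type} [CommRing 𝒪] [IsLocalRing 𝒪]
variable (𝒟 : ∀ ⦃A : Type⦄ [CommRing A] [IsLocalRing A] [Algebra 𝒪 A], GaloisRepAdic A → Prop)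
variable {S : Type} [CommRing S] [Algebra 𝒪 S] (τ : GQ →* M2 S) (𝔪 : Ideal S)

/-- an artinian point of type `𝒟` of the universal ring -/
def DPoint (A : Type) [CommRing A] [IsLocalRing A] [Algebra 𝒪 A] (φ : S →ₐ[𝒪] A) : Prop :=
  IsArtinianTestAlgebra 𝒪 A ∧ 𝔪 ≤ (maximalIdeal A).comap (φ : S →+* A) ∧
    ∃ hc : MatCont (mapMat (φ : S →+* A) τ), 𝒟 (ofMat (mapMat (φ : S →+* A) τ) hc)

/-- the ideals of the universal ring whose quotient carries a deformation of type `𝒟` -/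
def Good (I : Ideal S) : Prop :=
  ∃ h : IsLocalRing (S ⧸ I), haveI := h; DPoint 𝒟 τ 𝔪 (S ⧸ I) (Ideal.Quotient.mkₐ 𝒪 I)

variable {𝒟 τ 𝔪}

theorem D_congr {A : Type} [CommRing A] [IsLocalRing A] [Algebra 𝒪 A] {r r' : GQ →* M2 A}
    (h : r = r') (hc : MatCont r) (hc' : MatCont r') (hD : 𝒟 (ofMat r hc)) : 𝒟 (ofMat r' hc') := by
  subst h; exact hD

variable (h𝒟 : IsDeformationCondition 𝒪 𝒟)
include h𝒟

/-- (P1) push forward of points -/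
theorem DPoint.comp {A B : Type} [CommRing A] [IsLocalRing A] [Algebra 𝒪 A] [CommRing B]
    [IsLocalRing B] [Algebra 𝒪 B] {φ : S →ₐ[𝒪] A} (h : DPoint 𝒟 τ 𝔪 A φ) (ψ : A →ₐ[𝒪] B)
    (hB : IsArtinianTestAlgebra 𝒪 B) : DPoint 𝒟 τ 𝔪 B (ψ.comp φ) := by
  obtain ⟨hA, hm, hc, hD⟩ := h
  haveI := hA.isArtinian
  have hψ : IsLocalHom (ψ : A →+* B) := isLocalHom_of_artinian _
  have hc' : MatCont (mapMat (ψ : A →+* B) (mapMat (φ : S →+* A) τ)) := hc.map _ hψ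
  refine ⟨hB, ?_, ?_⟩
  · intro s hs
    have h1 : φ s ∈ maximalIdeal A := hm hs
    show ψ (φ s) ∈ maximalIdeal B
    exact (mem_maximalIdeal _).mpr (map_nonunit (ψ : A →+* B) _ h1)
  · have h1 := h𝒟.baseChangeAlong hA hB ψ hψ hD
    have h2 := h𝒟.of_isEquiv hB (ofMat_baseChangeAlong _ hc (ψ : A →+* B) hψ hc') h1
    exact ⟨hc', h2⟩

/-- (P2) descent of points along injections -/
theorem DPoint.of_comp_injective {A B : Type} [CommRing A] [IsLocalRing A] [Algebra 𝒪 A]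
    [CommRing B] [IsLocalRing B] [Algebra 𝒪 B] {φ : S →ₐ[𝒪] A} (ψ : A →ₐ[𝒪] B)
    (hinj : Function.Injective ψ) (hA : IsArtinianTestAlgebra 𝒪 A)
    (h : DPoint 𝒟 τ 𝔪 B (ψ.comp φ)) : DPoint 𝒟 τ 𝔪 A φ := by
  obtain ⟨hB, hm, hc, hD⟩ := h
  haveI := hA.isArtinian
  haveI := hB.isArtinian
  have hψ : IsLocalHom (ψ : A →+* B) := isLocalHom_of_artinian _
  have hc0 : MatCont (mapMat (φ : S →+* A) τ) := by
    rw [matCont_iff_of_artinian] at hc ⊢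
    obtain ⟨L, hL, h1⟩ := hc
    refine ⟨L, hL, fun σ hσ => ?_⟩
    have h2 := h1 σ hσ
    ext i j
    apply hinj
    have h3 := congrFun (congrFun h2 i) j
    have h4 : ψ ((1 : M2 A) i j) = (1 : M2 B) i j := by
      rw [Matrix.one_apply, Matrix.one_apply]; split_ifs <;> simp
    rw [h4, ← h3]
    rfl
  refine ⟨hA, ?_, hc0, ?_⟩
  · intro s hs
    have h1 : ψ (φ s) ∈ maximalIdeal B := hm hs
    show φ s ∈ maximalIdeal A
    by_contra hcon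
    have h2 : IsUnit (φ s) := by
      by_contra h3; exact hcon ((mem_maximalIdeal _).mpr h3)
    exact (mem_maximalIdeal _).mp h1 (h2.map ψ)
  · have hc' : MatCont (mapMat (ψ : A →+* B) (mapMat (φ : S →+* A) τ)) := hc0.map _ hψ
    have h2 : 𝒟 ((ofMat _ hc0).baseChangeAlong (ψ : A →+* B) hψ) :=
      h𝒟.of_isEquiv hB (isEquiv_symm (ofMat_baseChangeAlong _ hc0 (ψ : A →+* B) hψ hc')) hD
    exact h𝒟.of_baseChangeAlong_injective hA hB ψ hψ hinj h2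

omit h𝒟 in
theorem DPoint.prim [Finite (ResidueField 𝒪)] [h𝔪 : 𝔪.IsMaximal] {A : Type} [CommRing A]
    [IsLocalRing A] [Algebra 𝒪 A] {φ : S →ₐ[𝒪] A} (h : DPoint 𝒟 τ 𝔪 A φ) :
    Prim 𝔪 (RingHom.ker φ) := by
  obtain ⟨hA, hm, hc, hD⟩ := h
  haveI := hA.isArtinian
  haveI := finite_of_isArtinianTestAlgebra hA
  have hcomap : (maximalIdeal A).comap (φ : S →+* A) = 𝔪 :=
    (h𝔪.eq_of_le (Ideal.comap_ne_top _ (Ideal.IsPrime.ne_top inferInstance)) hm).symm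
  refine ⟨?_, ?_, ?_⟩
  · intro s hs
    rw [← hcomap]
    show φ s ∈ maximalIdeal A
    rw [(RingHom.mem_ker).mp hs]
    exact Ideal.zero_mem _
  · obtain ⟨n, hn⟩ := (isArtinianRing_iff_isNilpotent_maximalIdeal A).mp inferInstance
    refine ⟨n, ?_⟩
    have h1 : (𝔪 ^ n).map (φ : S →+* A) ≤ maximalIdeal A ^ n := by
      rw [Ideal.map_pow]
      exact Ideal.pow_right_mono (Ideal.map_le_iff_le_comap.mpr hm) n
    intro s hs
    have h2 := h1 (Ideal.mem_map_of_mem _ hs)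
    rw [hn] at h2
    exact h2
  · exact Finite.of_injective _ (Ideal.kerLiftAlg_injective φ)

variable [Finite (ResidueField 𝒪)] [h𝔪 : 𝔪.IsMaximal]
variable (hres : Function.Surjective (fun o : 𝒪 => Ideal.Quotient.mk 𝔪 (algebraMap 𝒪 S o)))
variable (hm𝒪 : ∀ o ∈ maximalIdeal 𝒪, algebraMap 𝒪 S o ∈ 𝔪)
include hres hm𝒪

/-- (G0) the kernel of a point is good -/
theorem DPoint.good_ker {A : Type} [CommRing A] [IsLocalRing A] [Algebra 𝒪 A] {φ : S →ₐ[𝒪] A}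
    (h : DPoint 𝒟 τ 𝔪 A φ) : Good 𝒟 τ 𝔪 (RingHom.ker φ) := by
  have hp := h.prim
  haveI hloc : IsLocalRing (S ⧸ RingHom.ker φ) := isLocalRing_quot hp.1 hp.2.1
  refine ⟨hloc, ?_⟩
  refine DPoint.of_comp_injective h𝒟 (Ideal.kerLiftAlg φ) (Ideal.kerLiftAlg_injective φ)
    (isArtinianTestAlgebra_quot hres hm𝒪 hp) ?_
  have : (Ideal.kerLiftAlg φ).comp (Ideal.Quotient.mkₐ 𝒪 (RingHom.ker φ)) = φ := by
    ext s; rfl
  rw [this]
  exact h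

omit h𝒟 hres hm𝒪 in
theorem Good.prim {I : Ideal S} (h : Good 𝒟 τ 𝔪 I) : Prim 𝔪 I := by
  obtain ⟨hloc, hp⟩ := h
  have := hp.prim
  rwa [show RingHom.ker (Ideal.Quotient.mkₐ 𝒪 I) = I from Ideal.Quotient.mkₐ_ker 𝒪 I] at this

/-- (g2) -/
theorem Good.mono {I J : Ideal S} (h : Good 𝒟 τ 𝔪 I) (hIJ : I ≤ J) (hJ : J ≤ 𝔪) :
    Good 𝒟 τ 𝔪 J := by
  have hp := h.prim.mono hIJ hJ
  obtain ⟨hloc, hI⟩ := h
  haveI hlocJ : IsLocalRing (S ⧸ J) := isLocalRing_quot hp.1 hp.2.1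
  refine ⟨hlocJ, ?_⟩
  have := DPoint.comp h𝒟 hI (Ideal.Quotient.factorₐ 𝒪 hIJ) (isArtinianTestAlgebra_quot hres hm𝒪 hp)
  have h2 : (Ideal.Quotient.factorₐ 𝒪 hIJ).comp (Ideal.Quotient.mkₐ 𝒪 I)
      = Ideal.Quotient.mkₐ 𝒪 J := by
    ext s; rfl
  rwa [h2] at this

/-- (g1) -/
theorem Good.inf {I J : Ideal S} (hI : Good 𝒟 τ 𝔪 I) (hJ : Good 𝒟 τ 𝔪 J) :
    Good 𝒟 τ 𝔪 (I ⊓ J) := by
  have hpI := hI.prim
  have hpJ := hJ.prim
  have hpP := hpI.inf hpJ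
  have hpC := hpI.mono (le_sup_left : I ≤ I ⊔ J) (sup_le hpI.1 hpJ.1)
  obtain ⟨hlocI, hAI, hmI, hcI, hDI⟩ := hI
  obtain ⟨hlocJ, hAJ, hmJ, hcJ, hDJ⟩ := hJ
  haveI hlocP : IsLocalRing (S ⧸ (I ⊓ J)) := isLocalRing_quot hpP.1 hpP.2.1
  haveI hlocC : IsLocalRing (S ⧸ (I ⊔ J)) := isLocalRing_quot hpC.1 hpC.2.1
  have hAP := isArtinianTestAlgebra_quot hres hm𝒪 hpP
  have hAC := isArtinianTestAlgebra_quot hres hm𝒪 hpC
  haveI := hAP.isArtinian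
  let f : S ⧸ I →ₐ[𝒪] S ⧸ (I ⊔ J) := Ideal.Quotient.factorₐ 𝒪 le_sup_left
  let g : S ⧸ J →ₐ[𝒪] S ⧸ (I ⊔ J) := Ideal.Quotient.factorₐ 𝒪 le_sup_right
  let pA : S ⧸ (I ⊓ J) →ₐ[𝒪] S ⧸ I := Ideal.Quotient.factorₐ 𝒪 inf_le_left
  let pB : S ⧸ (I ⊓ J) →ₐ[𝒪] S ⧸ J := Ideal.Quotient.factorₐ 𝒪 inf_le_right
  have hpA : IsLocalHom (pA : S ⧸ (I ⊓ J) →+* S ⧸ I) := isLocalHom_of_artinian _
  have hpB : IsLocalHom (pB : S ⧸ (I ⊓ J) →+* S ⧸ J) := isLocalHom_of_artinian _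
  have hcP : MatCont (mapMat (Ideal.Quotient.mkₐ 𝒪 (I ⊓ J) : S →+* S ⧸ (I ⊓ J)) τ) := by
    haveI := hAI.isArtinian
    haveI := hAJ.isArtinian
    rw [matCont_iff_of_artinian] at hcI hcJ ⊢
    obtain ⟨L, hL, h1⟩ := hcI
    obtain ⟨L', hL', h1'⟩ := hcJ
    refine ⟨L ⊔ L', IntermediateField.finiteDimensional_sup L L', fun σ hσ => ?_⟩
    have h2 := h1 σ (fun x hx => hσ x ((le_sup_left : L ≤ L ⊔ L') hx))
    have h2' := h1' σ (fun x hx => hσ x ((le_sup_right : L' ≤ L ⊔ L') hx))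
    ext i j
    have h3 : Ideal.Quotient.mk I (τ σ i j) = (1 : M2 (S ⧸ I)) i j := congrFun (congrFun h2 i) j
    have h3' : Ideal.Quotient.mk J (τ σ i j) = (1 : M2 (S ⧸ J)) i j :=
      congrFun (congrFun h2' i) j
    have h4 : ∀ K : Ideal S, (1 : M2 (S ⧸ K)) i j = Ideal.Quotient.mk K ((1 : M2 S) i j) := by
      intro K
      rw [Matrix.one_apply, Matrix.one_apply]; split_ifs <;> simp
    show Ideal.Quotient.mk (I ⊓ J) (τ σ i j) = (1 : M2 (S ⧸ (I ⊓ J))) i j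
    rw [h4, Ideal.Quotient.eq] at h3 h3' ⊢
    exact ⟨h3, h3'⟩
  refine ⟨hlocP, hAP, ?_, hcP, ?_⟩
  · intro s hs
    exact (mk_mem_maximalIdeal_iff hpP.1 hpP.2.1 s).mpr hs
  · refine h𝒟.of_fibreProduct hAI hAJ hAC hAP f g pA pB hpA hpB ?_ ?_ ?_ ?_ ?_
    · ext x
      obtain ⟨s, rfl⟩ := Ideal.Quotient.mk_surjective x
      rfl
    · intro x x' h
      obtain ⟨s, rfl⟩ := Ideal.Quotient.mk_surjective x
      obtain ⟨s', rfl⟩ := Ideal.Quotient.mk_surjective x'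
      have h1 : Ideal.Quotient.mk I s = Ideal.Quotient.mk I s' := congrArg Prod.fst h
      have h2 : Ideal.Quotient.mk J s = Ideal.Quotient.mk J s' := congrArg Prod.snd h
      rw [Ideal.Quotient.eq] at h1 h2 ⊢
      exact ⟨h1, h2⟩
    · intro a b hab
      obtain ⟨s, rfl⟩ := Ideal.Quotient.mk_surjective a
      obtain ⟨s', rfl⟩ := Ideal.Quotient.mk_surjective b
      have h1 : Ideal.Quotient.mk (I ⊔ J) s = Ideal.Quotient.mk (I ⊔ J) s' := hab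
      rw [Ideal.Quotient.eq, Submodule.mem_sup] at h1
      obtain ⟨i, hi, j, hj, hij⟩ := h1
      refine ⟨Ideal.Quotient.mk (I ⊓ J) (s - i), ?_, ?_⟩
      · show Ideal.Quotient.mk I (s - i) = Ideal.Quotient.mk I s
        rw [Ideal.Quotient.eq]
        simpa using I.neg_mem hi
      · show Ideal.Quotient.mk J (s - i) = Ideal.Quotient.mk J s'
        rw [Ideal.Quotient.eq]
        have : s - i - s' = j := by linear_combination -hij
        rw [this]; exact hj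
    · exact h𝒟.of_isEquiv hAI (isEquiv_symm (ofMat_baseChangeAlong _ hcP
        (pA : S ⧸ (I ⊓ J) →+* S ⧸ I) hpA hcI)) hDI
    · exact h𝒟.of_isEquiv hAJ (isEquiv_symm (ofMat_baseChangeAlong _ hcP
        (pB : S ⧸ (I ⊓ J) →+* S ⧸ J) hpB hcJ)) hDJ

end Fermat.Agent.S53Lib
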