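import Mathlib
import Fermat.Prelude.Def_GaloisRep_DeformationRingData
import Fermat.Prelude.Def_GaloisRep_DeformationCondition

set_option autoImplicit false
set_option linter.unusedSectionVars false
set_option linter.unusedSimpArgs false
set_option linter.unusedVariables false

noncomputable section

namespace Fermat.Agent.S53Lib

open IsLocalRing
open scoped TensorProduct

/-- the absolute Galois group of `ℚ` -/
abbrev GQ : Type := AlgebraicClosure ℚ ≃ₐ[ℚ] AlgebraicClosure ℚ

/-- two by two matrices -/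
abbrev M2 (A : Type) : Type := Matrix (Fin 2) (Fin 2) A

/-- push a matrix representation forward along a ring homomorphism -/
def mapMat {A B : Type} [CommRing A] [CommRing B] (φ : A →+* B) (r : GQ →* M2 A) : GQ →* M2 B :=
  (φ.mapMatrix : M2 A →+* M2 B).toMonoidHom.comp r

@[simp] theorem mapMat_apply {A B : Type} [CommRing A] [CommRing B] (φ : A →+* B)
    (r : GQ →* M2 A) (σ : GQ) (i j : Fin 2) : mapMat φ r σ i j = φ (r σ i j) := rfl

theorem mapMat_apply' {A B : Type} [CommRing A] [CommRing B] (φ : A →+* B)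
    (r : GQ →* M2 A) (σ : GQ) : mapMat φ r σ = (r σ).map φ := rfl

theorem mapMat_comp {A B C : Type} [CommRing A] [CommRing B] [CommRing C] (φ : A →+* B)
    (ψ : B →+* C) (r : GQ →* M2 A) : mapMat ψ (mapMat φ r) = mapMat (ψ.comp φ) r := by
  ext σ i j; rfl

theorem mem_smul_top_pi {A : Type} [CommRing A] (I : Ideal A) (w : Fin 2 → A)
    (hw : ∀ i, w i ∈ I) : w ∈ I • (⊤ : Submodule A (Fin 2 → A)) := by
  have : w = ∑ i, w i • (Pi.single i (1 : A) : Fin 2 → A) := by
    ext j
    simp [Finset.sum_apply, Pi.single_apply]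
  rw [this]
  exact Submodule.sum_mem _ fun i _ => Submodule.smul_mem_smul (hw i) Submodule.mem_top

/-- conjugate a matrix representation -/
def conjMat {A : Type} [CommRing A] (P Q : M2 A) (hPQ : P * Q = 1) (hQP : Q * P = 1)
    (r : GQ →* M2 A) : GQ →* M2 A where
  toFun σ := P * r σ * Q
  map_one' := by rw [map_one, mul_one, hPQ]
  map_mul' σ τ := by
    rw [map_mul]
    calc P * (r σ * r τ) * Q = P * r σ * 1 * r τ * Q := by simp [mul_assoc]
      _ = P * r σ * Q * (P * r τ * Q) := by rw [← hQP]; simp [mul_assoc]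

@[simp] theorem conjMat_apply {A : Type} [CommRing A] (P Q : M2 A) (hPQ : P * Q = 1)
    (hQP : Q * P = 1) (r : GQ →* M2 A) (σ : GQ) : conjMat P Q hPQ hQP r σ = P * r σ * Q := rfl

section adic

variable {A : Type} [CommRing A] [IsLocalRing A]

/-- adic continuity of a matrix valued representation -/
def MatCont (r : GQ →* M2 A) : Prop :=
  ∀ n : ℕ, ∃ L : IntermediateField ℚ (AlgebraicClosure ℚ), FiniteDimensional ℚ L ∧
    ∀ σ : GQ, (∀ x ∈ L, σ x = x) → ∀ i j, (r σ - 1) i j ∈ maximalIdeal A ^ n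

/-- the Galois representation attached to a continuous matrix representation -/
def ofMat (r : GQ →* M2 A) (hc : MatCont r) : GaloisRepAdic A where
  V := Fin 2 → A
  finrank_eq := by simp
  ρ := { toFun := fun σ => Matrix.toLin' (r σ)
         map_one' := by rw [map_one, Matrix.toLin'_one]; rfl
         map_mul' := fun σ τ => by rw [map_mul, Matrix.toLin'_mul]; rfl }
  isAdicContinuous := by
    intro n
    obtain ⟨L, hL, h⟩ := hc n
    refine ⟨L, hL, fun σ hσ v => ?_⟩
    apply mem_smul_top_pi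
    intro i
    have h1 : (Matrix.toLin' (r σ) v - v) i = ∑ j, (r σ - 1) i j * v j := by
      simp [Matrix.toLin'_apply, Matrix.mulVec, dotProduct, Matrix.sub_apply, sub_mul,
        Matrix.one_apply, Fin.sum_univ_two]
      fin_cases i <;> simp
    show (Matrix.toLin' (r σ) v - v) i ∈ _
    rw [h1]
    exact Ideal.sum_mem _ fun j _ => Ideal.mul_mem_right _ _ (h σ hσ i j)

theorem ofMat_ρ_apply (r : GQ →* M2 A) (hc : MatCont r) (σ : GQ) (v : Fin 2 → A) :
    (ofMat r hc).ρ σ v = (r σ).mulVec v := rfl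

theorem MatCont.map {B : Type} [CommRing B] [IsLocalRing B] {r : GQ →* M2 A} (hc : MatCont r)
    (φ : A →+* B) (hφ : IsLocalHom φ) : MatCont (mapMat φ r) := by
  intro n
  obtain ⟨L, hL, h⟩ := hc n
  refine ⟨L, hL, fun σ hσ i j => ?_⟩
  have hmap : (maximalIdeal A ^ n).map φ ≤ maximalIdeal B ^ n := by
    rw [Ideal.map_pow]
    exact Ideal.pow_right_mono (Ideal.map_le_iff_le_comap.mpr fun a ha =>
      Ideal.mem_comap.mpr (haveI := hφ; map_nonunit φ a ha)) n
  have h2 : (mapMat φ r σ - 1) i j = φ ((r σ - 1) i j) := by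
    simp only [Matrix.sub_apply, mapMat_apply, map_sub, Matrix.one_apply]
    split_ifs <;> simp
  rw [h2]
  exact hmap (Ideal.mem_map_of_mem φ (h σ hσ i j))

theorem MatCont.conj {r : GQ →* M2 A} (hc : MatCont r) (P Q : M2 A) (hPQ : P * Q = 1)
    (hQP : Q * P = 1) : MatCont (conjMat P Q hPQ hQP r) := by
  intro n
  obtain ⟨L, hL, h⟩ := hc n
  refine ⟨L, hL, fun σ hσ i j => ?_⟩
  have h2 : conjMat P Q hPQ hQP r σ - 1 = P * (r σ - 1) * Q := by
    rw [conjMat_apply, mul_sub, sub_mul, mul_one, hPQ]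
  rw [h2, Matrix.mul_apply]
  refine Ideal.sum_mem _ fun l _ => Ideal.mul_mem_right _ _ ?_
  rw [Matrix.mul_apply]
  exact Ideal.sum_mem _ fun l' _ => Ideal.mul_mem_left _ _ (h σ hσ _ _)

theorem isEquiv_symm {ρ₁ ρ₂ : GaloisRepAdic A} (h : ρ₁.IsEquiv ρ₂) : ρ₂.IsEquiv ρ₁ :=
  h.elim fun e => ⟨e.symm⟩

theorem isEquiv_trans {ρ₁ ρ₂ ρ₃ : GaloisRepAdic A} (h : ρ₁.IsEquiv ρ₂) (h' : ρ₂.IsEquiv ρ₃) :
    ρ₁.IsEquiv ρ₃ :=
  h.elim fun e => h'.elim fun e' => ⟨e.trans e'⟩

theorem isEquiv_refl (ρ : GaloisRepAdic A) : ρ.IsEquiv ρ := ⟨GaloisRepAdic.Equiv.refl ρ⟩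

theorem isEquiv_baseChangeAlong {B : Type} [CommRing B] [IsLocalRing B] (φ : A →+* B)
    (hφ : IsLocalHom φ) {ρ₁ ρ₂ : GaloisRepAdic A} (h : ρ₁.IsEquiv ρ₂) :
    (ρ₁.baseChangeAlong φ hφ).IsEquiv (ρ₂.baseChangeAlong φ hφ) :=
  h.elim fun e => ⟨e.baseChangeAlong φ hφ⟩

/-- (D1) every representation is equivalent to a matrix representation -/
theorem exists_ofMat_isEquiv (ρ : GaloisRepAdic A) :
    ∃ (r : GQ →* M2 A) (hc : MatCont r), ρ.IsEquiv (ofMat r hc) := by
  classical
  let b : Module.Basis (Fin 2) A ρ.V := Module.finBasisOfFinrankEq A ρ.V ρ.finrank_eq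
  let r : GQ →* M2 A :=
    { toFun := fun σ => LinearMap.toMatrix b b (ρ.ρ σ)
      map_one' := by rw [map_one]; exact LinearMap.toMatrix_one b
      map_mul' := fun σ τ => by rw [map_mul]; exact LinearMap.toMatrix_mul b _ _ }
  have hmem : ∀ (I : Ideal A) (v : ρ.V), v ∈ I • (⊤ : Submodule A ρ.V) → ∀ i, b.repr v i ∈ I := by
    intro I v hv i
    refine Submodule.smul_induction_on (p := fun x => b.repr x i ∈ I) hv ?_ ?_
    · intro a ha w _
      simp only [map_smul, Finsupp.smul_apply, smul_eq_mul]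
      exact Ideal.mul_mem_right _ _ ha
    · intro x y hx hy
      simp only [map_add, Finsupp.add_apply]
      exact Ideal.add_mem _ hx hy
  have hc : MatCont r := by
    intro n
    obtain ⟨L, hL, h⟩ := ρ.isAdicContinuous n
    refine ⟨L, hL, fun σ hσ i j => ?_⟩
    have h1 : (r σ - 1) i j = b.repr (ρ.ρ σ (b j) - b j) i := by
      have h0 : r σ i j = b.repr (ρ.ρ σ (b j)) i := LinearMap.toMatrix_apply b b (ρ.ρ σ) i j
      rw [Matrix.sub_apply, h0, map_sub, Finsupp.sub_apply, Module.Basis.repr_self,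
        Matrix.one_apply, Finsupp.single_apply]
      by_cases hij : i = j
      · simp [hij]
      · simp [hij, Ne.symm hij]
    rw [h1]
    exact hmem _ _ (h σ hσ (b j)) i
  have key : ∀ (σ : GQ) (x : ρ.V),
      b.equivFun (ρ.ρ σ x) = (LinearMap.toMatrix b b (ρ.ρ σ)).mulVec (b.equivFun x) := by
    intro σ x
    have := LinearMap.toMatrix_mulVec_repr b b (ρ.ρ σ) x
    ext i
    simpa using (congrFun this i).symm
  exact ⟨r, hc, ⟨{ toLinearEquiv := b.equivFun, map_apply := fun σ x => key σ x }⟩⟩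

theorem piScalarRight_baseChange_toLin' {A B : Type} [CommRing A] [CommRing B] [Algebra A B]
    (M : M2 A) (x : B ⊗[A] (Fin 2 → A)) :
    TensorProduct.piScalarRight A B B (Fin 2) ((Matrix.toLin' M).baseChange B x) =
      (M.map (algebraMap A B)).mulVec (TensorProduct.piScalarRight A B B (Fin 2) x) := by
  induction x using TensorProduct.induction_on with
  | zero => simp only [map_zero, Matrix.mulVec_zero]
  | tmul b v =>
    rw [LinearMap.baseChange_tmul]
    ext i
    simp only [TensorProduct.piScalarRight_apply, TensorProduct.piScalarRightHom_tmul,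
      Matrix.toLin'_apply, Matrix.mulVec, dotProduct, Matrix.map_apply, Fin.sum_univ_two,
      Algebra.smul_def, map_add, map_mul]
    ring
  | add x y hx hy => simp only [map_add, hx, hy, Matrix.mulVec_add]

/-- (D2) base change of a matrix representation -/
theorem ofMat_baseChangeAlong {B : Type} [CommRing B] [IsLocalRing B] (r : GQ →* M2 A)
    (hc : MatCont r) (φ : A →+* B) (hφ : IsLocalHom φ) (hc' : MatCont (mapMat φ r)) :
    ((ofMat r hc).baseChangeAlong φ hφ).IsEquiv (ofMat (mapMat φ r) hc') := by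
  letI : Algebra A B := φ.toAlgebra
  exact ⟨{ toLinearEquiv := TensorProduct.piScalarRight A B B (Fin 2),
           map_apply := fun σ x => piScalarRight_baseChange_toLin' (r σ) x }⟩

/-- (D3) equivalences of matrix representations are conjugations -/
theorem ofMat_isEquiv_iff (r r' : GQ →* M2 A) (hc : MatCont r) (hc' : MatCont r') :
    (ofMat r hc).IsEquiv (ofMat r' hc') ↔
      ∃ P Q : M2 A, P * Q = 1 ∧ Q * P = 1 ∧ ∀ σ, P * r σ = r' σ * P := by
  constructor
  · rintro ⟨e⟩
    let f : (Fin 2 → A) ≃ₗ[A] (Fin 2 → A) := e.toLinearEquiv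
    have hf : ∀ (σ : GQ) (x : Fin 2 → A), f ((r σ).mulVec x) = (r' σ).mulVec (f x) :=
      fun σ x => e.map_apply σ x
    refine ⟨LinearMap.toMatrix' f.toLinearMap, LinearMap.toMatrix' f.symm.toLinearMap, ?_, ?_, ?_⟩
    · rw [← LinearMap.toMatrix'_comp]; simp
    · rw [← LinearMap.toMatrix'_comp]; simp
    · intro σ
      have h1 : r σ = LinearMap.toMatrix' (Matrix.toLin' (r σ)) := by simp
      have h2 : r' σ = LinearMap.toMatrix' (Matrix.toLin' (r' σ)) := by simp
      rw [h1, h2, ← LinearMap.toMatrix'_comp, ← LinearMap.toMatrix'_comp]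
      congr 1
      refine LinearMap.ext fun x => ?_
      simpa using hf σ x
  · rintro ⟨P, Q, hPQ, hQP, h⟩
    have h1 : Matrix.toLin' P ∘ₗ Matrix.toLin' Q = LinearMap.id := by
      rw [← Matrix.toLin'_mul, hPQ, Matrix.toLin'_one]
    have h2 : Matrix.toLin' Q ∘ₗ Matrix.toLin' P = LinearMap.id := by
      rw [← Matrix.toLin'_mul, hQP, Matrix.toLin'_one]
    have h3 : ∀ (σ : GQ) (x : Fin 2 → A),
        P.mulVec ((r σ).mulVec x) = (r' σ).mulVec (P.mulVec x) := by
      intro σ x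
      rw [Matrix.mulVec_mulVec, Matrix.mulVec_mulVec, h]
    exact ⟨{ toLinearEquiv := LinearEquiv.ofLinearMap (Matrix.toLin' P) (Matrix.toLin' Q) h1 h2,
             map_apply := fun σ x => h3 σ x }⟩

end adic

section residual

variable {k : Type} [Field k]

/-- the residual representation attached to a matrix representation -/
def ofMatRes (r : GQ →* M2 k) (h : GaloisFactorsThroughFiniteLevel r) : ResidualGaloisRep k where
  V := Fin 2 → k
  finrank_eq := by simp
  ρ := { toFun := fun σ => Matrix.toLin' (r σ)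
         map_one' := by rw [map_one, Matrix.toLin'_one]; rfl
         map_mul' := fun σ τ => by rw [map_mul, Matrix.toLin'_mul]; rfl }
  factorsThroughFiniteLevel := by
    obtain ⟨L, hL, h1⟩ := h
    refine ⟨L, hL, fun σ hσ => ?_⟩
    show Matrix.toLin' (r σ) = 1
    rw [h1 σ hσ, Matrix.toLin'_one]; rfl

theorem factors_mapMat {k' : Type} [Field k'] {r : GQ →* M2 k}
    (h : GaloisFactorsThroughFiniteLevel r) (ψ : k →+* k') :
    GaloisFactorsThroughFiniteLevel (mapMat ψ r) := by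
  obtain ⟨L, hL, h1⟩ := h
  refine ⟨L, hL, fun σ hσ => ?_⟩
  rw [mapMat_apply', h1 σ hσ]
  exact (ψ.mapMatrix : M2 k →+* M2 k').map_one

theorem factors_conjMat {r : GQ →* M2 k}
    (h : GaloisFactorsThroughFiniteLevel r) (P Q : M2 k) (hPQ : P * Q = 1) (hQP : Q * P = 1) :
    GaloisFactorsThroughFiniteLevel (conjMat P Q hPQ hQP r) := by
  obtain ⟨L, hL, h1⟩ := h
  refine ⟨L, hL, fun σ hσ => ?_⟩
  rw [conjMat_apply, h1 σ hσ, mul_one, hPQ]

theorem resEquiv_symm {ρ₁ ρ₂ : ResidualGaloisRep k} (h : ρ₁.IsEquiv ρ₂) : ρ₂.IsEquiv ρ₁ :=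
  h.elim fun e => ⟨e.symm⟩

theorem resEquiv_trans {ρ₁ ρ₂ ρ₃ : ResidualGaloisRep k} (h : ρ₁.IsEquiv ρ₂)
    (h' : ρ₂.IsEquiv ρ₃) : ρ₁.IsEquiv ρ₃ :=
  h.elim fun e => h'.elim fun e' => ⟨e.trans e'⟩

theorem resEquiv_baseChangeAlong {k' : Type} [Field k'] (ψ : k →+* k')
    {ρ₁ ρ₂ : ResidualGaloisRep k} (h : ρ₁.IsEquiv ρ₂) :
    (ρ₁.baseChangeAlong ψ).IsEquiv (ρ₂.baseChangeAlong ψ) :=
  h.elim fun e => ⟨e.baseChangeAlong ψ⟩

/-- (E1) -/
theorem exists_ofMatRes_isEquiv (ρ : ResidualGaloisRep k) :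
    ∃ (r : GQ →* M2 k) (h : GaloisFactorsThroughFiniteLevel r), ρ.IsEquiv (ofMatRes r h) := by
  classical
  let b : Module.Basis (Fin 2) k ρ.V := Module.finBasisOfFinrankEq k ρ.V ρ.finrank_eq
  let r : GQ →* M2 k :=
    { toFun := fun σ => LinearMap.toMatrix b b (ρ.ρ σ)
      map_one' := by rw [map_one]; exact LinearMap.toMatrix_one b
      map_mul' := fun σ τ => by rw [map_mul]; exact LinearMap.toMatrix_mul b _ _ }
  have h : GaloisFactorsThroughFiniteLevel r := by
    obtain ⟨L, hL, h1⟩ := ρ.factorsThroughFiniteLevel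
    refine ⟨L, hL, fun σ hσ => ?_⟩
    show LinearMap.toMatrix b b (ρ.ρ σ) = 1
    rw [h1 σ hσ]; exact LinearMap.toMatrix_one b
  have key : ∀ (σ : GQ) (x : ρ.V),
      b.equivFun (ρ.ρ σ x) = (LinearMap.toMatrix b b (ρ.ρ σ)).mulVec (b.equivFun x) := by
    intro σ x
    have := LinearMap.toMatrix_mulVec_repr b b (ρ.ρ σ) x
    ext i
    simpa using (congrFun this i).symm
  exact ⟨r, h, ⟨{ toLinearEquiv := b.equivFun, map_apply := fun σ x => key σ x }⟩⟩

/-- (E2) -/
theorem ofMatRes_baseChangeAlong {k' : Type} [Field k'] (r : GQ →* M2 k)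
    (h : GaloisFactorsThroughFiniteLevel r) (ψ : k →+* k')
    (h' : GaloisFactorsThroughFiniteLevel (mapMat ψ r)) :
    ((ofMatRes r h).baseChangeAlong ψ).IsEquiv (ofMatRes (mapMat ψ r) h') := by
  letI : Algebra k k' := ψ.toAlgebra
  exact ⟨{ toLinearEquiv := TensorProduct.piScalarRight k k' k' (Fin 2),
           map_apply := fun σ x => piScalarRight_baseChange_toLin' (r σ) x }⟩

/-- (E3) -/
theorem ofMatRes_isEquiv_iff (r r' : GQ →* M2 k) (hc : GaloisFactorsThroughFiniteLevel r)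
    (hc' : GaloisFactorsThroughFiniteLevel r') :
    (ofMatRes r hc).IsEquiv (ofMatRes r' hc') ↔
      ∃ P Q : M2 k, P * Q = 1 ∧ Q * P = 1 ∧ ∀ σ, P * r σ = r' σ * P := by
  constructor
  · rintro ⟨e⟩
    let f : (Fin 2 → k) ≃ₗ[k] (Fin 2 → k) := e.toLinearEquiv
    have hf : ∀ (σ : GQ) (x : Fin 2 → k), f ((r σ).mulVec x) = (r' σ).mulVec (f x) :=
      fun σ x => e.map_apply σ x
    refine ⟨LinearMap.toMatrix' f.toLinearMap, LinearMap.toMatrix' f.symm.toLinearMap, ?_, ?_, ?_⟩
    · rw [← LinearMap.toMatrix'_comp]; simp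
    · rw [← LinearMap.toMatrix'_comp]; simp
    · intro σ
      have h1 : r σ = LinearMap.toMatrix' (Matrix.toLin' (r σ)) := by simp
      have h2 : r' σ = LinearMap.toMatrix' (Matrix.toLin' (r' σ)) := by simp
      rw [h1, h2, ← LinearMap.toMatrix'_comp, ← LinearMap.toMatrix'_comp]
      congr 1
      refine LinearMap.ext fun x => ?_
      simpa using hf σ x
  · rintro ⟨P, Q, hPQ, hQP, h⟩
    have h1 : Matrix.toLin' P ∘ₗ Matrix.toLin' Q = LinearMap.id := by
      rw [← Matrix.toLin'_mul, hPQ, Matrix.toLin'_one]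
    have h2 : Matrix.toLin' Q ∘ₗ Matrix.toLin' P = LinearMap.id := by
      rw [← Matrix.toLin'_mul, hQP, Matrix.toLin'_one]
    have h3 : ∀ (σ : GQ) (x : Fin 2 → k),
        P.mulVec ((r σ).mulVec x) = (r' σ).mulVec (P.mulVec x) := by
      intro σ x
      rw [Matrix.mulVec_mulVec, Matrix.mulVec_mulVec, h]
    exact ⟨{ toLinearEquiv := LinearEquiv.ofLinearMap (Matrix.toLin' P) (Matrix.toLin' Q) h1 h2,
             map_apply := fun σ x => h3 σ x }⟩

end residual

section bridge

variable {A : Type} [CommRing A] [IsLocalRing A]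

theorem MatCont.factors_residue {r : GQ →* M2 A} (hc : MatCont r) :
    GaloisFactorsThroughFiniteLevel (mapMat (residue A) r) := by
  obtain ⟨L, hL, h⟩ := hc 1
  refine ⟨L, hL, fun σ hσ => ?_⟩
  ext i j
  have h1 := h σ hσ i j
  rw [pow_one, ← residue_eq_zero_iff, Matrix.sub_apply, map_sub, sub_eq_zero] at h1
  rw [mapMat_apply, h1, Matrix.one_apply, Matrix.one_apply]
  split_ifs <;> simp

/-- (E4) the residual representation of a matrix representation -/
theorem ofMat_residual (r : GQ →* M2 A) (hc : MatCont r)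
    (h : GaloisFactorsThroughFiniteLevel (mapMat (residue A) r)) :
    (ofMat r hc).residual.IsEquiv (ofMatRes (mapMat (residue A) r) h) :=
  ⟨{ toLinearEquiv := TensorProduct.piScalarRight A (ResidueField A) (ResidueField A) (Fin 2),
     map_apply := fun σ x => piScalarRight_baseChange_toLin' (r σ) x }⟩

theorem isEquiv_residual {ρ₁ ρ₂ : GaloisRepAdic A} (h : ρ₁.IsEquiv ρ₂) :
    ρ₁.residual.IsEquiv ρ₂.residual :=
  h.elim fun e => ⟨e.residual⟩

/-- lifting an invertible matrix from the residue field -/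
theorem exists_lift_invertible (P Q : M2 (ResidueField A)) (hPQ : P * Q = 1) :
    ∃ P' Q' : M2 A, P' * Q' = 1 ∧ Q' * P' = 1 ∧ P'.map (residue A) = P := by
  choose f hf using (residue_surjective (R := A))
  let P' : M2 A := P.map f
  have hP' : P'.map (residue A) = P := by
    ext i j; simp [P', hf]
  have hdet : IsUnit P'.det := by
    have h1 : residue A P'.det = P.det := by
      rw [← hP']; exact RingHom.map_det (residue A) P'
    have h2 : IsUnit P.det := by
      have := congrArg Matrix.det hPQ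
      rw [Matrix.det_mul, Matrix.det_one] at this
      exact IsUnit.of_mul_eq_one _ this
    have h3 : IsUnit (residue A P'.det) := h1 ▸ h2
    exact (isUnit_map_iff (residue A) _).mp h3
  have hU : IsUnit P' := (Matrix.isUnit_iff_isUnit_det P').mpr hdet
  obtain ⟨u, hu⟩ := hU
  refine ⟨P', (↑u⁻¹ : M2 A), ?_, ?_, hP'⟩
  · rw [← hu]; exact u.mul_inv
  · rw [← hu]; exact u.inv_mul

variable {k : Type} [Field k]

/-- (I2) a strict matrix lift has the right residual representation -/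
theorem residual_isEquiv_of_lifts (ρbar : ResidualGaloisRep k) (rbar : GQ →* M2 k)
    (hb : GaloisFactorsThroughFiniteLevel rbar) (hρ : ρbar.IsEquiv (ofMatRes rbar hb))
    (ψ : k →+* ResidueField A) (r : GQ →* M2 A) (hc : MatCont r)
    (hl : ∀ σ i j, residue A (r σ i j) = ψ (rbar σ i j)) :
    (ofMat r hc).residual.IsEquiv (ρbar.baseChangeAlong ψ) := by
  have h1 : mapMat (residue A) r = mapMat ψ rbar := by
    ext σ i j; exact hl σ i j
  refine resEquiv_trans (ofMat_residual r hc hc.factors_residue) ?_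
  refine resEquiv_symm (resEquiv_trans (resEquiv_baseChangeAlong ψ hρ) ?_)
  refine resEquiv_trans (ofMatRes_baseChangeAlong rbar hb ψ (factors_mapMat hb ψ)) ?_
  have : ∀ (r₁ r₂ : GQ →* M2 (ResidueField A)) (h₁ : GaloisFactorsThroughFiniteLevel r₁)
      (h₂ : GaloisFactorsThroughFiniteLevel r₂), r₁ = r₂ →
      (ofMatRes r₁ h₁).IsEquiv (ofMatRes r₂ h₂) := by
    intro r₁ r₂ h₁ h₂ h; subst h; exact ⟨ResidualGaloisRep.Equiv.refl _⟩
  exact this _ _ _ _ h1.symm

/-- (I1) a deformation is equivalent to a strict matrix lift -/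
theorem exists_lifts_of_residual_isEquiv (ρbar : ResidualGaloisRep k) (rbar : GQ →* M2 k)
    (hb : GaloisFactorsThroughFiniteLevel rbar) (hρ : ρbar.IsEquiv (ofMatRes rbar hb))
    (ψ : k →+* ResidueField A) (ρ : GaloisRepAdic A)
    (h : ρ.residual.IsEquiv (ρbar.baseChangeAlong ψ)) :
    ∃ (r : GQ →* M2 A) (hc : MatCont r), ρ.IsEquiv (ofMat r hc) ∧
      ∀ σ i j, residue A (r σ i j) = ψ (rbar σ i j) := by
  obtain ⟨r₀, hc₀, h₀⟩ := exists_ofMat_isEquiv ρ
  have h1 : (ofMatRes (mapMat (residue A) r₀) hc₀.factors_residue).IsEquiv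
      (ofMatRes (mapMat ψ rbar) (factors_mapMat hb ψ)) := by
    refine resEquiv_trans (resEquiv_symm (ofMat_residual r₀ hc₀ hc₀.factors_residue)) ?_
    refine resEquiv_trans (resEquiv_symm (isEquiv_residual h₀)) ?_
    refine resEquiv_trans h ?_
    exact resEquiv_trans (resEquiv_baseChangeAlong ψ hρ)
      (ofMatRes_baseChangeAlong rbar hb ψ (factors_mapMat hb ψ))
  obtain ⟨P, Q, hPQ, hQP, hconj⟩ := (ofMatRes_isEquiv_iff _ _ _ _).mp h1
  obtain ⟨P', Q', hPQ', hQP', hP'⟩ := exists_lift_invertible P Q hPQ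
  refine ⟨conjMat P' Q' hPQ' hQP' r₀, hc₀.conj P' Q' hPQ' hQP', ?_, ?_⟩
  · refine isEquiv_trans h₀ ((ofMat_isEquiv_iff _ _ _ _).mpr ⟨P', Q', hPQ', hQP', fun σ => ?_⟩)
    rw [conjMat_apply, mul_assoc, mul_assoc, hQP', mul_one]
  · intro σ i j
    have hQ' : Q'.map (residue A) = Q := by
      have h2 : (P' * Q').map (residue A) = 1 := by
        rw [hPQ']; exact (RingHom.mapMatrix (residue A) : M2 A →+* _).map_one
      rw [Matrix.map_mul, hP'] at h2
      calc Q'.map (residue A) = (Q * P) * Q'.map (residue A) := by rw [hQP, one_mul]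
        _ = Q := by rw [mul_assoc, h2, mul_one]
    have h3 : (conjMat P' Q' hPQ' hQP' r₀ σ).map (residue A) = mapMat ψ rbar σ := by
      rw [conjMat_apply, Matrix.map_mul, Matrix.map_mul, hP', hQ', ← mapMat_apply', hconj σ,
        mul_assoc, hPQ, mul_one]
    exact congrFun (congrFun h3 i) j

end bridge

end Fermat.Agent.S53Lib
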