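import Fermat.Agent.S53.Mat

set_option autoImplicit false
set_option linter.unusedSectionVars false
set_option linter.unusedSimpArgs false
set_option linter.unusedVariables false
set_option linter.style.haveILetI false

noncomputable section

namespace Fermat.Agent.S53Lib

open IsLocalRing

/-- the normal form condition -/
def IsNormal {A : Type} [CommRing A] (g₀ g₁ : GQ) (i₀ j₀ : Fin 2) (y₀ : A) (r : GQ →* M2 A) :
    Prop :=
  r g₀ 0 0 = 0 ∧ r g₀ 1 0 = 1 ∧ r g₁ i₀ j₀ = y₀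

theorem IsNormal.map {A B : Type} [CommRing A] [CommRing B] {g₀ g₁ : GQ} {i₀ j₀ : Fin 2} {y₀ : A}
    {r : GQ →* M2 A} (h : IsNormal g₀ g₁ i₀ j₀ y₀ r) (φ : A →+* B) :
    IsNormal g₀ g₁ i₀ j₀ (φ y₀) (mapMat φ r) := by
  obtain ⟨h1, h2, h3⟩ := h
  refine ⟨?_, ?_, ?_⟩
  · rw [mapMat_apply, h1, map_zero]
  · rw [mapMat_apply, h2, map_one]
  · rw [mapMat_apply, h3]

/-- solving a quadratic equation in a henselian local ring -/
theorem exists_root_quadratic {A : Type} [CommRing A] [HenselianLocalRing A] (α β γ : A)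
    (hα : α ∈ maximalIdeal A) (hβ : IsUnit β) :
    ∃ c ∈ maximalIdeal A, α + β * c + γ * c ^ 2 = 0 := by
  open Polynomial in
  let f : A[X] := X ^ 2 + C β * X + C (γ * α)
  have hf : f.Monic := by
    have : f = X ^ 2 + (C β * X + C (γ * α)) := by simp only [f]; ring
    rw [this]
    apply Polynomial.monic_X_pow_add
    refine lt_of_le_of_lt (Polynomial.degree_linear_le) ?_
    norm_num
  have h1 : f.eval (-β) ∈ maximalIdeal A := by
    have : f.eval (-β) = γ * α := by simp [f]; ring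
    rw [this]; exact Ideal.mul_mem_left _ _ hα
  have h2 : IsUnit (f.derivative.eval (-β)) := by
    have : f.derivative.eval (-β) = -β := by
      simp [f, Polynomial.derivative_X_pow]; ring
    rw [this]; exact hβ.neg
  obtain ⟨u, hu, hu'⟩ := HenselianLocalRing.is_henselian f hf (-β) h1 h2
  have huU : IsUnit u := by
    by_contra hcon
    have h3 : u ∈ maximalIdeal A := (mem_maximalIdeal u).mpr hcon
    have h4 : β ∈ maximalIdeal A := by
      have := Ideal.sub_mem _ hu' h3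
      simpa using this
    exact (mem_maximalIdeal β).mp h4 hβ
  obtain ⟨w, rfl⟩ := huU
  have hroot : (w : A) ^ 2 + β * w + γ * α = 0 := by
    have := hu
    simpa [f, Polynomial.IsRoot] using this
  refine ⟨α * (↑w⁻¹ : A), Ideal.mul_mem_right _ _ hα, ?_⟩
  have hw : (w : A) * (↑w⁻¹ : A) = 1 := w.mul_inv
  have : α + β * (α * ↑w⁻¹) + γ * (α * ↑w⁻¹) ^ 2
      = α * (↑w⁻¹ : A) ^ 2 * ((w : A) ^ 2 + β * w + γ * α)
        + α * (1 - ((w : A) * ↑w⁻¹) ^ 2) + β * α * ↑w⁻¹ * (1 - (w : A) * ↑w⁻¹) := by ring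
  rw [this, hroot, hw]; ring

section

variable {k : Type} [Field k] (rbar : GQ →* M2 k) (g₀ g₁ : GQ) (i₀ j₀ : Fin 2)
variable {A : Type} [CommRing A] [IsLocalRing A] (ψ : k →+* ResidueField A) (y₀ : A)

theorem isUnit_of_residue_ne_zero (a : A) (h : residue A a ≠ 0) : IsUnit a := by
  by_contra hcon
  exact h ((residue_eq_zero_iff a).mpr ((mem_maximalIdeal a).mpr hcon))

/-- (R1) rigidity of the normal form -/
theorem normal_unique
    (hne : (rbar g₀ * rbar g₁ - rbar g₁ * rbar g₀) i₀ j₀ ≠ 0)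
    (r r' : GQ →* M2 A) (hl : mapMat (residue A) r = mapMat ψ rbar)
    (hl' : mapMat (residue A) r' = mapMat ψ rbar)
    (hn : IsNormal g₀ g₁ i₀ j₀ y₀ r) (hn' : IsNormal g₀ g₁ i₀ j₀ y₀ r')
    (P Q : M2 A) (hPQ : P * Q = 1) (h : ∀ σ, P * r σ = r' σ * P) : r = r' := by
  obtain ⟨h1, h2, h3⟩ := hn
  obtain ⟨h1', h2', h3'⟩ := hn'
  set a := P 0 0 with ha
  set b := P 1 0 with hb
  -- `P = a + b X'`
  have e00 := congrFun (congrFun (h g₀) 0) 0
  have e10 := congrFun (congrFun (h g₀) 1) 0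
  simp only [Matrix.mul_apply, Fin.sum_univ_two, h1, h2, h1', h2'] at e00 e10
  have hP : P = a • (1 : M2 A) + b • r' g₀ := by
    ext i j
    fin_cases i <;> fin_cases j <;>
      simp [Matrix.add_apply, Matrix.smul_apply, Matrix.one_apply, h1', h2', ha, hb]
    · linear_combination e00
    · linear_combination e10
  -- the unit
  have hu : IsUnit ((r' g₀ * r g₁ - r' g₁ * r' g₀) i₀ j₀) := by
    apply isUnit_of_residue_ne_zero
    have e1 : ∀ σ, (residue A).mapMatrix (r σ) = ψ.mapMatrix (rbar σ) :=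
      fun σ => DFunLike.congr_fun hl σ
    have e2 : ∀ σ, (residue A).mapMatrix (r' σ) = ψ.mapMatrix (rbar σ) :=
      fun σ => DFunLike.congr_fun hl' σ
    have e3 : (residue A).mapMatrix (r' g₀ * r g₁ - r' g₁ * r' g₀)
        = ψ.mapMatrix (rbar g₀ * rbar g₁ - rbar g₁ * rbar g₀) := by
      simp only [map_sub, map_mul, e1, e2]
    have e4 := congrFun (congrFun e3 i₀) j₀
    simp only [RingHom.mapMatrix_apply, Matrix.map_apply] at e4
    rw [e4]
    exact (map_ne_zero ψ).mpr hne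
  have hb0 : b = 0 := by
    have e := congrFun (congrFun (h g₁) i₀) j₀
    rw [hP] at e
    simp only [add_mul, mul_add, Matrix.smul_mul, Matrix.mul_smul, one_mul, mul_one,
      Matrix.add_apply, Matrix.smul_apply, h3, h3', smul_eq_mul] at e
    have e' : b * ((r' g₀ * r g₁ - r' g₁ * r' g₀) i₀ j₀) = 0 := by
      rw [Matrix.sub_apply]; linear_combination e
    exact (hu.mul_left_eq_zero).mp e'
  have hP' : P = a • (1 : M2 A) := by rw [hP, hb0, zero_smul, add_zero]
  have haU : a * Q 0 0 = 1 := by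
    have := congrFun (congrFun hPQ 0) 0
    rw [hP'] at this
    simpa using this
  ext σ i j
  have e := congrFun (congrFun (h σ) i) j
  rw [hP'] at e
  simp only [Matrix.smul_mul, Matrix.mul_smul, one_mul, mul_one, Matrix.smul_apply,
    smul_eq_mul] at e
  calc r σ i j = (a * Q 0 0) * r σ i j := by rw [haU, one_mul]
    _ = Q 0 0 * (a * r σ i j) := by ring
    _ = Q 0 0 * (a * r' σ i j) := by rw [e]
    _ = (a * Q 0 0) * r' σ i j := by ring
    _ = r' σ i j := by rw [haU, one_mul]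

theorem mapMat_conjMat_of_residue_one (r : GQ →* M2 A) (P Q : M2 A) (hPQ : P * Q = 1)
    (hQP : Q * P = 1) (hP : (residue A).mapMatrix P = 1) :
    mapMat (residue A) (conjMat P Q hPQ hQP r) = mapMat (residue A) r := by
  have hQ : (residue A).mapMatrix Q = 1 := by
    have := congrArg (residue A).mapMatrix hPQ
    rw [map_mul, hP, one_mul, map_one] at this
    exact this
  ext1 σ
  show (residue A).mapMatrix (P * r σ * Q) = (residue A).mapMatrix (r σ)
  rw [map_mul, map_mul, hP, hQ, one_mul, mul_one]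

theorem exists_normalize_step1 (h00 : rbar g₀ 0 0 = 0) (h10 : rbar g₀ 1 0 = 1)
    (r : GQ →* M2 A) (hl : mapMat (residue A) r = mapMat ψ rbar) :
    ∃ (P Q : M2 A) (hPQ : P * Q = 1) (hQP : Q * P = 1),
      mapMat (residue A) (conjMat P Q hPQ hQP r) = mapMat ψ rbar ∧
      conjMat P Q hPQ hQP r g₀ 0 0 = 0 ∧ conjMat P Q hPQ hQP r g₀ 1 0 = 1 := by
  have e : ∀ σ i j, residue A (r σ i j) = ψ (rbar σ i j) := fun σ i j =>
    congrFun (congrFun (DFunLike.congr_fun hl σ) i) j
  set a := r g₀ 0 0 with ha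
  set c := r g₀ 1 0 with hc
  have hra : residue A a = 0 := by rw [ha, e, h00, map_zero]
  have hrc : residue A c = 1 := by rw [hc, e, h10, map_one]
  have hcU : IsUnit c := isUnit_of_residue_ne_zero c (by rw [hrc]; exact one_ne_zero)
  obtain ⟨w, hw⟩ := hcU
  have hw1 : c * (↑w⁻¹ : A) = 1 := by rw [← hw]; exact w.mul_inv
  have hw2 : (↑w⁻¹ : A) * c = 1 := by rw [← hw]; exact w.inv_mul
  have hrw : residue A (↑w⁻¹ : A) = 1 := by
    have := congrArg (residue A) hw1
    rw [map_mul, hrc, one_mul, map_one] at this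
    exact this
  let Q : M2 A := !![1, a; 0, c]
  let P : M2 A := !![1, -a * ↑w⁻¹; 0, ↑w⁻¹]
  have hPQ : P * Q = 1 := by
    ext i j
    fin_cases i <;> fin_cases j <;> simp [P, Q, Matrix.mul_apply, Fin.sum_univ_two, hw2]
    linear_combination (-a) * hw2
  have hQP : Q * P = 1 := by
    ext i j
    fin_cases i <;> fin_cases j <;> simp [P, Q, Matrix.mul_apply, Fin.sum_univ_two, hw1]
  have hP : (residue A).mapMatrix P = 1 := by
    ext i j
    fin_cases i <;> fin_cases j <;> simp [P, hra, hrw]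
  have hcol : conjMat P Q hPQ hQP r g₀ * !![1, 0; 0, 0] = !![0, 0; 1, 0] := by
    have h1 : Q * !![(1:A), 0; 0, 0] = !![1, 0; 0, 0] := by
      ext i j
      fin_cases i <;> fin_cases j <;> simp [Q, Matrix.mul_apply, Fin.sum_univ_two]
    have h2 : r g₀ * !![(1:A), 0; 0, 0] = Q * !![0, 0; 1, 0] := by
      ext i j
      fin_cases i <;> fin_cases j <;> simp [Q, Matrix.mul_apply, Fin.sum_univ_two, ha, hc]
    rw [conjMat_apply, mul_assoc, h1, mul_assoc, h2, ← mul_assoc, hPQ, one_mul]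
  refine ⟨P, Q, hPQ, hQP, ?_, ?_, ?_⟩
  · rw [mapMat_conjMat_of_residue_one r P Q hPQ hQP hP, hl]
  · have := congrFun (congrFun hcol 0) 0
    simpa [Matrix.mul_apply, Fin.sum_univ_two] using this
  · have := congrFun (congrFun hcol 1) 0
    simpa [Matrix.mul_apply, Fin.sum_univ_two] using this

theorem exists_normalize_step2 [HenselianLocalRing A]
    (hne : (rbar g₀ * rbar g₁ - rbar g₁ * rbar g₀) i₀ j₀ ≠ 0)
    (hy₀ : residue A y₀ = ψ (rbar g₁ i₀ j₀))
    (r : GQ →* M2 A) (hl : mapMat (residue A) r = mapMat ψ rbar) :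
    ∃ (P Q : M2 A) (hPQ : P * Q = 1) (hQP : Q * P = 1),
      mapMat (residue A) (conjMat P Q hPQ hQP r) = mapMat ψ rbar ∧
      conjMat P Q hPQ hQP r g₀ = r g₀ ∧ conjMat P Q hPQ hQP r g₁ i₀ j₀ = y₀ := by
  have e1 : ∀ σ, (residue A).mapMatrix (r σ) = ψ.mapMatrix (rbar σ) :=
    fun σ => DFunLike.congr_fun hl σ
  set X := r g₀ with hX
  set Y := r g₁ with hY
  set X' := X.adjugate with hX'
  set t := X 0 0 + X 1 1 with ht
  set δ := X.det with hδ
  have hsum : X' = t • (1 : M2 A) - X := by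
    rw [hX', Matrix.adjugate_fin_two]
    ext i j
    fin_cases i <;> fin_cases j <;> simp [ht]
  have hXX' : X * X' = δ • (1 : M2 A) := Matrix.mul_adjugate X
  have hX'X : X' * X = δ • (1 : M2 A) := Matrix.adjugate_mul X
  set α := Y i₀ j₀ - y₀ with hα
  set u := (X * Y - Y * X) i₀ j₀ with hu
  set β := (X' * Y + Y * X) i₀ j₀ - y₀ * t with hβ
  set γ := (X' * Y * X) i₀ j₀ - y₀ * δ with hγ
  have hαm : α ∈ maximalIdeal A := by
    rw [← residue_eq_zero_iff, hα, map_sub, hy₀, sub_eq_zero]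
    exact congrFun (congrFun (e1 g₁) i₀) j₀
  have hβeq : β = t * α - u := by
    rw [hβ, hsum, hα, hu]
    simp only [sub_mul, Matrix.smul_mul, one_mul, Matrix.add_apply, Matrix.sub_apply,
      Matrix.smul_apply, smul_eq_mul]
    ring
  have huU : residue A u ≠ 0 := by
    have e3 : (residue A).mapMatrix (X * Y - Y * X)
        = ψ.mapMatrix (rbar g₀ * rbar g₁ - rbar g₁ * rbar g₀) := by
      simp only [map_sub, map_mul, e1, hX, hY]
    have e4 := congrFun (congrFun e3 i₀) j₀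
    simp only [RingHom.mapMatrix_apply, Matrix.map_apply] at e4
    rw [hu, e4]
    exact (map_ne_zero ψ).mpr hne
  have hβU : IsUnit β := by
    apply isUnit_of_residue_ne_zero
    rw [hβeq, map_sub, map_mul, (residue_eq_zero_iff α).mpr hαm, mul_zero, zero_sub]
    exact neg_ne_zero.mpr huU
  obtain ⟨c, hcm, hc⟩ := exists_root_quadratic α β γ hαm hβU
  have hrc : residue A c = 0 := (residue_eq_zero_iff c).mpr hcm
  set D := 1 + c * t + c ^ 2 * δ with hD
  have hrD : residue A D = 1 := by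
    rw [hD]; simp [hrc]
  have hDU : IsUnit D := isUnit_of_residue_ne_zero D (by rw [hrD]; exact one_ne_zero)
  obtain ⟨w, hw⟩ := hDU
  have hw2 : (↑w⁻¹ : A) * D = 1 := by rw [← hw]; exact w.inv_mul
  have hrw : residue A (↑w⁻¹ : A) = 1 := by
    have := congrArg (residue A) hw2
    rw [map_mul, hrD, mul_one, map_one] at this
    exact this
  let Q : M2 A := 1 + c • X
  let P : M2 A := (↑w⁻¹ : A) • (1 + c • X')
  have hprod1 : (1 + c • X') * (1 + c • X) = D • (1 : M2 A) := by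
    have : (1 + c • X') * (1 + c • X) = 1 + c • (X' + X) + (c ^ 2) • (X' * X) := by
      simp only [add_mul, mul_add, one_mul, mul_one, Matrix.smul_mul, Matrix.mul_smul, smul_add,
        smul_smul, pow_two]
      abel
    rw [this, hX'X, hsum, sub_add_cancel, hD]
    simp only [smul_smul, add_smul, one_smul]
  have hprod2 : (1 + c • X) * (1 + c • X') = D • (1 : M2 A) := by
    have : (1 + c • X) * (1 + c • X') = 1 + c • (X' + X) + (c ^ 2) • (X * X') := by
      simp only [add_mul, mul_add, one_mul, mul_one, Matrix.smul_mul, Matrix.mul_smul, smul_add,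
        smul_smul, pow_two]
      abel
    rw [this, hXX', hsum, sub_add_cancel, hD]
    simp only [smul_smul, add_smul, one_smul]
  have hPQ : P * Q = 1 := by
    show ((↑w⁻¹ : A) • (1 + c • X')) * (1 + c • X) = 1
    rw [Matrix.smul_mul, hprod1, smul_smul, hw2, one_smul]
  have hQP : Q * P = 1 := by
    show (1 + c • X) * ((↑w⁻¹ : A) • (1 + c • X')) = 1
    rw [Matrix.mul_smul, hprod2, smul_smul, hw2, one_smul]
  have hP : (residue A).mapMatrix P = 1 := by
    ext i j
    simp only [P, RingHom.mapMatrix_apply, Matrix.map_apply, Matrix.smul_apply, Matrix.add_apply,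
      smul_eq_mul, map_mul, map_add, hrw, hrc, zero_mul, add_zero, one_mul]
    rw [Matrix.one_apply, Matrix.one_apply]
    split_ifs <;> simp
  refine ⟨P, Q, hPQ, hQP, ?_, ?_, ?_⟩
  · rw [mapMat_conjMat_of_residue_one r P Q hPQ hQP hP, hl]
  · rw [conjMat_apply]
    have hcomm : X * Q = Q * X := by
      simp only [Q, mul_add, add_mul, mul_one, one_mul, Matrix.mul_smul, Matrix.smul_mul]
    rw [mul_assoc, hcomm, ← mul_assoc, hPQ, one_mul]
  · rw [conjMat_apply]
    have hexp : (1 + c • X') * Y * (1 + c • X)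
        = Y + c • (X' * Y + Y * X) + (c ^ 2) • (X' * Y * X) := by
      simp only [add_mul, mul_add, one_mul, mul_one, Matrix.smul_mul, Matrix.mul_smul, smul_add,
        smul_smul, pow_two]
      abel
    show (((↑w⁻¹ : A) • (1 + c • X')) * Y * (1 + c • X)) i₀ j₀ = y₀
    rw [Matrix.smul_mul, Matrix.smul_mul, hexp]
    simp only [Matrix.smul_apply, Matrix.add_apply, smul_eq_mul]
    have h5 : Y i₀ j₀ + c * ((X' * Y) i₀ j₀ + (Y * X) i₀ j₀) + c ^ 2 * (X' * Y * X) i₀ j₀
        = y₀ * D := by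
      have := hc
      rw [hα, hβ, hγ, Matrix.add_apply] at this
      rw [hD]
      linear_combination this
    rw [h5]
    linear_combination y₀ * hw2

/-- (R2) existence of the normal form over a henselian local ring -/
theorem exists_normalize [HenselianLocalRing A]
    (h00 : rbar g₀ 0 0 = 0) (h10 : rbar g₀ 1 0 = 1)
    (hne : (rbar g₀ * rbar g₁ - rbar g₁ * rbar g₀) i₀ j₀ ≠ 0)
    (hy₀ : residue A y₀ = ψ (rbar g₁ i₀ j₀))
    (r : GQ →* M2 A) (hl : mapMat (residue A) r = mapMat ψ rbar) :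
    ∃ (P Q : M2 A) (hPQ : P * Q = 1) (hQP : Q * P = 1),
      mapMat (residue A) (conjMat P Q hPQ hQP r) = mapMat ψ rbar ∧
      IsNormal g₀ g₁ i₀ j₀ y₀ (conjMat P Q hPQ hQP r) := by
  obtain ⟨P₁, Q₁, hPQ₁, hQP₁, hl₁, ha, hb⟩ := exists_normalize_step1 rbar g₀ ψ h00 h10 r hl
  obtain ⟨P₂, Q₂, hPQ₂, hQP₂, hl₂, hc, hd⟩ :=
    exists_normalize_step2 rbar g₀ g₁ i₀ j₀ ψ y₀ hne hy₀ (conjMat P₁ Q₁ hPQ₁ hQP₁ r) hl₁
  have hPQ : (P₂ * P₁) * (Q₁ * Q₂) = 1 := by
    rw [mul_assoc, ← mul_assoc P₁, hPQ₁, one_mul, hPQ₂]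
  have hQP : (Q₁ * Q₂) * (P₂ * P₁) = 1 := by
    rw [mul_assoc, ← mul_assoc Q₂, hQP₂, one_mul, hQP₁]
  have heq : conjMat (P₂ * P₁) (Q₁ * Q₂) hPQ hQP r
      = conjMat P₂ Q₂ hPQ₂ hQP₂ (conjMat P₁ Q₁ hPQ₁ hQP₁ r) := by
    ext1 σ
    simp only [conjMat_apply, mul_assoc]
  refine ⟨P₂ * P₁, Q₁ * Q₂, hPQ, hQP, ?_, ?_⟩
  · rw [heq, hl₂]
  · rw [heq]
    exact ⟨by rw [hc, ha], by rw [hc, hb], hd⟩

end

end Fermat.Agent.S53Lib
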