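import Fermat.Agent.S53.Rigid

set_option autoImplicit false
set_option linter.unusedSectionVars false
set_option linter.unusedSimpArgs false
set_option linter.unusedVariables false
set_option linter.style.haveILetI false

noncomputable section

namespace Fermat.Agent.S53Lib

open IsLocalRing

variable (𝒪 : Type) [CommRing 𝒪] (g₀ g₁ : GQ) (i₀ j₀ : Fin 2) (y : 𝒪)

/-- the polynomial ring on the matrix entries -/
abbrev Pol : Type := MvPolynomial (GQ × Fin 2 × Fin 2) 𝒪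

/-- the generic matrices -/
def genMat (σ : GQ) : M2 (Pol 𝒪) := Matrix.of fun i j => MvPolynomial.X (σ, i, j)

/-- the relations of a normalised representation -/
def relSet : Set (Pol 𝒪) :=
  {p | ∃ σ τ i j, p = (genMat 𝒪 (σ * τ) - genMat 𝒪 σ * genMat 𝒪 τ) i j} ∪
  {p | ∃ i j, p = (genMat 𝒪 1 - 1) i j} ∪
  {genMat 𝒪 g₀ 0 0, genMat 𝒪 g₀ 1 0 - 1, genMat 𝒪 g₁ i₀ j₀ - MvPolynomial.C y}

/-- the universal ring of normalised representations -/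
def US : Type := Pol 𝒪 ⧸ Ideal.span (relSet 𝒪 g₀ g₁ i₀ j₀ y)

instance : CommRing (US 𝒪 g₀ g₁ i₀ j₀ y) :=
  inferInstanceAs (CommRing (Pol 𝒪 ⧸ Ideal.span (relSet 𝒪 g₀ g₁ i₀ j₀ y)))

instance : Algebra 𝒪 (US 𝒪 g₀ g₁ i₀ j₀ y) :=
  inferInstanceAs (Algebra 𝒪 (Pol 𝒪 ⧸ Ideal.span (relSet 𝒪 g₀ g₁ i₀ j₀ y)))

/-- the quotient map -/
def mkUS : Pol 𝒪 →ₐ[𝒪] US 𝒪 g₀ g₁ i₀ j₀ y :=
  Ideal.Quotient.mkₐ 𝒪 (Ideal.span (relSet 𝒪 g₀ g₁ i₀ j₀ y))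

theorem mkUS_surjective : Function.Surjective (mkUS 𝒪 g₀ g₁ i₀ j₀ y) :=
  Ideal.Quotient.mk_surjective

theorem mkUS_eq_zero {p : Pol 𝒪} (hp : p ∈ relSet 𝒪 g₀ g₁ i₀ j₀ y) :
    mkUS 𝒪 g₀ g₁ i₀ j₀ y p = 0 :=
  Ideal.Quotient.eq_zero_iff_mem.mpr (Ideal.subset_span hp)

/-- the universal normalised representation -/
def univRep : GQ →* M2 (US 𝒪 g₀ g₁ i₀ j₀ y) where
  toFun σ := (mkUS 𝒪 g₀ g₁ i₀ j₀ y).toRingHom.mapMatrix (genMat 𝒪 σ)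
  map_one' := by
    rw [← sub_eq_zero, ← map_one (mkUS 𝒪 g₀ g₁ i₀ j₀ y).toRingHom.mapMatrix, ← map_sub]
    ext i j
    exact mkUS_eq_zero 𝒪 g₀ g₁ i₀ j₀ y (Or.inl (Or.inr ⟨i, j, rfl⟩))
  map_mul' σ τ := by
    rw [← sub_eq_zero, ← map_mul, ← map_sub]
    ext i j
    exact mkUS_eq_zero 𝒪 g₀ g₁ i₀ j₀ y (Or.inl (Or.inl ⟨σ, τ, i, j, rfl⟩))

theorem univRep_apply (σ : GQ) (i j : Fin 2) :
    univRep 𝒪 g₀ g₁ i₀ j₀ y σ i j = mkUS 𝒪 g₀ g₁ i₀ j₀ y (MvPolynomial.X (σ, i, j)) := rfl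

theorem univRep_isNormal :
    IsNormal g₀ g₁ i₀ j₀ (algebraMap 𝒪 (US 𝒪 g₀ g₁ i₀ j₀ y) y) (univRep 𝒪 g₀ g₁ i₀ j₀ y) := by
  refine ⟨?_, ?_, ?_⟩
  · exact mkUS_eq_zero 𝒪 g₀ g₁ i₀ j₀ y (Or.inr (by simp))
  · have := mkUS_eq_zero 𝒪 g₀ g₁ i₀ j₀ y (p := genMat 𝒪 g₀ 1 0 - 1) (Or.inr (by simp))
    rw [map_sub, map_one, sub_eq_zero] at this
    exact this
  · have := mkUS_eq_zero 𝒪 g₀ g₁ i₀ j₀ y (p := genMat 𝒪 g₁ i₀ j₀ - MvPolynomial.C y)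
      (Or.inr (by simp))
    rw [map_sub, sub_eq_zero] at this
    rw [univRep_apply]
    refine this.trans ?_
    exact (mkUS 𝒪 g₀ g₁ i₀ j₀ y).commutes y

variable {𝒪 g₀ g₁ i₀ j₀ y}
variable {A : Type} [CommRing A] [Algebra 𝒪 A]

/-- evaluation of polynomials at the entries of a representation -/
def evalPol (r : GQ →* M2 A) : Pol 𝒪 →ₐ[𝒪] A :=
  MvPolynomial.aeval fun p : GQ × Fin 2 × Fin 2 => r p.1 p.2.1 p.2.2

theorem evalPol_genMat (r : GQ →* M2 A) (σ : GQ) :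
    (evalPol (𝒪 := 𝒪) r).toRingHom.mapMatrix (genMat 𝒪 σ) = r σ := by
  ext i j
  simp [evalPol, genMat]

theorem evalPol_relSet (r : GQ →* M2 A) (hn : IsNormal g₀ g₁ i₀ j₀ (algebraMap 𝒪 A y) r)
    (p : Pol 𝒪) (hp : p ∈ Ideal.span (relSet 𝒪 g₀ g₁ i₀ j₀ y)) : evalPol r p = 0 := by
  have hle : Ideal.span (relSet 𝒪 g₀ g₁ i₀ j₀ y) ≤ RingHom.ker (evalPol (𝒪 := 𝒪) r).toRingHom := by
    rw [Ideal.span_le]
    have hent : ∀ (M : M2 (Pol 𝒪)) i j, (evalPol (𝒪 := 𝒪) r) (M i j)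
        = (evalPol (𝒪 := 𝒪) r).toRingHom.mapMatrix M i j := fun M i j => rfl
    rintro p ((⟨σ, τ, i, j, rfl⟩ | ⟨i, j, rfl⟩) | hp)
    · show (evalPol (𝒪 := 𝒪) r) _ = 0
      rw [hent, map_sub, map_mul, evalPol_genMat, evalPol_genMat, evalPol_genMat, map_mul, sub_self]
      rfl
    · show (evalPol (𝒪 := 𝒪) r) _ = 0
      rw [hent, map_sub, evalPol_genMat, map_one, map_one, sub_self]
      rfl
    · simp only [Set.mem_insert_iff, Set.mem_singleton_iff] at hp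
      obtain ⟨h1, h2, h3⟩ := hn
      rcases hp with rfl | rfl | rfl
      · show (evalPol (𝒪 := 𝒪) r) _ = 0
        rw [hent, evalPol_genMat, h1]
      · show (evalPol (𝒪 := 𝒪) r) _ = 0
        rw [map_sub, hent, evalPol_genMat, h2, map_one, sub_self]
      · show (evalPol (𝒪 := 𝒪) r) _ = 0
        rw [map_sub, hent, evalPol_genMat, h3]
        simp [evalPol]
  exact hle hp

/-- the classifying map of a normalised representation -/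
def liftUS (r : GQ →* M2 A) (hn : IsNormal g₀ g₁ i₀ j₀ (algebraMap 𝒪 A y) r) :
    US 𝒪 g₀ g₁ i₀ j₀ y →ₐ[𝒪] A :=
  Ideal.Quotient.liftₐ (Ideal.span (relSet 𝒪 g₀ g₁ i₀ j₀ y)) (evalPol r) (evalPol_relSet r hn)

theorem liftUS_mkUS (r : GQ →* M2 A) (hn : IsNormal g₀ g₁ i₀ j₀ (algebraMap 𝒪 A y) r)
    (p : Pol 𝒪) : liftUS r hn (mkUS 𝒪 g₀ g₁ i₀ j₀ y p) = evalPol r p := rfl

theorem mapMat_liftUS (r : GQ →* M2 A) (hn : IsNormal g₀ g₁ i₀ j₀ (algebraMap 𝒪 A y) r) :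
    mapMat (liftUS r hn : US 𝒪 g₀ g₁ i₀ j₀ y →+* A) (univRep 𝒪 g₀ g₁ i₀ j₀ y) = r := by
  ext σ i j
  show liftUS r hn (mkUS 𝒪 g₀ g₁ i₀ j₀ y (MvPolynomial.X (σ, i, j))) = r σ i j
  rw [liftUS_mkUS]
  simp [evalPol]

/-- algebra maps out of the universal ring are determined by the representation -/
theorem algHom_US_ext (φ φ' : US 𝒪 g₀ g₁ i₀ j₀ y →ₐ[𝒪] A)
    (h : mapMat (φ : US 𝒪 g₀ g₁ i₀ j₀ y →+* A) (univRep 𝒪 g₀ g₁ i₀ j₀ y)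
      = mapMat (φ' : US 𝒪 g₀ g₁ i₀ j₀ y →+* A) (univRep 𝒪 g₀ g₁ i₀ j₀ y)) : φ = φ' := by
  have h1 : φ.comp (mkUS 𝒪 g₀ g₁ i₀ j₀ y) = φ'.comp (mkUS 𝒪 g₀ g₁ i₀ j₀ y) := by
    apply MvPolynomial.algHom_ext
    rintro ⟨σ, i, j⟩
    exact congrFun (congrFun (DFunLike.congr_fun h σ) i) j
  ext x
  obtain ⟨p, rfl⟩ := mkUS_surjective 𝒪 g₀ g₁ i₀ j₀ y x
  exact DFunLike.congr_fun h1 p

end Fermat.Agent.S53Lib
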