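import Fermat.Agent.S53.Good
import Fermat.Agent.S53.Univ
import Fermat.Agent.S53.Defs

set_option autoImplicit false
set_option linter.unusedSectionVars false
set_option linter.unusedSimpArgs false
set_option linter.unusedVariables false
set_option linter.style.haveILetI false

noncomputable section

namespace Fermat.Agent.S53Lib

open IsLocalRing GaloisRep

variable {𝒪 : Type} [CommRing 𝒪] [IsLocalRing 𝒪]
variable {rbar : GQ →* M2 (ResidueField 𝒪)} {g₀ g₁ : GQ} {i₀ j₀ : Fin 2} {y : 𝒪}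
variable (hnb : IsNormal g₀ g₁ i₀ j₀ (algebraMap 𝒪 (ResidueField 𝒪) y) rbar)

/-- the residual point of the universal ring -/
def epsUS : US 𝒪 g₀ g₁ i₀ j₀ y →ₐ[𝒪] ResidueField 𝒪 := liftUS rbar hnb

/-- the maximal ideal of the residual point -/
def mUS : Ideal (US 𝒪 g₀ g₁ i₀ j₀ y) := RingHom.ker (epsUS hnb)

theorem epsUS_surjective : Function.Surjective (epsUS hnb) := by
  intro x
  obtain ⟨o, rfl⟩ := residue_surjective x
  exact ⟨algebraMap 𝒪 _ o, (epsUS hnb).commutes o⟩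

instance mUS_isMaximal : (mUS hnb).IsMaximal :=
  RingHom.ker_isMaximal_of_surjective (epsUS hnb) (epsUS_surjective hnb)

theorem mem_mUS (s : US 𝒪 g₀ g₁ i₀ j₀ y) : s ∈ mUS hnb ↔ epsUS hnb s = 0 := RingHom.mem_ker

theorem mapMat_epsUS :
    mapMat (epsUS hnb : US 𝒪 g₀ g₁ i₀ j₀ y →+* ResidueField 𝒪) (univRep 𝒪 g₀ g₁ i₀ j₀ y) = rbar :=
  mapMat_liftUS rbar hnb

theorem mUS_hres : Function.Surjective
    (fun o : 𝒪 => Ideal.Quotient.mk (mUS hnb) (algebraMap 𝒪 (US 𝒪 g₀ g₁ i₀ j₀ y) o)) := by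
  intro x
  obtain ⟨s, rfl⟩ := Ideal.Quotient.mk_surjective x
  obtain ⟨o, ho⟩ := residue_surjective (epsUS hnb s)
  refine ⟨o, ?_⟩
  show Ideal.Quotient.mk (mUS hnb) _ = _
  rw [Ideal.Quotient.eq, mem_mUS, map_sub, (epsUS hnb).commutes o, sub_eq_zero]
  exact ho

theorem mUS_hm𝒪 : ∀ o ∈ maximalIdeal 𝒪, algebraMap 𝒪 (US 𝒪 g₀ g₁ i₀ j₀ y) o ∈ mUS hnb := by
  intro o ho
  rw [mem_mUS, (epsUS hnb).commutes o]
  exact (residue_eq_zero_iff o).mpr ho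

section lifts

variable {A : Type} [CommRing A] [IsLocalRing A] [Algebra 𝒪 A]
variable (ψ : ResidueField 𝒪 →+* ResidueField A)
variable (hψ : ∀ o, ψ (residue 𝒪 o) = residue A (algebraMap 𝒪 A o))
include hψ

/-- (L6) -/
theorem lifts_of_le_comap (φ : US 𝒪 g₀ g₁ i₀ j₀ y →ₐ[𝒪] A)
    (hm : mUS hnb ≤ (maximalIdeal A).comap (φ : US 𝒪 g₀ g₁ i₀ j₀ y →+* A)) :
    mapMat (residue A) (mapMat (φ : US 𝒪 g₀ g₁ i₀ j₀ y →+* A) (univRep 𝒪 g₀ g₁ i₀ j₀ y))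
      = mapMat ψ rbar := by
  ext σ i j
  obtain ⟨o, ho⟩ := residue_surjective (rbar σ i j)
  have h1 : univRep 𝒪 g₀ g₁ i₀ j₀ y σ i j - algebraMap 𝒪 _ o ∈ mUS hnb := by
    rw [mem_mUS, map_sub, (epsUS hnb).commutes o, sub_eq_zero]
    have := congrFun (congrFun (DFunLike.congr_fun (mapMat_epsUS hnb) σ) i) j
    rw [← ho] at this
    exact this
  have h2 : φ (univRep 𝒪 g₀ g₁ i₀ j₀ y σ i j - algebraMap 𝒪 _ o) ∈ maximalIdeal A := hm h1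
  rw [← residue_eq_zero_iff, map_sub, map_sub, φ.commutes o, sub_eq_zero] at h2
  show residue A (φ (univRep 𝒪 g₀ g₁ i₀ j₀ y σ i j)) = ψ (rbar σ i j)
  rw [h2, ← ho, hψ]

/-- (L7) -/
theorem le_comap_of_lifts (φ : US 𝒪 g₀ g₁ i₀ j₀ y →ₐ[𝒪] A)
    (hl : mapMat (residue A) (mapMat (φ : US 𝒪 g₀ g₁ i₀ j₀ y →+* A) (univRep 𝒪 g₀ g₁ i₀ j₀ y))
      = mapMat ψ rbar) :
    mUS hnb ≤ (maximalIdeal A).comap (φ : US 𝒪 g₀ g₁ i₀ j₀ y →+* A) := by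
  let f₁ : US 𝒪 g₀ g₁ i₀ j₀ y →ₐ[𝒪] ResidueField A :=
    { toRingHom := (residue A).comp (φ : US 𝒪 g₀ g₁ i₀ j₀ y →+* A)
      commutes' := fun o => by
        show residue A (φ (algebraMap 𝒪 _ o)) = _
        rw [φ.commutes o]; rfl }
  let f₂ : US 𝒪 g₀ g₁ i₀ j₀ y →ₐ[𝒪] ResidueField A :=
    { toRingHom := ψ.comp (epsUS hnb : US 𝒪 g₀ g₁ i₀ j₀ y →+* ResidueField 𝒪)
      commutes' := fun o => by
        show ψ (epsUS hnb (algebraMap 𝒪 _ o)) = _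
        rw [(epsUS hnb).commutes o]
        exact hψ o }
  have h12 : f₁ = f₂ := by
    apply algHom_US_ext
    have e2 : mapMat (f₂ : US 𝒪 g₀ g₁ i₀ j₀ y →+* ResidueField A) (univRep 𝒪 g₀ g₁ i₀ j₀ y)
        = mapMat ψ (mapMat (epsUS hnb : US 𝒪 g₀ g₁ i₀ j₀ y →+* ResidueField 𝒪)
            (univRep 𝒪 g₀ g₁ i₀ j₀ y)) := rfl
    rw [e2, mapMat_epsUS, ← hl]
    rfl
  intro s hs
  show φ s ∈ maximalIdeal A
  rw [← residue_eq_zero_iff]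
  have h3 : f₁ s = f₂ s := by rw [h12]
  have h4 : f₂ s = ψ (epsUS hnb s) := rfl
  rw [(mem_mUS hnb s).mp hs, map_zero] at h4
  exact h3.trans h4

end lifts

end Fermat.Agent.S53Lib
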