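import Fermat.Agent.S53.Setup

set_option autoImplicit false
set_option linter.unusedSectionVars false
set_option linter.unusedSimpArgs false
set_option linter.unusedVariables false
set_option linter.style.haveILetI false

noncomputable section

namespace Fermat.Agent.S53Lib

open IsLocalRing GaloisRep

variable {𝒪 : Type} [CommRing 𝒪] [IsLocalRing 𝒪] [Finite (ResidueField 𝒪)]
variable {𝒟 : ∀ ⦃A : Type⦄ [CommRing A] [IsLocalRing A] [Algebra 𝒪 A], GaloisRepAdic A → Prop}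
variable {rbar : GQ →* M2 (ResidueField 𝒪)} {g₀ g₁ : GQ} {i₀ j₀ : Fin 2} {y : 𝒪}
variable (hnb : IsNormal g₀ g₁ i₀ j₀ (algebraMap 𝒪 (ResidueField 𝒪) y) rbar)

omit [Finite (ResidueField 𝒪)] in
theorem isArtinianTestAlgebra_residueField : IsArtinianTestAlgebra 𝒪 (ResidueField 𝒪) := by
  refine ⟨?_, ?_, inferInstance⟩
  · show IsLocalHom (residue 𝒪)
    infer_instance
  · exact (residue_surjective (R := ResidueField 𝒪)).comp (residue_surjective (R := 𝒪))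

variable (h𝒟 : IsDeformationCondition 𝒪 𝒟) (ρbar : ResidualGaloisRep (ResidueField 𝒪))
variable (hb : GaloisFactorsThroughFiniteLevel rbar) (hρ : ρbar.IsEquiv (ofMatRes rbar hb))
include h𝒟 hρ

/-- (g4) -/
theorem good_mUS (hbar : 𝒟 (GaloisRepAdic.ofResidualGaloisRep ρbar)) :
    Good 𝒟 (univRep 𝒪 g₀ g₁ i₀ j₀ y) (mUS hnb) (mUS hnb) := by
  have hk := isArtinianTestAlgebra_residueField (𝒪 := 𝒪)
  have hc : MatCont rbar := (matCont_iff_of_artinian rbar).mpr hb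
  have hD : 𝒟 (ofMat rbar hc) := by
    obtain ⟨e⟩ := hρ
    exact h𝒟.of_isEquiv hk ⟨{ toLinearEquiv := e.toLinearEquiv, map_apply := e.map_apply }⟩ hbar
  have hp : DPoint 𝒟 (univRep 𝒪 g₀ g₁ i₀ j₀ y) (mUS hnb) (ResidueField 𝒪) (epsUS hnb) := by
    refine ⟨hk, ?_, ?_⟩
    · intro s hs
      show epsUS hnb s ∈ maximalIdeal (ResidueField 𝒪)
      rw [(mem_mUS hnb s).mp hs]
      exact Ideal.zero_mem _
    · have h1 := mapMat_epsUS hnb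
      have hc' : MatCont (mapMat (epsUS hnb : US 𝒪 g₀ g₁ i₀ j₀ y →+* ResidueField 𝒪)
          (univRep 𝒪 g₀ g₁ i₀ j₀ y)) := by rw [h1]; exact hc
      exact ⟨hc', D_congr h1.symm hc hc' hD⟩
  exact hp.good_ker h𝒟 (mUS_hres hnb) (mUS_hm𝒪 hnb)

omit h𝒟 hρ in
theorem isArtinianTestAlgebra_dual :
    letI := dualAlg 𝒪
    IsArtinianTestAlgebra 𝒪 (DualNumber (ResidueField 𝒪)) := by
  letI := dualAlg 𝒪
  haveI : Finite (DualNumber (ResidueField 𝒪)) :=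
    inferInstanceAs (Finite (ResidueField 𝒪 × ResidueField 𝒪))
  refine ⟨⟨fun o ho => ?_⟩, ?_, inferInstance⟩
  · have h1 : IsUnit (TrivSqZeroExt.fst (algebraMap 𝒪 (DualNumber (ResidueField 𝒪)) o)) :=
      TrivSqZeroExt.isUnit_iff_isUnit_fst.mp ho
    have h2 : TrivSqZeroExt.fst (algebraMap 𝒪 (DualNumber (ResidueField 𝒪)) o) = residue 𝒪 o := rfl
    rw [h2] at h1
    exact (isUnit_map_iff (residue 𝒪) o).mp h1
  · intro x
    obtain ⟨e, rfl⟩ := residue_surjective x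
    obtain ⟨o, ho⟩ := residue_surjective (TrivSqZeroExt.fst e)
    refine ⟨o, ?_⟩
    show residue _ (algebraMap 𝒪 (DualNumber (ResidueField 𝒪)) o) = residue _ e
    rw [← sub_eq_zero, ← map_sub, residue_eq_zero_iff, mem_maximalIdeal, mem_nonunits_iff,
      TrivSqZeroExt.isUnit_iff_isUnit_fst]
    have h2 : TrivSqZeroExt.fst (algebraMap 𝒪 (DualNumber (ResidueField 𝒪)) o - e) = 0 := by
      rw [TrivSqZeroExt.fst_sub, ← ho]
      exact sub_self _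
    rw [h2]
    exact not_isUnit_zero

omit [Finite (ResidueField 𝒪)] h𝒟 hρ in
theorem isNormal_mapMat_univRep {A : Type} [CommRing A] [Algebra 𝒪 A]
    (φ : US 𝒪 g₀ g₁ i₀ j₀ y →ₐ[𝒪] A) :
    IsNormal g₀ g₁ i₀ j₀ (algebraMap 𝒪 A y)
      (mapMat (φ : US 𝒪 g₀ g₁ i₀ j₀ y →+* A) (univRep 𝒪 g₀ g₁ i₀ j₀ y)) := by
  have := (univRep_isNormal 𝒪 g₀ g₁ i₀ j₀ y).map (φ : US 𝒪 g₀ g₁ i₀ j₀ y →+* A)
  have h2 : (φ : US 𝒪 g₀ g₁ i₀ j₀ y →+* A) (algebraMap 𝒪 _ y) = algebraMap 𝒪 A y := φ.commutes y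
  rwa [h2] at this

/-- (g5) -/
theorem finite_tangent_set
    (hne : (rbar g₀ * rbar g₁ - rbar g₁ * rbar g₀) i₀ j₀ ≠ 0)
    (hfin : TangentFinite 𝒪 ρbar 𝒟) :
    letI := dualAlg 𝒪
    Set.Finite {φ : US 𝒪 g₀ g₁ i₀ j₀ y →ₐ[𝒪] DualNumber (ResidueField 𝒪) |
      Good 𝒟 (univRep 𝒪 g₀ g₁ i₀ j₀ y) (mUS hnb) (RingHom.ker φ)} := by
  letI := dualAlg 𝒪
  letI algk : Algebra (ResidueField 𝒪) (ResidueField (DualNumber (ResidueField 𝒪))) :=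
    ((IsLocalRing.residue (DualNumber (ResidueField 𝒪))).comp
      (algebraMap (ResidueField 𝒪) (DualNumber (ResidueField 𝒪)))).toAlgebra
  have hE := isArtinianTestAlgebra_dual (𝒪 := 𝒪)
  let ψ : ResidueField 𝒪 →+* ResidueField (DualNumber (ResidueField 𝒪)) :=
    (IsLocalRing.residue (DualNumber (ResidueField 𝒪))).comp
      (algebraMap (ResidueField 𝒪) (DualNumber (ResidueField 𝒪)))
  have hψ : ∀ o, ψ (residue 𝒪 o) = residue _ (algebraMap 𝒪 (DualNumber (ResidueField 𝒪)) o) :=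
    fun o => rfl
  let st : Setoid {ρ : GaloisRepAdic (DualNumber (ResidueField 𝒪)) //
      𝒟 ρ ∧ ρ.residual.IsEquiv (ρbar.baseChange (ResidueField (DualNumber (ResidueField 𝒪)))) } :=
    ⟨fun ρ ρ' => ρ.1.IsEquiv ρ'.1, ⟨fun ρ => ⟨GaloisRepAdic.Equiv.refl ρ.1⟩,
        fun ⟨e⟩ => ⟨e.symm⟩, fun ⟨e⟩ ⟨e'⟩ => ⟨e.trans e'⟩⟩⟩
  have hfin' : Finite (Quotient st) := hfin
  have hpt : ∀ φ : US 𝒪 g₀ g₁ i₀ j₀ y →ₐ[𝒪] DualNumber (ResidueField 𝒪),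
      Good 𝒟 (univRep 𝒪 g₀ g₁ i₀ j₀ y) (mUS hnb) (RingHom.ker φ) →
      DPoint 𝒟 (univRep 𝒪 g₀ g₁ i₀ j₀ y) (mUS hnb) (DualNumber (ResidueField 𝒪)) φ := by
    intro φ hg
    obtain ⟨hloc, hp⟩ := hg
    have := DPoint.comp h𝒟 hp (Ideal.kerLiftAlg φ) hE
    have h2 : (Ideal.kerLiftAlg φ).comp (Ideal.Quotient.mkₐ 𝒪 (RingHom.ker φ)) = φ :=
      AlgHom.ext fun s => rfl
    rwa [h2] at this
  let F : {φ : US 𝒪 g₀ g₁ i₀ j₀ y →ₐ[𝒪] DualNumber (ResidueField 𝒪) //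
      Good 𝒟 (univRep 𝒪 g₀ g₁ i₀ j₀ y) (mUS hnb) (RingHom.ker φ)} → Quotient st := fun φ =>
    Quotient.mk st ⟨ofMat _ (hpt φ.1 φ.2).2.2.choose, (hpt φ.1 φ.2).2.2.choose_spec,
      residual_isEquiv_of_lifts ρbar rbar hb hρ ψ _ _ (fun σ i j =>
        congrFun (congrFun (DFunLike.congr_fun
          (lifts_of_le_comap hnb ψ hψ φ.1 (hpt φ.1 φ.2).2.1) σ) i) j)⟩
  have hF : Function.Injective F := by
    rintro ⟨φ, hφ⟩ ⟨φ', hφ'⟩ h
    have h1 : (ofMat _ (hpt φ hφ).2.2.choose).IsEquiv (ofMat _ (hpt φ' hφ').2.2.choose) :=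
      Quotient.exact h
    obtain ⟨P, Q, hPQ, hQP, hconj⟩ := (ofMat_isEquiv_iff _ _ _ _).mp h1
    have h2 := normal_unique rbar g₀ g₁ i₀ j₀ ψ (algebraMap 𝒪 (DualNumber (ResidueField 𝒪)) y) hne
      _ _ (lifts_of_le_comap hnb ψ hψ φ (hpt φ hφ).2.1)
      (lifts_of_le_comap hnb ψ hψ φ' (hpt φ' hφ').2.1)
      (isNormal_mapMat_univRep φ) (isNormal_mapMat_univRep φ') P Q hPQ hconj
    exact Subtype.ext (algHom_US_ext φ φ' h2)
  have hfinite : Finite {φ : US 𝒪 g₀ g₁ i₀ j₀ y →ₐ[𝒪] DualNumber (ResidueField 𝒪) //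
      Good 𝒟 (univRep 𝒪 g₀ g₁ i₀ j₀ y) (mUS hnb) (RingHom.ker φ)} := Finite.of_injective F hF
  exact Set.finite_coe_iff.mp hfinite

end Fermat.Agent.S53Lib
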